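/-
Program I (HECKE, (H1c), helper12): the fundamental identity `∑_{w ∣ v} e(w) f(w) = [F' : F]` for a
finite extension `F' / F` of function fields in one variable over an algebraically closed field
of characteristic zero, in the Prelude shapes `AlgebraicCurve.SumRamificationInertia`,
`AlgebraicCurve.FundamentalIdentity` and `AlgebraicCurve.FundamentalIdentityAlong`.

Proof: by Riemann's inequality there is `f : F` whose only pole is `v`; compare the pole divisors
of `f` in `F` and in `F'` (degree formula `FF.sum_ord_poles` on both levels).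
-/
import Mathlib
import Fermat.Prelude.Def_AlgebraicCurve_Correspondence
import Fermat.Agent.RR.LHypGen

set_option autoImplicit false
set_option linter.unusedSectionVars false

open AlgebraicCurve IntermediateField

namespace Fermat.Agent.ES.HECKE.FundId12

open Fermat.Agent.X0.FF Fermat.Agent.RR.LSpace

section SinglePole

variable {K F : Type*} [Field K] [Field F] [Algebra K F] [IsAlgClosed K] [CharZero K] {x : F}

/-- There is a function whose only pole is the given place `v` (Riemann's inequality). -/
theorem exists_single_pole (hx : IsGen K x) (v : Place K F) :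
    ∃ f : F, Transcendental K f ∧ v.ord f < 0 ∧ ∀ w : Place K F, w ≠ v → 0 ≤ w.ord f := by
  classical
  have H := Fermat.Agent.RR.LHypGen.lHyp_of_isGen hx
  obtain ⟨γ, hγ⟩ := Fermat.Agent.RR.LHypGen.riemann_inequality_of_isGen hx
  set n : ℕ := (γ + 1).toNat + 1 with hn
  set D : Divisor K F := Finsupp.single v (n : ℤ) with hD
  have hdeg : Divisor.degree D = n := degree_single H v n
  have h2 : (2 : ℤ) ≤ Module.finrank K (riemannRochSpace D) := by
    have := hγ D
    rw [hdeg] at this
    omega
  have hex : ∃ f ∈ riemannRochSpace D, f ∉ Submodule.span K {(1 : F)} := by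
    by_contra hcon
    push Not at hcon
    have hle : riemannRochSpace D ≤ Submodule.span K {(1 : F)} := hcon
    have h3 := Submodule.finrank_mono hle
    have h1 : Module.finrank K (Submodule.span K {(1 : F)}) ≤ 1 :=
      le_of_eq (finrank_span_singleton one_ne_zero)
    omega
  obtain ⟨f, hfD, hf1⟩ := hex
  have hf0 : f ≠ 0 := by
    rintro rfl
    exact hf1 (Submodule.zero_mem _)
  have hford := (mem_L_iff hf0).mp hfD
  have hnonconst : ¬ ∃ c : K, f = algebraMap K F c := by
    rintro ⟨c, rfl⟩
    apply hf1
    rw [Algebra.algebraMap_eq_smul_one]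
    exact Submodule.smul_mem _ _ (Submodule.subset_span rfl)
  have htr : Transcendental K f := fun halg => hnonconst (eq_algebraMap_of_isAlgebraic halg)
  have hothers : ∀ w : Place K F, w ≠ v → 0 ≤ w.ord f := by
    intro w hw
    have := hford w
    rw [hD, Finsupp.single_eq_of_ne hw] at this
    simpa using this
  refine ⟨f, htr, ?_, hothers⟩
  by_contra hv
  push Not at hv
  apply hnonconst
  apply eq_algebraMap_of_forall_ord_nonneg H
  intro w
  by_cases hw : w = v
  · subst hw; exact hv
  · exact hothers w hw

/-- If `v` is the only pole of the generator `f`, then `-ord_v f = [F : K(f)]`. -/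
theorem neg_ord_eq_finrank {f : F} (hf : IsGen K f) (v : Place K F)
    (hv : v.ord f < 0) (hothers : ∀ w : Place K F, w ≠ v → 0 ≤ w.ord f) :
    -v.ord f = (Module.finrank K⟮f⟯ F : ℤ) := by
  classical
  rw [← sum_ord_poles hf]
  symm
  rw [finsum_eq_single _ v]
  · rw [finsum_eq_if, if_pos hv]
  · intro w hw
    rw [finsum_eq_if, if_neg]
    have := hothers w hw
    omega

end SinglePole

section Tower

variable {K F F' : Type*} [Field K] [Field F] [Field F']
  [Algebra K F] [Algebra K F'] [Algebra F F'] [IsScalarTower K F F']

/-- `[F' : K(f)] = [F : K(f)] [F' : F]` where `K(f) ⊆ F'` is generated by the image of `f`. -/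
theorem finrank_adjoin_algebraMap (f : F) :
    Module.finrank K⟮algebraMap F F' f⟯ F' = Module.finrank K⟮f⟯ F * Module.finrank F F' := by
  set φ : F →ₐ[K] F' := IsScalarTower.toAlgHom K F F' with hφ
  have hmap : (K⟮f⟯).map φ = K⟮algebraMap F F' f⟯ := by
    rw [IntermediateField.adjoin_map, Set.image_singleton]
    rfl
  rw [Module.finrank_mul_finrank K⟮f⟯ F F', ← hmap]
  symm
  refine Algebra.finrank_eq_of_equiv_equiv (IntermediateField.equivMap K⟮f⟯ φ).toRingEquiv
    (RingEquiv.refl F') ?_
  ext e
  rfl

/-- The image of a generator under a finite extension is a generator. -/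
theorem isGen_algebraMap [FiniteDimensional F F'] {f : F} (hf : IsGen K f) :
    IsGen K (algebraMap F F' f) := by
  refine ⟨?_, ?_⟩
  · intro halg
    exact hf.transcendental ((isAlgebraic_algebraMap_iff (algebraMap F F').injective).mp halg)
  · have := hf.finite
    apply Module.finite_of_finrank_pos
    rw [finrank_adjoin_algebraMap]
    exact Nat.mul_pos Module.finrank_pos Module.finrank_pos

end Tower

section Main

variable {K F F' : Type*} [Field K] [Field F] [Field F']
  [Algebra K F] [Algebra K F'] [Algebra F F'] [IsScalarTower K F F']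
  [Algebra.IsIntegral F F'] [HasPrincipalDivisors K F'] [FiniteDimensional F F']
  [IsAlgClosed K] [CharZero K] {x : F}

/-- `∑_{w ∣ v} e(w) = [F' : F]`. -/
theorem sum_ramificationIndex (hx : IsGen K x) (v : Place K F) :
    ∑ w ∈ v.fiber F', (w.ramificationIndex F : ℤ) = (Module.finrank F F' : ℤ) := by
  classical
  obtain ⟨f, htr, hv, hothers⟩ := exists_single_pole hx v
  have hf : IsGen K f := hx.of_transcendental htr
  have hk := neg_ord_eq_finrank hf v hv hothers
  have hf' : IsGen K (algebraMap F F' f) := isGen_algebraMap hf
  have hsum := sum_ord_poles hf'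
  rw [finrank_adjoin_algebraMap] at hsum
  have h1 : ∀ w : Place K F',
      (∑ᶠ (_ : w.ord (algebraMap F F' f) < 0), -w.ord (algebraMap F F' f))
        = if w ∈ v.fiber F' then (w.ramificationIndex F : ℤ) * (-v.ord f) else 0 := by
    intro w
    rw [finsum_eq_if, w.ord_restrict f]
    have hepos : (0 : ℤ) < w.ramificationIndex F := by
      exact_mod_cast w.ramificationIndex_pos (F := F)
    by_cases hw : w.restrict F = v
    · rw [if_pos (Place.mem_fiber.mpr hw), hw, if_pos (mul_neg_of_pos_of_neg hepos hv)]
      ring
    · rw [if_neg (fun h => hw (Place.mem_fiber.mp h)), if_neg]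
      have := hothers _ hw
      have := mul_nonneg hepos.le this
      omega
  simp_rw [h1] at hsum
  rw [finsum_eq_sum_of_support_subset (s := v.fiber F')] at hsum
  · rw [Finset.sum_congr rfl (fun w hw => if_pos hw), ← Finset.sum_mul, hk] at hsum
    have hkpos : (0 : ℤ) < (Module.finrank K⟮f⟯ F : ℤ) := by omega
    push_cast at hsum
    rw [mul_comm] at hsum
    exact mul_left_cancel₀ hkpos.ne' hsum
  · intro w hw
    rw [Function.mem_support] at hw
    by_contra hmem
    exact hw (if_neg hmem)

/-- All inertia degrees are one (the residue fields are `K`). -/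
theorem inertiaDeg_eq_one (hx : IsGen K x) (w : Place K F') : w.inertiaDeg F = 1 := by
  have h1 := deg_eq_one hx (w.restrict F)
  have h2 := deg_eq_one (isGen_algebraMap (F' := F') hx) w
  have h3 := w.deg_restrict_mul_inertiaDeg (F := F)
  rw [h1, h2, one_mul] at h3
  exact h3

/-- **The fundamental identity** `∑_{w ∣ v} e(w) f(w) = [F' : F]`. -/
theorem sumRamificationInertia (hx : IsGen K x) : SumRamificationInertia K F F' where
  sum_ramificationIndex_mul_inertiaDeg v := by
    rw [← sum_ramificationIndex hx v]
    refine Finset.sum_congr rfl fun w _ => ?_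
    rw [inertiaDeg_eq_one hx w, Nat.cast_one, mul_one]

/-- **The fundamental identity**, degree form. -/
theorem fundamentalIdentity (hx : IsGen K x) : FundamentalIdentity K F F' :=
  haveI := sumRamificationInertia (F' := F') hx
  inferInstance

end Main

section Along

variable {K F F' : Type*} [Field K] [Field F] [Field F'] [Algebra K F] [Algebra K F']
  [IsAlgClosed K] [CharZero K] [HasPrincipalDivisors K F']

/-- **The fundamental identity along a finite morphism** `φ : F →ₐ[K] F'`. -/
theorem fundamentalIdentityAlong (φ : F →ₐ[K] F') (hφ : φ.toRingHom.IsIntegral)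
    (hfin : FiniteAlong K φ) {x : F} (hx : IsGen K x) : FundamentalIdentityAlong K φ hφ := by
  letI := algebraAlong φ
  haveI := isScalarTower_along φ
  haveI := isIntegral_along φ hφ
  haveI : Module.Finite F F' := hfin
  exact fundamentalIdentity hx

/-- `∑_{w ∣ v} e_φ(w) = deg φ`, along-form. -/
theorem sum_ramificationIndexAlong (φ : F →ₐ[K] F') (hφ : φ.toRingHom.IsIntegral)
    (hfin : FiniteAlong K φ) {x : F} (hx : IsGen K x) (v : Place K F) :
    ∑ w ∈ Place.fiberAlong φ hφ v, (w.ramificationIndexAlong φ : ℤ) = (finrankAlong K φ : ℤ) := by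
  letI := algebraAlong φ
  haveI := isScalarTower_along φ
  haveI := isIntegral_along φ hφ
  haveI : Module.Finite F F' := hfin
  exact sum_ramificationIndex hx v

/-- All inertia degrees along `φ` are one. -/
theorem inertiaDegAlong_eq_one (φ : F →ₐ[K] F') (hφ : φ.toRingHom.IsIntegral)
    (hfin : FiniteAlong K φ) {x : F} (hx : IsGen K x) (w : Place K F') :
    w.inertiaDegAlong φ hφ = 1 := by
  letI := algebraAlong φ
  haveI := isScalarTower_along φ
  haveI := isIntegral_along φ hφ
  haveI : Module.Finite F F' := hfin
  exact inertiaDeg_eq_one hx w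

omit [IsAlgClosed K] [CharZero K] [HasPrincipalDivisors K F'] in
/-- The image of a generator under a finite morphism is a generator. -/
theorem isGen_along (φ : F →ₐ[K] F') (hfin : FiniteAlong K φ) {x : F} (hx : IsGen K x) :
    IsGen K (φ x) := by
  letI := algebraAlong φ
  haveI := isScalarTower_along φ
  haveI : Module.Finite F F' := hfin
  exact isGen_algebraMap (F' := F') hx

omit [IsAlgClosed K] [CharZero K] [HasPrincipalDivisors K F'] in
/-- `[F' : K(φ f)] = [F : K(f)] · deg φ`. -/
theorem finrank_adjoin_along (φ : F →ₐ[K] F') (f : F) :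
    Module.finrank K⟮φ f⟯ F' = Module.finrank K⟮f⟯ F * finrankAlong K φ := by
  letI := algebraAlong φ
  haveI := isScalarTower_along φ
  exact finrank_adjoin_algebraMap (F' := F') f

end Along

end Fermat.Agent.ES.HECKE.FundId12
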