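/-
Program I (S37), helper12: THE definition of `π^* : JZero N →+ JZero M` (`N ∣ M`), shared by (H5)
(level compatibility of `T_ℓ`) and RED-T (`(Φ3)`: `π^*` injective on torsion, Galois-equivariant).

* generic: `pic0PullbackAlong φ hφ hFI : Pic0 K F →+ Pic0 K F'` (Prelude `Pic0.pullbackHom` along
  `algebraAlong φ`) with `pic0PullbackAlong_mk`;
* concrete: `levelIncl h : Fbar N →ₐ[ℚ̄] Fbar M` (the inclusion), integral, finite, fundamental
  identity; `levelPullbackDiv h`, `levelPullback h : JZero N →+ JZero M`.
-/
import Mathlib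
import Fermat.Prelude.Def_ModularCurve_HeckeOperator
import Fermat.Agent.ES.HECKE.FundId12
import Fermat.Agent.RED.LVL.LevelDegree17
import Fermat.Agent.RED.TOP.FbarFacts20

set_option autoImplicit false
set_option synthInstance.maxHeartbeats 400000

noncomputable section

open AlgebraicCurve ModularCurve IntermediateField

namespace Fermat.Agent.ES.HECKE.LevelPullback12

/-! ### Generic: pull-back on `Pic⁰` along a finite morphism -/

section Generic

variable {K F F' : Type*} [Field K] [Field F] [Field F'] [Algebra K F] [Algebra K F']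
  [HasPrincipalDivisors K F']

/-- Pull-back of degree-zero divisor classes along `φ : F →ₐ[K] F'`
(Prelude `Pic0.pullbackHom` for the algebra structure `algebraAlong φ`). -/
def pic0PullbackAlong (φ : F →ₐ[K] F') (hφ : φ.toRingHom.IsIntegral)
    (hFI : FundamentalIdentityAlong K φ hφ) : Pic0 K F →+ Pic0 K F' :=
  letI := algebraAlong φ
  haveI := isScalarTower_along φ
  haveI := isIntegral_along φ hφ
  haveI : FundamentalIdentity K F F' := hFI
  Pic0.pullbackHom F'

theorem pic0PullbackAlong_mk (φ : F →ₐ[K] F') (hφ : φ.toRingHom.IsIntegral)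
    (hFI : FundamentalIdentityAlong K φ hφ) (D : Divisor.degZero (K := K) (F := F)) :
    pic0PullbackAlong φ hφ hFI (Pic0.mk D) =
      Pic0.mk ⟨Divisor.pullbackAlong φ hφ (D : Divisor K F),
        Divisor.pullbackAlong_mem_degZero φ hφ hFI D.2⟩ :=
  rfl

end Generic

/-! ### The inclusion `Fbar N ⊆ Fbar M` -/

section Level

open Fermat.Agent.RED.Interface4 Fermat.Agent.RED.BASE.Interface12 Fermat.Agent.RED.LVL

variable {N M : ℕ} [NeZero N] [NeZero M]

/-- The inclusion `Fbar N → Fbar M` for `N ∣ M`, as a `ℚ̄`-algebra homomorphism. -/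
def levelIncl (h : N ∣ M) : modularFunctionFieldBar N →ₐ[AlgebraicClosure ℚ] modularFunctionFieldBar M :=
  IntermediateField.inclusion (fbar_mono h)

@[simp]
theorem coe_levelIncl (h : N ∣ M) (x : modularFunctionFieldBar N) :
    (levelIncl h x : LaurentSeries (AlgebraicClosure ℚ)) = (x : LaurentSeries (AlgebraicClosure ℚ)) :=
  IntermediateField.coe_inclusion _ x

theorem levelIncl_injective (h : N ∣ M) : Function.Injective (levelIncl h) :=
  (levelIncl h).toRingHom.injective

theorem levelIncl_finiteAlong (h : N ∣ M) : FiniteAlong (AlgebraicClosure ℚ) (levelIncl h) :=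
  LevelDegree17.finiteDimensional_algebraIncl h

theorem levelIncl_isIntegral (h : N ∣ M) : (levelIncl h).toRingHom.IsIntegral := by
  letI := algebraAlong (levelIncl h)
  haveI : Module.Finite (modularFunctionFieldBar N) (modularFunctionFieldBar M) :=
    levelIncl_finiteAlong h
  exact fun x => Algebra.IsIntegral.isIntegral (R := modularFunctionFieldBar N) x

theorem finrankAlong_levelIncl (h : N ∣ M) :
    finrankAlong (AlgebraicClosure ℚ) (levelIncl h) =
      relfinrank (modularFunctionFieldBar N) (modularFunctionFieldBar M) :=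
  LevelDegree17.finrank_algebraIncl h

theorem levelIncl_fundamentalIdentityAlong (h : N ∣ M) :
    haveI := Fermat.Agent.RED.TOP.FbarFacts20.hasPrincipalDivisors_bar M
    FundamentalIdentityAlong (AlgebraicClosure ℚ) (levelIncl h) (levelIncl_isIntegral h) :=
  haveI := Fermat.Agent.RED.TOP.FbarFacts20.hasPrincipalDivisors_bar M
  FundId12.fundamentalIdentityAlong (levelIncl h) (levelIncl_isIntegral h) (levelIncl_finiteAlong h)
    (Fermat.Agent.RED.TOP.FbarFacts20.isGen_j N)

/-- `π^*` on divisors. -/
def levelPullbackDiv (h : N ∣ M) :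
    Divisor (AlgebraicClosure ℚ) (modularFunctionFieldBar N) →+
      Divisor (AlgebraicClosure ℚ) (modularFunctionFieldBar M) :=
  haveI := Fermat.Agent.RED.TOP.FbarFacts20.hasPrincipalDivisors_bar M
  Divisor.pullbackAlong (levelIncl h) (levelIncl_isIntegral h)

/-- **`π^* : JZero N →+ JZero M`** for `N ∣ M`. -/
def levelPullback (h : N ∣ M) : JZero N →+ JZero M :=
  haveI := Fermat.Agent.RED.TOP.FbarFacts20.hasPrincipalDivisors_bar M
  pic0PullbackAlong (levelIncl h) (levelIncl_isIntegral h) (levelIncl_fundamentalIdentityAlong h)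

theorem levelPullbackDiv_mem_degZero (h : N ∣ M)
    {D : Divisor (AlgebraicClosure ℚ) (modularFunctionFieldBar N)}
    (hD : D ∈ Divisor.degZero (K := AlgebraicClosure ℚ) (F := modularFunctionFieldBar N)) :
    levelPullbackDiv h D ∈
      Divisor.degZero (K := AlgebraicClosure ℚ) (F := modularFunctionFieldBar M) :=
  haveI := Fermat.Agent.RED.TOP.FbarFacts20.hasPrincipalDivisors_bar M
  Divisor.pullbackAlong_mem_degZero (levelIncl h) (levelIncl_isIntegral h)
    (levelIncl_fundamentalIdentityAlong h) hD

theorem levelPullback_mk (h : N ∣ M)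
    (D : Divisor.degZero (K := AlgebraicClosure ℚ) (F := modularFunctionFieldBar N)) :
    levelPullback h (Pic0.mk D) =
      Pic0.mk ⟨levelPullbackDiv h (D : Divisor (AlgebraicClosure ℚ) (modularFunctionFieldBar N)),
        levelPullbackDiv_mem_degZero h D.2⟩ :=
  rfl

/-- `π^* D` at a place `w` of `Fbar M`: `e(w) · D(w|_{Fbar N})`. -/
theorem levelPullbackDiv_apply (h : N ∣ M)
    (D : Divisor (AlgebraicClosure ℚ) (modularFunctionFieldBar N))
    (w : Place (AlgebraicClosure ℚ) (modularFunctionFieldBar M)) :
    levelPullbackDiv h D w =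
      Place.ramificationIndexAlong (levelIncl h) w *
        D (w.restrictAlong (levelIncl h) (levelIncl_isIntegral h)) :=
  haveI := Fermat.Agent.RED.TOP.FbarFacts20.hasPrincipalDivisors_bar M
  Divisor.pullbackAlong_apply (levelIncl h) (levelIncl_isIntegral h) D w

/-- `π^* div f = div (π f)`. -/
theorem levelPullbackDiv_apply_eq_ord (h : N ∣ M) {f : modularFunctionFieldBar N}
    {D : Divisor (AlgebraicClosure ℚ) (modularFunctionFieldBar N)}
    (hD : ∀ v : Place (AlgebraicClosure ℚ) (modularFunctionFieldBar N), D v = v.ord f)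
    (w : Place (AlgebraicClosure ℚ) (modularFunctionFieldBar M)) :
    levelPullbackDiv h D w = w.ord (levelIncl h f) := by
  rw [levelPullbackDiv_apply, hD, ← Place.ord_restrictAlong]

end Level

end Fermat.Agent.ES.HECKE.LevelPullback12
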