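/-
Program J (chapter J6.2), helper12: **the Hecke operators on `J₀(N)(ℚ̄)` commute with the Galois
action.**

* generic: `pushforwardAlong_smul`, `correspondence_smul`, `pic0_correspondence_smul` — a
  correspondence `ψ_* φ^*` commutes with semilinear automorphisms `g` of `F`, `g'` of `F'` compatible
  with `φ` and `ψ` (inertia degrees along `ψ` equal to one, e.g. over an algebraically closed field);
* `heckeAlphaBar_smul`, `heckeBetaBar_smul` : the degeneracy maps commute with the coefficientwise
  Galois action;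
* **`heckeOperatorAlong_smul`**, **`heckeOperatorBar_smul`** :
  `T_ℓ (σ • x) = σ • T_ℓ x` for every `ℓ`, every `σ ∈ Gal(ℚ̄/ℚ)`, `x ∈ J₀(N)(ℚ̄)`;
* `smulCommClass_heckeAlg` : the hypothesis `SMulCommClass G HeckeAlg (JZero N)` of the frozen S37 /
  `SpecializationExists` holds (given `HeckeOperatorsCommuteBar N`).
-/
import Mathlib
import Fermat.Agent.ES.RED.PullbackInj12
import Fermat.Agent.ES.HECKE.FundId12
import Fermat.Agent.RED.TOP.FbarFacts20
import Fermat.Agent.X0.CuspGood
import Fermat.Prelude.Def_ModularCurve_HeckeModule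

set_option autoImplicit false
set_option synthInstance.maxHeartbeats 400000
set_option linter.unusedSectionVars false
set_option linter.style.haveILetI false

noncomputable section

open AlgebraicCurve ModularCurve

namespace Fermat.Agent.ES.HECKE.HeckeGalois12

open Fermat.Agent.ES.RED.PullbackInj12

/-! ### Generic: correspondences commute with compatible semilinear automorphisms -/

section Generic

variable {K F F' : Type*} [Field K] [Field F] [Field F'] [Algebra K F] [Algebra K F']
variable (φ ψ : F →ₐ[K] F') (hφ : φ.toRingHom.IsIntegral) (hψ : ψ.toRingHom.IsIntegral)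
  (g : SemilinearAut K F) (g' : SemilinearAut K F')

/-- push-forward commutes with compatible semilinear automorphisms (all inertia degrees one). -/
theorem pushforwardAlong_smul (hcomm : ∀ f : F, ψ (g • f) = g' • ψ f)
    (hf : ∀ w : Place K F', w.inertiaDegAlong ψ hψ = 1) (D : Divisor K F') :
    Divisor.pushforwardAlong ψ hψ (g' • D) = g • Divisor.pushforwardAlong ψ hψ D := by
  induction D using Finsupp.induction_linear with
  | zero => rw [smul_zero, map_zero, smul_zero]
  | add D E hD hE => rw [smul_add, map_add, hD, hE, map_add, smul_add]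
  | single w n =>
    rw [SemilinearAut.smul_single, Divisor.pushforwardAlong_single,
      Divisor.pushforwardAlong_single, SemilinearAut.smul_single,
      restrictAlong_smul ψ hψ g g' hcomm w, hf, hf]

variable [HasPrincipalDivisors K F']

/-- the divisor correspondence `ψ_* φ^*` commutes with compatible semilinear automorphisms. -/
theorem correspondence_smul (hcφ : ∀ f : F, φ (g • f) = g' • φ f)
    (hcψ : ∀ f : F, ψ (g • f) = g' • ψ f)
    (hf : ∀ w : Place K F', w.inertiaDegAlong ψ hψ = 1) (D : Divisor K F) :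
    Divisor.correspondence φ ψ hφ hψ (g • D) = g • Divisor.correspondence φ ψ hφ hψ D := by
  rw [Divisor.correspondence_apply, Divisor.correspondence_apply,
    pullbackAlong_smul φ hφ g g' hcφ D, pushforwardAlong_smul ψ hψ g g' hcψ hf]

/-- the correspondence on `Pic⁰` commutes with compatible semilinear automorphisms. -/
theorem pic0_correspondence_smul (hFI : FundamentalIdentityAlong K φ hφ)
    (hfin : FiniteAlong K ψ) (hN : NormFormulaAlong K ψ hfin)
    (hcφ : ∀ f : F, φ (g • f) = g' • φ f) (hcψ : ∀ f : F, ψ (g • f) = g' • ψ f)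
    (hf : ∀ w : Place K F', w.inertiaDegAlong ψ hψ = 1) (x : Pic0 K F) :
    Pic0.correspondence φ ψ hφ hψ hFI hfin hN (g • x) =
      g • Pic0.correspondence φ ψ hφ hψ hFI hfin hN x := by
  obtain ⟨D, rfl⟩ := Pic0.mk_surjective x
  rw [SemilinearAut.pic0_smul_mk, Pic0.correspondence_mk, Pic0.correspondence_mk,
    SemilinearAut.pic0_smul_mk]
  refine congrArg Pic0.mk (Subtype.ext ?_)
  rw [Pic0.coe_degZeroCorrespondence, SemilinearAut.coe_degZeroSMulHom,
    SemilinearAut.coe_degZeroSMulHom, Pic0.coe_degZeroCorrespondence]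
  exact correspondence_smul φ ψ hφ hψ g g' hcφ hcψ hf D

end Generic

/-! ### The degeneracy maps and the coefficientwise Galois action -/

section Degeneracy

variable {L : Type*} [Field L] [Algebra ℚ L] (N ℓ : ℕ) [NeZero N] [NeZero ℓ]

theorem heckeAlphaBar_smul (σ : L ≃ₐ[ℚ] L)
    (f : laurentBaseChange L (modularFunctionFieldFull N)) :
    heckeAlphaBar L N ℓ (arithmeticGalois (modularFunctionFieldFull N) σ • f) =
      arithmeticGalois (modularFunctionFieldFull (N * ℓ)) σ • heckeAlphaBar L N ℓ f := by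
  apply Subtype.ext
  rw [coe_heckeAlphaBar, coe_arithmeticGalois_smul, coe_arithmeticGalois_smul, coe_heckeAlphaBar]

theorem heckeBetaBar_smul (σ : L ≃ₐ[ℚ] L)
    (f : laurentBaseChange L (modularFunctionFieldFull N)) :
    heckeBetaBar L N ℓ (arithmeticGalois (modularFunctionFieldFull N) σ • f) =
      arithmeticGalois (modularFunctionFieldFull (N * ℓ)) σ • heckeBetaBar L N ℓ f := by
  apply Subtype.ext
  rw [coe_heckeBetaBar, coe_arithmeticGalois_smul, coe_arithmeticGalois_smul, coe_heckeBetaBar,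
    Fermat.Agent.X0.CuspGood.coeffMap_qExpand]

end Degeneracy

/-! ### `T_ℓ` commutes with `Gal(ℚ̄/ℚ)` -/

section Hecke

/-- `ℚbar`. -/
local notation "Qb" => AlgebraicClosure ℚ

variable (N ℓ : ℕ) [NeZero N] [NeZero ℓ]

/-- **`T_ℓ (σ • x) = σ • T_ℓ x`** on `J₀(N)(ℚ̄)` (any `ℓ`). -/
theorem heckeOperatorAlong_smul (σ : Qb ≃ₐ[ℚ] Qb) (x : JZero N) :
    heckeOperatorAlong Qb N ℓ (σ • x) = σ • heckeOperatorAlong Qb N ℓ x := by
  by_cases h : HeckeInputsAlong Qb N ℓ
  · obtain ⟨hα, hβ, hP, hfin, hFI, hN⟩ := h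
    haveI := hP
    rw [heckeOperatorAlong_eq hα hβ hFI hfin hN, galois_smul_pic0_def, galois_smul_pic0_def]
    exact pic0_correspondence_smul (heckeBetaBar Qb N ℓ) (heckeAlphaBar Qb N ℓ) hβ hα
      (arithmeticGalois (modularFunctionFieldFull N) σ)
      (arithmeticGalois (modularFunctionFieldFull (N * ℓ)) σ) hFI hfin hN
      (heckeBetaBar_smul N ℓ σ) (heckeAlphaBar_smul N ℓ σ)
      (fun w => Fermat.Agent.ES.HECKE.FundId12.inertiaDegAlong_eq_one (heckeAlphaBar Qb N ℓ) hα hfin
        (Fermat.Agent.RED.TOP.FbarFacts20.isGen_j N) w) x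
  · have h0 : heckeOperatorAlong Qb N ℓ = 0 := by rw [heckeOperatorAlong, dif_neg h]
    rw [h0, AddMonoidHom.zero_apply, AddMonoidHom.zero_apply, smul_zero]

end Hecke

/-- **`T_ℓ (σ • x) = σ • T_ℓ x`** for the Prelude's `heckeOperatorBar`. -/
theorem heckeOperatorBar_smul (N : ℕ) [NeZero N] (ℓ : Nat.Primes)
    (σ : AlgebraicClosure ℚ ≃ₐ[ℚ] AlgebraicClosure ℚ) (x : JZero N) :
    heckeOperatorBar N ℓ (σ • x) = σ • heckeOperatorBar N ℓ x := by
  haveI : NeZero (ℓ : ℕ) := ⟨ℓ.2.ne_zero⟩
  exact heckeOperatorAlong_smul N ℓ σ x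

/-! ### The Galois action commutes with the Hecke algebra -/

section SMulComm

variable (N : ℕ) [NeZero N]

/-- the Galois action commutes with `ℤ`-multiples. -/
theorem galois_smul_zsmul (σ : AlgebraicClosure ℚ ≃ₐ[ℚ] AlgebraicClosure ℚ) (a : ℤ)
    (x : JZero N) : σ • (a • x) = a • (σ • x) :=
  map_zsmul (DistribSMul.toAddMonoidHom (JZero N) σ) a x

/-- every element of the `ℤ`-algebra generated by the `T_ℓ` commutes with the Galois action. -/
theorem adjoin_apply_smul {E : Module.End ℤ (JZero N)}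
    (hE : E ∈ Algebra.adjoin ℤ (Set.range (heckeOperatorBar N)))
    (σ : AlgebraicClosure ℚ ≃ₐ[ℚ] AlgebraicClosure ℚ) (x : JZero N) :
    E (σ • x) = σ • E x := by
  induction hE using Algebra.adjoin_induction generalizing x with
  | mem E hE =>
    obtain ⟨ℓ, rfl⟩ := hE
    exact heckeOperatorBar_smul N ℓ σ x
  | algebraMap a =>
    rw [Module.algebraMap_end_apply, Module.algebraMap_end_apply, galois_smul_zsmul]
  | add E₁ E₂ _ _ h₁ h₂ =>
    rw [LinearMap.add_apply, LinearMap.add_apply, h₁, h₂, smul_add]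
  | mul E₁ E₂ _ _ h₁ h₂ =>
    rw [Module.End.mul_apply, Module.End.mul_apply, h₂, h₁]

/-- **The hypothesis `SMulCommClass G HeckeAlg (JZero N)` of the frozen S37 holds** (for the
Prelude's `heckeModuleBar N`). -/
theorem smulCommClass_heckeAlg :
    letI := heckeModuleBar N
    SMulCommClass (AlgebraicClosure ℚ ≃ₐ[ℚ] AlgebraicClosure ℚ) HeckeAlg (JZero N) := by
  letI := heckeModuleBar N
  refine ⟨fun σ t x => ?_⟩
  by_cases h : HeckeOperatorsCommuteBar N
  · rw [heckeModuleBar_smul_def h, heckeModuleBar_smul_def h, heckeEvalBar_apply]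
    exact (adjoin_apply_smul N (heckeEvalBarAux h t).2 σ x).symm
  · rw [heckeModuleBar_smul_of_not h, heckeModuleBar_smul_of_not h, galois_smul_zsmul]

end SMulComm

end Fermat.Agent.ES.HECKE.HeckeGalois12
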