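/-
Program I (S37), chapter ES/HECKE, helper25: the DEGREES of the two degeneracy maps at a prime
`ℓ ∤ N`.

`κ` a field of characteristic `0`, `F_N = κ(j(q^d) : d ∣ N) ⊂ κ((q))`, `V = (q ↦ q^ℓ)`:

* `relfinrank_alpha`  : `[F_{Nℓ} : F_N] = ℓ + 1`        (`α` = inclusion),
* `relfinrank_beta`   : `[F_{Nℓ} : V(F_N)] = ℓ + 1`     (`β = V`),

from Program G (`IG/PR/Main20`: `[F_N : κ(j)] = ψ(N)`, prime level degrees `ℓ + 1` on both sides) and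
`DegBaseChange25`.
-/
import Mathlib
import Fermat.Agent.RED.PUR.DegBaseChange25
import Fermat.Agent.X0.GNPsi

set_option autoImplicit false

noncomputable section

open HahnSeries ModularCurve IntermediateField

namespace Fermat.Agent.ES.HECKE.DegreeL25

open Fermat.Agent.IG Fermat.Agent.RED.PUR

theorem psi_mul_prime (N ℓ : ℕ) (hℓ : ℓ.Prime) (hℓN : ¬ ℓ ∣ N) :
    dedekindPsi (N * ℓ) = dedekindPsi N * (ℓ + 1) := by
  have hcop : N.Coprime ℓ := (Nat.Prime.coprime_iff_not_dvd hℓ).mpr hℓN |>.symm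
  rw [Fermat.Agent.X0.GNPsi.gnp_dedekindPsi_mul hcop, PR.Counting20.psi_prime hℓ]

variable (κ : Type) [Field κ] [CharZero κ] (N ℓ : ℕ) [NeZero N] [NeZero ℓ]

omit [CharZero κ] in
theorem simple_le_fullC (M : ℕ) : κ⟮jqModC κ⟯ ≤ modularFunctionFieldFullC κ M := by
  rw [adjoin_simple_le_iff]
  exact jqModC_mem_full κ M

/-- **`[F_{Nℓ} : F_N] = ℓ + 1`** for a prime `ℓ ∤ N`. -/
theorem relfinrank_alpha (hℓ : ℓ.Prime) (hℓN : ¬ ℓ ∣ N) :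
    relfinrank (modularFunctionFieldFullC κ N) (modularFunctionFieldFullC κ (N * ℓ)) = ℓ + 1 := by
  have h1 := DegBaseChange25.relfinrank_fullC_eq_psi_of_charZero κ N
  have h2 := DegBaseChange25.relfinrank_fullC_eq_psi_of_charZero κ (N * ℓ)
  have hmul := relfinrank_mul_relfinrank (simple_le_fullC κ N)
    (full_degeneracyC_le κ (dvd_mul_right N ℓ))
  rw [h1, h2, psi_mul_prime N ℓ hℓ hℓN] at hmul
  exact Nat.eq_of_mul_eq_mul_left (Fermat.Agent.X0.GNPsi.gnp_dedekindPsi_pos (NeZero.ne N)) hmul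

/-- **`[F_{Nℓ} : V(F_N)] = ℓ + 1`** for a prime `ℓ ∤ N`, `V = (q ↦ q^ℓ)`. -/
theorem relfinrank_beta (hℓ : ℓ.Prime) (hℓN : ¬ ℓ ∣ N) :
    relfinrank ((modularFunctionFieldFullC κ N).map (qExpandAlgHomC κ ℓ))
      (modularFunctionFieldFullC κ (N * ℓ)) = ℓ + 1 := by
  have hψN := DegBaseChange25.relfinrank_fullC_eq_psi_of_charZero κ N
  have hψNℓ := DegBaseChange25.relfinrank_fullC_eq_psi_of_charZero κ (N * ℓ)
  have hψpos := Fermat.Agent.X0.GNPsi.gnp_dedekindPsi_pos (NeZero.ne N)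
  have hℓκ : (ℓ : κ) ≠ 0 := Nat.cast_ne_zero.mpr hℓ.ne_zero
  obtain ⟨⟨-, hleft⟩, ⟨-, hright⟩⟩ := PR.Main20.primeLevel ℓ hℓ.two_le (AN.ModPoly3.p0 ℓ hℓ)
    AN.FormalJ10.p1 (AN.P2Final9.p2 ℓ) κ hℓκ
  -- the fields
  have hA : κ⟮jqModC κ⟯ ≤ κ⟮jqModC κ⟯ ⊔ κ⟮qExpand κ ℓ (jqModC κ)⟯ := le_sup_left
  have hAℓ : κ⟮qExpand κ ℓ (jqModC κ)⟯ ≤ κ⟮jqModC κ⟯ ⊔ κ⟮qExpand κ ℓ (jqModC κ)⟯ := le_sup_right
  have hjℓ : qExpand κ ℓ (jqModC κ) ∈ modularFunctionFieldFullC κ (N * ℓ) :=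
    jqModCd_mem_full κ (N * ℓ) (dvd_mul_left ℓ N)
  have hC : κ⟮jqModC κ⟯ ⊔ κ⟮qExpand κ ℓ (jqModC κ)⟯ ≤ modularFunctionFieldFullC κ (N * ℓ) :=
    sup_le (simple_le_fullC κ (N * ℓ)) (adjoin_simple_le_iff.mpr hjℓ)
  -- `[F_{Nℓ} : κ(j, j_ℓ)] = ψ(N)`
  have h1 := relfinrank_mul_relfinrank hA hC
  rw [hleft, hψNℓ, psi_mul_prime N ℓ hℓ hℓN, mul_comm] at h1
  have hx : relfinrank (κ⟮jqModC κ⟯ ⊔ κ⟮qExpand κ ℓ (jqModC κ)⟯)
      (modularFunctionFieldFullC κ (N * ℓ)) = dedekindPsi N :=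
    Nat.eq_of_mul_eq_mul_right (Nat.succ_pos ℓ) h1
  -- `[F_{Nℓ} : κ(j_ℓ)] = (ℓ + 1) ψ(N)`
  have h2 := relfinrank_mul_relfinrank hAℓ hC
  rw [hright, hx] at h2
  -- `V(κ(j)) = κ(j_ℓ) ≤ V(F_N) ≤ F_{Nℓ}`
  have hmapA : (κ⟮jqModC κ⟯).map (qExpandAlgHomC κ ℓ) = κ⟮qExpand κ ℓ (jqModC κ)⟯ := by
    rw [adjoin_map, Set.image_singleton, qExpandAlgHomC_apply]
  have hle1 : κ⟮qExpand κ ℓ (jqModC κ)⟯ ≤
      (modularFunctionFieldFullC κ N).map (qExpandAlgHomC κ ℓ) := by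
    rw [← hmapA]
    exact IntermediateField.map_mono _ (simple_le_fullC κ N)
  have hle2 : (modularFunctionFieldFullC κ N).map (qExpandAlgHomC κ ℓ) ≤
      modularFunctionFieldFullC κ (N * ℓ) := full_degeneracyC_map_le κ N ℓ
  have h3 : relfinrank κ⟮qExpand κ ℓ (jqModC κ)⟯
      ((modularFunctionFieldFullC κ N).map (qExpandAlgHomC κ ℓ)) = dedekindPsi N := by
    rw [← hmapA, relfinrank_map_map, hψN]
  have h4 := relfinrank_mul_relfinrank hle1 hle2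
  rw [h3, ← h2, mul_comm (ℓ + 1)] at h4
  exact Nat.eq_of_mul_eq_mul_left hψpos h4

end Fermat.Agent.ES.HECKE.DegreeL25
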