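/-
Program I (S37), chapter ES/HECKE, helper25: the `Along` forms of the degrees of the two degeneracy
maps `α = heckeAlphaBar` (inclusion) and `β = heckeBetaBar` (`q ↦ q^ℓ`) at a prime `ℓ ∤ N`:

* `finrankAlong_alpha / finrankAlong_beta : finrankAlong L (hecke…Bar L N ℓ) = ℓ + 1`,
* `finiteAlong_alpha / finiteAlong_beta`,
* `heckeAlphaBarIntegral / heckeBetaBarIntegral`.

General tool: `finrankAlong_eq_relfinrank`.
-/
import Mathlib
import Fermat.Prelude.Def_ModularCurve_HeckeOperator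
import Fermat.Agent.ES.HECKE.DegreeL25

set_option autoImplicit false

noncomputable section

open HahnSeries ModularCurve IntermediateField AlgebraicCurve

namespace Fermat.Agent.ES.HECKE.AlongDegree25

open Fermat.Agent.RED.PUR

section General

variable {K E : Type*} [Field K] [Field E] [Algebra K E]

/-- image of `A` under `f` lies in `B` when `φ : A → B` is the restriction of `f`. -/
theorem map_le_of_restrict (A B : IntermediateField K E) (φ : A →ₐ[K] B) (f : E →ₐ[K] E)
    (hφ : ∀ a : A, ((φ a : B) : E) = f (a : E)) : A.map f ≤ B := by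
  rintro _ ⟨a, ha, rfl⟩
  have := hφ ⟨a, ha⟩
  simp only at this
  change f a ∈ B
  rw [← this]
  exact (φ ⟨a, ha⟩).2

/-- **`[B : φ(A)]` along a restriction `φ` of `f : E → E` is `relfinrank (A.map f) B`.** -/
theorem finrankAlong_eq_relfinrank (A B : IntermediateField K E) (φ : A →ₐ[K] B) (f : E →ₐ[K] E)
    (hφ : ∀ a : A, ((φ a : B) : E) = f (a : E)) :
    finrankAlong K φ = relfinrank (A.map f) B := by
  have hle : A.map f ≤ B := map_le_of_restrict A B φ f hφ
  rw [relfinrank_eq_finrank_of_le hle]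
  unfold finrankAlong
  let _ := algebraAlong φ
  let i : A ≃+* A.map f := (equivMap A f).toRingEquiv
  let j : B ≃+* extendScalars hle :=
    { toFun := fun b => ⟨b.1, (mem_extendScalars hle).mpr b.2⟩
      invFun := fun b => ⟨b.1, (mem_extendScalars hle).mp b.2⟩
      left_inv := fun _ => rfl
      right_inv := fun _ => rfl
      map_mul' := fun _ _ => rfl
      map_add' := fun _ _ => rfl }
  refine Algebra.finrank_eq_of_equiv_equiv i j ?_
  ext a
  exact (hφ a).symm

end General

section Hecke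

variable (L : Type) [Field L] [Algebra ℚ L] (N ℓ : ℕ) [NeZero N] [NeZero ℓ]

theorem charZero_of_algebraRat : CharZero L :=
  charZero_of_injective_algebraMap (algebraMap ℚ L).injective

/-- **`[F̄_{Nℓ} : α(F̄_N)] = ℓ + 1`** in the Prelude's `Along` form. -/
theorem finrankAlong_alpha (hℓ : ℓ.Prime) (hℓN : ¬ ℓ ∣ N) :
    finrankAlong L (heckeAlphaBar L N ℓ) = ℓ + 1 := by
  have := charZero_of_algebraRat L
  rw [finrankAlong_eq_relfinrank _ _ (heckeAlphaBar L N ℓ) (AlgHom.id L (LaurentSeries L))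
    (fun a => by rw [coe_heckeAlphaBar]; rfl), IntermediateField.map_id,
    DegBaseChange25.laurentBaseChange_full_eq, DegBaseChange25.laurentBaseChange_full_eq]
  exact DegreeL25.relfinrank_alpha L N ℓ hℓ hℓN

/-- **`[F̄_{Nℓ} : β(F̄_N)] = ℓ + 1`** in the Prelude's `Along` form. -/
theorem finrankAlong_beta (hℓ : ℓ.Prime) (hℓN : ¬ ℓ ∣ N) :
    finrankAlong L (heckeBetaBar L N ℓ) = ℓ + 1 := by
  have := charZero_of_algebraRat L
  rw [finrankAlong_eq_relfinrank _ _ (heckeBetaBar L N ℓ) (qExpandAlgHomC L ℓ)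
    (fun a => by rw [coe_heckeBetaBar, qExpandAlgHomC_apply]),
    DegBaseChange25.laurentBaseChange_full_eq, DegBaseChange25.laurentBaseChange_full_eq]
  exact DegreeL25.relfinrank_beta L N ℓ hℓ hℓN

theorem finiteAlong_of_finrankAlong_pos {K F F' : Type*} [Field K] [Field F] [Field F']
    [Algebra K F] [Algebra K F'] (φ : F →ₐ[K] F') (h : 0 < finrankAlong K φ) :
    FiniteAlong K φ := by
  unfold FiniteAlong
  unfold finrankAlong at h
  let _ := algebraAlong φ
  exact Module.finite_of_finrank_pos h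

theorem isIntegral_of_finiteAlong {K F F' : Type*} [Field K] [Field F] [Field F']
    [Algebra K F] [Algebra K F'] (φ : F →ₐ[K] F') (h : FiniteAlong K φ) :
    φ.toRingHom.IsIntegral := by
  unfold FiniteAlong at h
  let _ := algebraAlong φ
  have : Module.Finite F F' := h
  exact (Algebra.IsIntegral.of_finite F F').isIntegral

theorem finiteAlong_alpha (hℓ : ℓ.Prime) (hℓN : ¬ ℓ ∣ N) :
    FiniteAlong L (heckeAlphaBar L N ℓ) :=
  finiteAlong_of_finrankAlong_pos _ (by rw [finrankAlong_alpha L N ℓ hℓ hℓN]; exact Nat.succ_pos ℓ)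

theorem finiteAlong_beta (hℓ : ℓ.Prime) (hℓN : ¬ ℓ ∣ N) :
    FiniteAlong L (heckeBetaBar L N ℓ) :=
  finiteAlong_of_finrankAlong_pos _ (by rw [finrankAlong_beta L N ℓ hℓ hℓN]; exact Nat.succ_pos ℓ)

theorem heckeAlphaBarIntegral (hℓ : ℓ.Prime) (hℓN : ¬ ℓ ∣ N) : HeckeAlphaBarIntegral L N ℓ :=
  isIntegral_of_finiteAlong _ (finiteAlong_alpha L N ℓ hℓ hℓN)

theorem heckeBetaBarIntegral (hℓ : ℓ.Prime) (hℓN : ¬ ℓ ∣ N) : HeckeBetaBarIntegral L N ℓ :=
  isIntegral_of_finiteAlong _ (finiteAlong_beta L N ℓ hℓ hℓN)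

end Hecke

end Fermat.Agent.ES.HECKE.AlongDegree25
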