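/-
Program I (S37) / chapter ES/HECKE / helper19.

`InputsMain19` (H1): assembly of `HeckeInputsAlong ℚbar N ℓ` (`ℓ` prime, `ℓ ∤ N`), the hypothesis under
which the Prelude's `heckeOperatorAlong` is the genuine Hecke correspondence `α_* β^*`.

Components: `α`, `β` integral, `FiniteAlong α` (helper25, `AlongDegree25`); principal divisors of
`Fbar (N ℓ)` (helper20, `FbarFacts20`); `FundamentalIdentityAlong β` (`FundIdentity19`);
`NormFormulaAlong α` (hypothesis `hnorm` here; generic proof = helper15 `NormFormula15`).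
-/
import Mathlib
import Fermat.Prelude.Def_ModularCurve_HeckeOperatorTotal
import Fermat.Agent.ES.HECKE.FundIdentity19
import Fermat.Agent.ES.HECKE.AlongDegree25
import Fermat.Agent.RED.TOP.FbarFacts20

set_option autoImplicit false
set_option linter.style.haveILetI false

open AlgebraicCurve ModularCurve

noncomputable section

namespace Fermat.Agent.ES.HECKE.InputsMain19

open Fermat.Agent.X0 Fermat.Agent.RED.TOP

/-- `ℚbar`. -/
abbrev Qb : Type := AlgebraicClosure ℚ

variable (N ℓ : ℕ) [NeZero N] [NeZero ℓ]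

/-- (H1b) principal divisors of `Fbar (N ℓ)`, in the literal shape of `HeckeInputsAlong`. -/
theorem hasPrincipalDivisors_level :
    HasPrincipalDivisors Qb (laurentBaseChange Qb (modularFunctionFieldFull (N * ℓ))) :=
  FbarFacts20.hasPrincipalDivisors_bar (N * ℓ)

/-- (H1c) the fundamental identity along `β`. -/
theorem fundamentalIdentityAlong_beta (hℓ : ℓ.Prime) (hℓN : ¬ ℓ ∣ N) :
    haveI := hasPrincipalDivisors_level N ℓ
    FundamentalIdentityAlong Qb (heckeBetaBar Qb N ℓ)
      (AlongDegree25.heckeBetaBarIntegral Qb N ℓ hℓ hℓN) := by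
  haveI := hasPrincipalDivisors_level N ℓ
  exact FundIdentity19.fundamentalIdentityAlong (heckeBetaBar Qb N ℓ)
    (AlongDegree25.heckeBetaBarIntegral Qb N ℓ hℓ hℓN)
    (AlongDegree25.finiteAlong_beta Qb N ℓ hℓ hℓN)
    (FbarFacts20.isGen_j N) (FbarFacts20.isGen_j (N * ℓ))

/-- (H1c') the fundamental identity along `α` (for the transpose correspondence). -/
theorem fundamentalIdentityAlong_alpha (hℓ : ℓ.Prime) (hℓN : ¬ ℓ ∣ N) :
    haveI := hasPrincipalDivisors_level N ℓ
    FundamentalIdentityAlong Qb (heckeAlphaBar Qb N ℓ)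
      (AlongDegree25.heckeAlphaBarIntegral Qb N ℓ hℓ hℓN) := by
  haveI := hasPrincipalDivisors_level N ℓ
  exact FundIdentity19.fundamentalIdentityAlong (heckeAlphaBar Qb N ℓ)
    (AlongDegree25.heckeAlphaBarIntegral Qb N ℓ hℓ hℓN)
    (AlongDegree25.finiteAlong_alpha Qb N ℓ hℓ hℓN)
    (FbarFacts20.isGen_j N) (FbarFacts20.isGen_j (N * ℓ))

/-- **(H1) assembly**, modulo the norm formula along `α`. -/
theorem heckeInputsAlong_of_normFormula (hℓ : ℓ.Prime) (hℓN : ¬ ℓ ∣ N)
    (hnorm : NormFormulaAlong Qb (heckeAlphaBar Qb N ℓ)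
      (AlongDegree25.finiteAlong_alpha Qb N ℓ hℓ hℓN)) :
    HeckeInputsAlong Qb N ℓ := by
  haveI := hasPrincipalDivisors_level N ℓ
  exact heckeInputsAlong_intro (AlongDegree25.heckeAlphaBarIntegral Qb N ℓ hℓ hℓN)
    (AlongDegree25.heckeBetaBarIntegral Qb N ℓ hℓ hℓN)
    (fundamentalIdentityAlong_beta N ℓ hℓ hℓN)
    (AlongDegree25.finiteAlong_alpha Qb N ℓ hℓ hℓN) hnorm

end Fermat.Agent.ES.HECKE.InputsMain19
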