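/-
Program I (S37) / chapter ES/HECKE / helper15.

`InputsFinal15` = (H1) UNCONDITIONAL: `HeckeInputsAlong ℚbar N ℓ` for `ℓ` prime, `ℓ ∤ N`
(`InputsMain19.heckeInputsAlong_of_normFormula` with the norm formula along `α` supplied by
`NormFormula15.normFormulaAlong_of_isGen`).  Consequently the Prelude's `heckeOperatorAlong ℚbar N ℓ`
is the genuine correspondence `α_* β^*`.
-/
import Mathlib
import Fermat.Agent.ES.HECKE.InputsMain19
import Fermat.Agent.ES.HECKE.NormFormula15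

set_option autoImplicit false

open AlgebraicCurve ModularCurve

noncomputable section

namespace Fermat.Agent.ES.HECKE.InputsFinal15

open Fermat.Agent.X0 Fermat.Agent.RED.TOP Fermat.Agent.ES.HECKE.InputsMain19

variable (N ℓ : ℕ) [NeZero N] [NeZero ℓ]

/-- (H1d) the norm formula along `α : Fbar N → Fbar (N ℓ)`. -/
theorem normFormulaAlong_alpha (hℓ : ℓ.Prime) (hℓN : ¬ ℓ ∣ N) :
    NormFormulaAlong Qb (heckeAlphaBar Qb N ℓ)
      (AlongDegree25.finiteAlong_alpha Qb N ℓ hℓ hℓN) :=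
  NormFormula15.normFormulaAlong_of_isGen (heckeAlphaBar Qb N ℓ)
    (AlongDegree25.finiteAlong_alpha Qb N ℓ hℓ hℓN) (FbarFacts20.isGen_j (N * ℓ))

/-- (H1d') the norm formula along `β : Fbar N → Fbar (N ℓ)` (for the transpose correspondence). -/
theorem normFormulaAlong_beta (hℓ : ℓ.Prime) (hℓN : ¬ ℓ ∣ N) :
    NormFormulaAlong Qb (heckeBetaBar Qb N ℓ)
      (AlongDegree25.finiteAlong_beta Qb N ℓ hℓ hℓN) :=
  NormFormula15.normFormulaAlong_of_isGen (heckeBetaBar Qb N ℓ)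
    (AlongDegree25.finiteAlong_beta Qb N ℓ hℓ hℓN) (FbarFacts20.isGen_j (N * ℓ))

/-- **(H1)**: the inputs of the Hecke correspondence `T_ℓ = α_* β^*` at level `N`, `ℓ ∤ N` prime. -/
theorem heckeInputsAlong_bar (hℓ : ℓ.Prime) (hℓN : ¬ ℓ ∣ N) : HeckeInputsAlong Qb N ℓ :=
  heckeInputsAlong_of_normFormula N ℓ hℓ hℓN (normFormulaAlong_alpha N ℓ hℓ hℓN)

/-- **(H1)**, with the `NeZero ℓ` instance derived from primality (the shape used by consumers
which only have `hℓ : ℓ.Prime`). -/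
theorem heckeInputsAlong_bar' (N ℓ : ℕ) [NeZero N] (hℓ : ℓ.Prime) (hℓN : ¬ ℓ ∣ N) :
    haveI : NeZero ℓ := ⟨hℓ.ne_zero⟩
    HeckeInputsAlong Qb N ℓ :=
  haveI : NeZero ℓ := ⟨hℓ.ne_zero⟩
  heckeInputsAlong_bar N ℓ hℓ hℓN

end Fermat.Agent.ES.HECKE.InputsFinal15
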