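/-
Program I (S37), (H5) support (helper12): ABSTRACT norm compatibility under base change.

`F ⊆ F₁`, `G ⊆ G₁`, `p : F → G`, `p₁ : F₁ → G₁` compatible.  If an `F`-basis of `F₁` maps to a
`G`-basis of `G₁` (e.g. equal degrees and `G₁` spanned over `G` by `p₁ F₁`), then
`N_{G₁/G}(p₁ f) = p (N_{F₁/F} f)` (also trace and characteristic polynomial), and the `Along` form
`normAlong a' (p' f) = p (normAlong a f)` consumed by `BaseChange19.pullbackAlong_correspondence`.
-/
import Mathlib
import Fermat.Agent.ES.HECKE.BaseChange19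

set_option autoImplicit false

open AlgebraicCurve Module

namespace Fermat.Agent.ES.HECKE.NormCompat12

section Basis

variable {F F₁ G G₁ : Type*} [Field F] [Field F₁] [Field G] [Field G₁]
  [Algebra F F₁] [Algebra G G₁]
  (p : F →+* G) (p₁ : F₁ →+* G₁)

/-- `p₁` is `p`-semilinear on coordinates. -/
theorem map_eq_sum (hcomm : ∀ x, p₁ (algebraMap F F₁ x) = algebraMap G G₁ (p x))
    {ι : Type*} [Fintype ι] (b : Basis ι F F₁) (y : F₁) :
    p₁ y = ∑ k, p (b.repr y k) • p₁ (b k) := by
  conv_lhs => rw [← b.sum_repr y]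
  rw [map_sum]
  refine Finset.sum_congr rfl fun k _ => ?_
  rw [Algebra.smul_def, map_mul, hcomm, Algebra.smul_def]

variable (hcomm : ∀ x, p₁ (algebraMap F F₁ x) = algebraMap G G₁ (p x))
  {ι : Type*} [Fintype ι] [DecidableEq ι] (b : Basis ι F F₁) (b' : Basis ι G G₁)
  (hb : ∀ i, b' i = p₁ (b i))

omit [DecidableEq ι] in
include hcomm hb in
theorem repr_map (y : F₁) (i : ι) : b'.repr (p₁ y) i = p (b.repr y i) := by
  have hy : p₁ y = ∑ k, p (b.repr y k) • b' k := by
    rw [map_eq_sum p p₁ hcomm b y]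
    exact Finset.sum_congr rfl fun k _ => by rw [hb]
  rw [hy, b'.repr_sum_self]

include hcomm hb in
theorem leftMulMatrix_map (f : F₁) :
    Algebra.leftMulMatrix b' (p₁ f) = (Algebra.leftMulMatrix b f).map p := by
  ext i j
  rw [Matrix.map_apply, Algebra.leftMulMatrix_eq_repr_mul, Algebra.leftMulMatrix_eq_repr_mul, hb,
    ← map_mul, repr_map p p₁ hcomm b b' hb]

include hcomm hb in
/-- **Norm compatibility** from a common basis. -/
theorem norm_map (f : F₁) : Algebra.norm G (p₁ f) = p (Algebra.norm F f) := by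
  rw [Algebra.norm_eq_matrix_det b', Algebra.norm_eq_matrix_det b,
    leftMulMatrix_map p p₁ hcomm b b' hb, RingHom.map_det]
  rfl

include hcomm hb in
/-- Trace compatibility from a common basis. -/
theorem trace_map (f : F₁) : Algebra.trace G G₁ (p₁ f) = p (Algebra.trace F F₁ f) := by
  rw [Algebra.trace_eq_matrix_trace b', Algebra.trace_eq_matrix_trace b,
    leftMulMatrix_map p p₁ hcomm b b' hb, Matrix.trace, Matrix.trace, map_sum]
  rfl

end Basis

section Span

variable {F F₁ G G₁ : Type*} [Field F] [Field F₁] [Field G] [Field G₁]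
  [Algebra F F₁] [Algebra G G₁]
  (p : F →+* G) (p₁ : F₁ →+* G₁)
  (hcomm : ∀ x, p₁ (algebraMap F F₁ x) = algebraMap G G₁ (p x))

include hcomm in
/-- Norm compatibility when the image of an `F`-basis of `F₁` spans `G₁` over `G` and has the right
cardinality. -/
theorem norm_map_of_span {ι : Type*} [Fintype ι] [DecidableEq ι] (b : Basis ι F F₁)
    (hspan : ⊤ ≤ Submodule.span G (Set.range (p₁ ∘ b)))
    (hcard : Fintype.card ι = finrank G G₁) (f : F₁) :
    Algebra.norm G (p₁ f) = p (Algebra.norm F f) := by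
  set b' : Basis ι G G₁ := basisOfTopLeSpanOfCardEqFinrank (p₁ ∘ b) hspan hcard with hb'
  refine norm_map p p₁ hcomm b b' (fun i => ?_) f
  rw [hb', coe_basisOfTopLeSpanOfCardEqFinrank]
  rfl

include hcomm in
/-- The `G`-span of `p₁ F₁` is the `G`-span of the image of any `F`-basis of `F₁`. -/
theorem span_range_le {ι : Type*} [Fintype ι] (b : Basis ι F F₁) :
    Submodule.span G (Set.range p₁) ≤ Submodule.span G (Set.range (p₁ ∘ b)) := by
  rw [Submodule.span_le]
  rintro _ ⟨y, rfl⟩
  rw [SetLike.mem_coe, map_eq_sum p p₁ hcomm b y]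
  exact Submodule.sum_mem _ fun k _ =>
    Submodule.smul_mem _ _ (Submodule.subset_span ⟨k, rfl⟩)

include hcomm in
/-- **Norm compatibility for equal degrees**: `[F₁ : F] = [G₁ : G]` and `G₁ = G · p₁ F₁`. -/
theorem norm_map_of_finrank_eq [FiniteDimensional F F₁]
    (hdeg : finrank F F₁ = finrank G G₁)
    (hgen : ⊤ ≤ Submodule.span G (Set.range p₁)) (f : F₁) :
    Algebra.norm G (p₁ f) = p (Algebra.norm F f) := by
  classical
  refine norm_map_of_span p p₁ hcomm (Module.finBasis F F₁)
    (hgen.trans (span_range_le p p₁ hcomm _)) ?_ f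
  rw [Fintype.card_fin, hdeg]

/-- If `G₁ = G(p₁ x)` for some `x : F₁` (with `p₁ x` integral) then `G₁` is spanned over `G` by
`p₁ F₁`. -/
theorem top_le_span_range_of_adjoin_eq_top (x : F₁) (hx : IsIntegral G (p₁ x))
    (htop : IntermediateField.adjoin G {p₁ x} = ⊤) :
    ⊤ ≤ Submodule.span G (Set.range p₁) := by
  have h1 : (IntermediateField.adjoin G {p₁ x}).toSubalgebra = Algebra.adjoin G {p₁ x} :=
    IntermediateField.adjoin_simple_toSubalgebra_of_isAlgebraic hx.isAlgebraic
  have h2 : Algebra.adjoin G {p₁ x} = ⊤ := by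
    rw [← h1, htop, IntermediateField.top_toSubalgebra]
  intro y _
  have hy : y ∈ Algebra.adjoin G {p₁ x} := by
    rw [h2]
    exact Algebra.mem_top (R := G) (A := G₁)
  rw [← Subalgebra.mem_toSubmodule, Algebra.adjoin_eq_span G ({p₁ x} : Set G₁)] at hy
  refine Submodule.span_mono ?_ hy
  intro z hz
  obtain ⟨n, rfl⟩ := (Submonoid.mem_closure_singleton).mp hz
  exact ⟨x ^ n, map_pow p₁ x n⟩

end Span

section Along

variable {K F F₁ G G₁ : Type*} [Field K] [Field F] [Field F₁] [Field G] [Field G₁]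
  [Algebra K F] [Algebra K F₁] [Algebra K G] [Algebra K G₁]

/-- **Norm compatibility, `Along` form** (the hypothesis `hnorm` of
`BaseChange19.pullbackAlong_pushforwardAlong` / `pullbackAlong_correspondence`): commutative square
`a' ∘ p = p' ∘ a`, equal degrees of `a`, `a'`, and `G₁` spanned over `a' G` by `p' F₁`. -/
theorem normAlong_compat (a : F →ₐ[K] F₁) (p : F →ₐ[K] G) (a' : G →ₐ[K] G₁) (p' : F₁ →ₐ[K] G₁)
    (hcomm : a'.comp p = p'.comp a) (hfin : FiniteAlong K a)
    (hdeg : finrankAlong K a = finrankAlong K a')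
    (hgen : letI := algebraAlong a'; ⊤ ≤ Submodule.span G (Set.range p')) (f : F₁) :
    BaseChange19.normAlong a' (p' f) = p (BaseChange19.normAlong a f) := by
  letI := algebraAlong a
  letI := algebraAlong a'
  haveI : Module.Finite F F₁ := hfin
  refine norm_map_of_finrank_eq (p : F →+* G) (p' : F₁ →+* G₁) (fun x => ?_) hdeg hgen f
  have := DFunLike.congr_fun hcomm x
  exact this.symm

/-- The same with a primitive element: `G₁ = (a' G)(p' x)`. -/
theorem normAlong_compat_of_adjoin (a : F →ₐ[K] F₁) (p : F →ₐ[K] G) (a' : G →ₐ[K] G₁)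
    (p' : F₁ →ₐ[K] G₁) (hcomm : a'.comp p = p'.comp a) (hfin : FiniteAlong K a)
    (hfin' : FiniteAlong K a') (hdeg : finrankAlong K a = finrankAlong K a') (x : F₁)
    (htop : letI := algebraAlong a'; IntermediateField.adjoin G {p' x} = ⊤) (f : F₁) :
    BaseChange19.normAlong a' (p' f) = p (BaseChange19.normAlong a f) := by
  refine normAlong_compat a p a' p' hcomm hfin hdeg ?_ f
  letI := algebraAlong a'
  haveI : Module.Finite G G₁ := hfin'
  exact top_le_span_range_of_adjoin_eq_top (p' : F₁ →+* G₁) x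
    (Algebra.IsIntegral.isIntegral (R := G) (p' x)) htop

end Along

end Fermat.Agent.ES.HECKE.NormCompat12
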