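/-
Program I (S37), (H5) support (helper12): the level compatibility of `T_ℓ` REDUCED to one concrete
fact.  For `N ∣ M`, `ℓ` prime, `ℓ ∤ M`, `π^* = levelPullback h`:

* `levelPullback_heckeOperatorAlong_of_div`: the `Pic⁰` identity
  `π^* (T_ℓ^{(N)} x) = T_ℓ^{(M)} (π^* x)` from the divisor identity;
* `levelPullbackDiv_heckeDivBar_of_norm`: the divisor identity from the norm compatibility
  (`BaseChange19.pullbackAlong_correspondence`);
* `levelPullback_heckeOperatorAlong_of_adjoin`: everything from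
  `Fbar (M ℓ) = (Fbar M)(x₀)` for ONE `x₀ ∈ Fbar (N ℓ)` (e.g. `x₀ = j(q^ℓ)`).
-/
import Mathlib
import Fermat.Agent.ES.HECKE.InputsFinal15
import Fermat.Agent.ES.HECKE.LevelPullback12
import Fermat.Agent.ES.HECKE.NormCompat12

set_option autoImplicit false
set_option synthInstance.maxHeartbeats 400000

noncomputable section

open AlgebraicCurve ModularCurve IntermediateField

namespace Fermat.Agent.ES.HECKE.LevelCompatPic12

open Fermat.Agent.ES.HECKE.LevelPullback12 Fermat.Agent.ES.HECKE.InputsMain19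
  Fermat.Agent.ES.HECKE.InputsFinal15 Fermat.Agent.RED.TOP

variable {N M ℓ : ℕ} [NeZero N] [NeZero M] [NeZero ℓ]

theorem not_dvd_of_dvd (h : N ∣ M) (hℓM : ¬ ℓ ∣ M) : ¬ ℓ ∣ N := fun h' => hℓM (h'.trans h)

/-! ### The two commutative squares -/

theorem alpha_comp_levelIncl (h : N ∣ M) :
    (heckeAlphaBar Qb M ℓ).comp (levelIncl h) =
      (levelIncl (mul_dvd_mul_right h ℓ)).comp (heckeAlphaBar Qb N ℓ) := by
  apply AlgHom.ext
  intro x
  apply Subtype.ext
  rw [AlgHom.comp_apply, AlgHom.comp_apply, coe_heckeAlphaBar, coe_levelIncl, coe_levelIncl,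
    coe_heckeAlphaBar]

theorem beta_comp_levelIncl (h : N ∣ M) :
    (heckeBetaBar Qb M ℓ).comp (levelIncl h) =
      (levelIncl (mul_dvd_mul_right h ℓ)).comp (heckeBetaBar Qb N ℓ) := by
  apply AlgHom.ext
  intro x
  apply Subtype.ext
  rw [AlgHom.comp_apply, AlgHom.comp_apply, coe_heckeBetaBar, coe_levelIncl, coe_levelIncl,
    coe_heckeBetaBar]

/-! ### From divisors to `Pic⁰` -/

/-- The `Pic⁰` form of (H5) from the divisor form. -/
theorem levelPullback_heckeOperatorAlong_of_div (h : N ∣ M) (hℓ : ℓ.Prime) (hℓM : ¬ ℓ ∣ M)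
    (hdiv : ∀ D : Divisor Qb (modularFunctionFieldBar N),
      haveI := hasPrincipalDivisors_level N ℓ
      haveI := hasPrincipalDivisors_level M ℓ
      levelPullbackDiv h
          (heckeDivBar (AlongDegree25.heckeAlphaBarIntegral Qb N ℓ hℓ (not_dvd_of_dvd h hℓM))
            (AlongDegree25.heckeBetaBarIntegral Qb N ℓ hℓ (not_dvd_of_dvd h hℓM)) D) =
        heckeDivBar (AlongDegree25.heckeAlphaBarIntegral Qb M ℓ hℓ hℓM)
          (AlongDegree25.heckeBetaBarIntegral Qb M ℓ hℓ hℓM) (levelPullbackDiv h D))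
    (x : JZero N) :
    levelPullback h (heckeOperatorAlong Qb N ℓ x) =
      heckeOperatorAlong Qb M ℓ (levelPullback h x) := by
  haveI := hasPrincipalDivisors_level N ℓ
  haveI := hasPrincipalDivisors_level M ℓ
  have hℓN := not_dvd_of_dvd h hℓM
  rw [heckeOperatorAlong_eq (AlongDegree25.heckeAlphaBarIntegral Qb N ℓ hℓ hℓN)
      (AlongDegree25.heckeBetaBarIntegral Qb N ℓ hℓ hℓN)
      (fundamentalIdentityAlong_beta N ℓ hℓ hℓN) (AlongDegree25.finiteAlong_alpha Qb N ℓ hℓ hℓN)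
      (normFormulaAlong_alpha N ℓ hℓ hℓN),
    heckeOperatorAlong_eq (AlongDegree25.heckeAlphaBarIntegral Qb M ℓ hℓ hℓM)
      (AlongDegree25.heckeBetaBarIntegral Qb M ℓ hℓ hℓM)
      (fundamentalIdentityAlong_beta M ℓ hℓ hℓM) (AlongDegree25.finiteAlong_alpha Qb M ℓ hℓ hℓM)
      (normFormulaAlong_alpha M ℓ hℓ hℓM)]
  obtain ⟨D, rfl⟩ := Pic0.mk_surjective x
  unfold heckePic0Bar
  rw [Pic0.correspondence_mk, levelPullback_mk, levelPullback_mk, Pic0.correspondence_mk]
  refine congrArg Pic0.mk (Subtype.ext ?_)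
  exact hdiv (D : Divisor Qb (modularFunctionFieldBar N))

/-! ### The divisor identity from the norm compatibility -/

/-- The divisor form of (H5) from the norm compatibility along `α`. -/
theorem levelPullbackDiv_heckeDivBar_of_norm (h : N ∣ M) (hℓ : ℓ.Prime) (hℓM : ¬ ℓ ∣ M)
    (hnorm : ∀ f : modularFunctionFieldBar (N * ℓ),
      BaseChange19.normAlong (heckeAlphaBar Qb M ℓ) (levelIncl (mul_dvd_mul_right h ℓ) f) =
        levelIncl h (BaseChange19.normAlong (heckeAlphaBar Qb N ℓ) f))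
    (D : Divisor Qb (modularFunctionFieldBar N)) :
    haveI := hasPrincipalDivisors_level N ℓ
    haveI := hasPrincipalDivisors_level M ℓ
    levelPullbackDiv h
        (heckeDivBar (AlongDegree25.heckeAlphaBarIntegral Qb N ℓ hℓ (not_dvd_of_dvd h hℓM))
          (AlongDegree25.heckeBetaBarIntegral Qb N ℓ hℓ (not_dvd_of_dvd h hℓM)) D) =
      heckeDivBar (AlongDegree25.heckeAlphaBarIntegral Qb M ℓ hℓ hℓM)
        (AlongDegree25.heckeBetaBarIntegral Qb M ℓ hℓ hℓM) (levelPullbackDiv h D) := by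
  haveI := hasPrincipalDivisors_level N ℓ
  haveI := hasPrincipalDivisors_level M ℓ
  haveI := FbarFacts20.hasPrincipalDivisors_bar M
  have hℓN := not_dvd_of_dvd h hℓM
  exact BaseChange19.pullbackAlong_correspondence (heckeAlphaBar Qb N ℓ) (heckeBetaBar Qb N ℓ)
    (levelIncl h) (heckeAlphaBar Qb M ℓ) (heckeBetaBar Qb M ℓ)
    (levelIncl (mul_dvd_mul_right h ℓ)) (alpha_comp_levelIncl h) (beta_comp_levelIncl h)
    (AlongDegree25.heckeAlphaBarIntegral Qb N ℓ hℓ hℓN)
    (AlongDegree25.heckeBetaBarIntegral Qb N ℓ hℓ hℓN) (levelIncl_isIntegral h)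
    (AlongDegree25.heckeAlphaBarIntegral Qb M ℓ hℓ hℓM)
    (AlongDegree25.heckeBetaBarIntegral Qb M ℓ hℓ hℓM)
    (levelIncl_isIntegral (mul_dvd_mul_right h ℓ))
    (AlongDegree25.finiteAlong_alpha Qb N ℓ hℓ hℓN) (AlongDegree25.finiteAlong_alpha Qb M ℓ hℓ hℓM)
    (normFormulaAlong_alpha N ℓ hℓ hℓN) (normFormulaAlong_alpha M ℓ hℓ hℓM) hnorm D

/-- **(H5) from the norm compatibility along `α`.** -/
theorem levelPullback_heckeOperatorAlong_of_norm (h : N ∣ M) (hℓ : ℓ.Prime) (hℓM : ¬ ℓ ∣ M)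
    (hnorm : ∀ f : modularFunctionFieldBar (N * ℓ),
      BaseChange19.normAlong (heckeAlphaBar Qb M ℓ) (levelIncl (mul_dvd_mul_right h ℓ) f) =
        levelIncl h (BaseChange19.normAlong (heckeAlphaBar Qb N ℓ) f))
    (x : JZero N) :
    levelPullback h (heckeOperatorAlong Qb N ℓ x) =
      heckeOperatorAlong Qb M ℓ (levelPullback h x) :=
  levelPullback_heckeOperatorAlong_of_div h hℓ hℓM
    (fun D => levelPullbackDiv_heckeDivBar_of_norm h hℓ hℓM hnorm D) x

/-- **(H5) from a primitive element**: it suffices that `Fbar (M ℓ)` is generated over `Fbar M` by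
the image of ONE element `x₀` of `Fbar (N ℓ)`. -/
theorem levelPullback_heckeOperatorAlong_of_adjoin (h : N ∣ M) (hℓ : ℓ.Prime) (hℓM : ¬ ℓ ∣ M)
    (x₀ : modularFunctionFieldBar (N * ℓ))
    (htop : letI := algebraAlong (heckeAlphaBar Qb M ℓ)
      IntermediateField.adjoin (modularFunctionFieldBar M)
        {levelIncl (mul_dvd_mul_right h ℓ) x₀} = ⊤)
    (x : JZero N) :
    levelPullback h (heckeOperatorAlong Qb N ℓ x) =
      heckeOperatorAlong Qb M ℓ (levelPullback h x) := by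
  have hℓN := not_dvd_of_dvd h hℓM
  refine levelPullback_heckeOperatorAlong_of_norm h hℓ hℓM (fun f => ?_) x
  exact NormCompat12.normAlong_compat_of_adjoin (heckeAlphaBar Qb N ℓ) (levelIncl h)
    (heckeAlphaBar Qb M ℓ) (levelIncl (mul_dvd_mul_right h ℓ)) (alpha_comp_levelIncl h)
    (AlongDegree25.finiteAlong_alpha Qb N ℓ hℓ hℓN) (AlongDegree25.finiteAlong_alpha Qb M ℓ hℓ hℓM)
    (by rw [AlongDegree25.finrankAlong_alpha Qb N ℓ hℓ hℓN,
      AlongDegree25.finrankAlong_alpha Qb M ℓ hℓ hℓM]) x₀ htop f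

end Fermat.Agent.ES.HECKE.LevelCompatPic12
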