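/-
Program I (S37), chapter HECKE (helper20): **(H5)(c)** — `Fbar (M ℓ)` is generated over `α(Fbar M)` by
`j(q^ℓ)` (`ℓ` prime, `ℓ ∤ M`), and the resulting level compatibility of the Hecke operator `T_ℓ`.

Proof: at the cusp `0` (expansion `T_S` at level `M ℓ`) the subfield `Fbar M` lands in `ℚbar((q^ℓ))`
(`FrickeExp19.T_S_mem_range`) while `T_S (j(q^ℓ)) = j(q^M)` has order `-M`, prime to `ℓ`; so the minimal
polynomial of `j(q^ℓ)` over `Fbar M` has degree `≥ ℓ` (`RamDeg25.le_natDegree_minpoly`); it divides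
`[Fbar (M ℓ) : Fbar M] = ℓ + 1`, hence equals `ℓ + 1`.
-/
import Mathlib
import Fermat.Agent.ES.HECKE.LevelCompatPic12
import Fermat.Agent.RED.LVL.FrickeExp19
import Fermat.Agent.IG.PR.RamDeg25

set_option autoImplicit false
set_option linter.unusedSectionVars false
set_option linter.style.haveILetI false

open ModularCurve AlgebraicCurve IntermediateField
open scoped MatrixGroups

noncomputable section

namespace Fermat.Agent.ES.HECKE.LevelTop20

open Fermat.Agent.X0 Fermat.Agent.RED.BASE.Interface12 Fermat.Agent.RED.LVL.FrickeExp19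
open Fermat.Agent.ES.HECKE.LevelPullback12 Fermat.Agent.ES.HECKE.LevelCompatPic12

local notation "Qb" => AlgebraicClosure ℚ

/-- `j(q^ℓ)` as an element of `Fbar (M ℓ)`. -/
def jl (M ℓ : ℕ) [NeZero M] [NeZero ℓ] : modularFunctionFieldBar (M * ℓ) :=
  jdF (M * ℓ) ℓ (dvd_mul_left ℓ M)

theorem coe_jl (M ℓ : ℕ) [NeZero M] [NeZero ℓ] :
    ((jl M ℓ : modularFunctionFieldBar (M * ℓ)) : LaurentSeries Qb) =
      coeffEmb Kbar (qExpand ℚ ℓ jq) := rfl

variable {M ℓ : ℕ} [NeZero M] [NeZero ℓ]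

/-- arithmetic: a divisor `d ≥ ℓ` of `ℓ + 1` is `ℓ + 1` (`ℓ ≥ 2`). -/
theorem eq_succ_of_dvd_of_le {ℓ d : ℕ} (hℓ : 2 ≤ ℓ) (hd : d ∣ ℓ + 1) (hle : ℓ ≤ d) : d = ℓ + 1 := by
  obtain ⟨c, hc⟩ := hd
  rcases Nat.lt_or_ge c 2 with h2 | h2
  · interval_cases c
    · omega
    · omega
  · exfalso
    have : 2 * ℓ ≤ d * c := Nat.mul_le_mul hle h2 |>.trans_eq' (by ring)
    omega

/-- the degree of `j(q^ℓ)` over `α(Fbar M)` is at least `ℓ`. -/
theorem le_natDegree_minpoly_jl (hℓ : ℓ.Prime) (hℓM : ¬ ℓ ∣ M) :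
    letI := algebraAlong (heckeAlphaBar Qb M ℓ)
    ℓ ≤ (minpoly (modularFunctionFieldBar M) (jl M ℓ)).natDegree := by
  letI := algebraAlong (heckeAlphaBar Qb M ℓ)
  haveI : FiniteDimensional (modularFunctionFieldBar M) (modularFunctionFieldBar (M * ℓ)) :=
    AlongDegree25.finiteAlong_alpha Qb M ℓ hℓ hℓM
  set τ : modularFunctionFieldBar (M * ℓ) →+* LaurentSeries Kbar :=
    (cuspData (M * ℓ)).T ModularGroup.S with hτ
  letI : Algebra (modularFunctionFieldBar M) (LaurentSeries Kbar) :=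
    (τ.comp (algebraMap (modularFunctionFieldBar M) (modularFunctionFieldBar (M * ℓ)))).toAlgebra
  let φ : modularFunctionFieldBar (M * ℓ) →ₐ[modularFunctionFieldBar M] LaurentSeries Kbar :=
    { τ with commutes' := fun _ => rfl }
  have hφ : Function.Injective φ := τ.injective
  have hmin : minpoly (modularFunctionFieldBar M) (φ (jl M ℓ)) =
      minpoly (modularFunctionFieldBar M) (jl M ℓ) := minpoly.algHom_eq φ hφ (jl M ℓ)
  rw [← hmin]
  have hval : φ (jl M ℓ) = qExpand Kbar M jqK := T_S_jdF (M * ℓ) ℓ M (mul_comm M ℓ)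
  have hord : (φ (jl M ℓ)).order = -(M : ℤ) := by rw [hval]; exact order_qExpand_jqK M
  have hy0 : φ (jl M ℓ) ≠ 0 := by
    intro h0
    rw [h0, HahnSeries.order_zero] at hord
    have : (M : ℤ) = 0 := by omega
    exact NeZero.ne M (by exact_mod_cast this)
  have hcop : IsCoprime (φ (jl M ℓ)).order (ℓ : ℤ) := by
    rw [hord]
    have h1 : Nat.Coprime M ℓ := ((Nat.Prime.coprime_iff_not_dvd hℓ).mpr hℓM).symm
    exact (Nat.isCoprime_iff_coprime.mpr h1).neg_left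
  have hF : ∀ a : modularFunctionFieldBar M,
      algebraMap (modularFunctionFieldBar M) (LaurentSeries Kbar) a ∈
        Set.range (qExpand Kbar ℓ) := fun a => T_S_mem_range M (M * ℓ) ℓ rfl a
  have hint : IsIntegral (modularFunctionFieldBar M) (φ (jl M ℓ)) :=
    (isIntegral_algHom_iff φ hφ).mpr
      (Algebra.IsIntegral.isIntegral (R := modularFunctionFieldBar M) (jl M ℓ))
  exact Fermat.Agent.IG.PR.RamDeg25.le_natDegree_minpoly hy0 hcop hF hint

/-- **(H5)(c)**: `Fbar (M ℓ) = α(Fbar M)(j(q^ℓ))`. -/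
theorem adjoin_jl_eq_top (hℓ : ℓ.Prime) (hℓM : ¬ ℓ ∣ M) :
    letI := algebraAlong (heckeAlphaBar Qb M ℓ)
    IntermediateField.adjoin (modularFunctionFieldBar M) {jl M ℓ} = ⊤ := by
  letI := algebraAlong (heckeAlphaBar Qb M ℓ)
  haveI : FiniteDimensional (modularFunctionFieldBar M) (modularFunctionFieldBar (M * ℓ)) :=
    AlongDegree25.finiteAlong_alpha Qb M ℓ hℓ hℓM
  have hfr : Module.finrank (modularFunctionFieldBar M) (modularFunctionFieldBar (M * ℓ)) = ℓ + 1 :=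
    AlongDegree25.finrankAlong_alpha Qb M ℓ hℓ hℓM
  rw [Field.primitive_element_iff_minpoly_natDegree_eq, hfr]
  have hdvd : (minpoly (modularFunctionFieldBar M) (jl M ℓ)).natDegree ∣ ℓ + 1 := by
    rw [← hfr]
    exact minpoly.degree_dvd (Algebra.IsIntegral.isIntegral _)
  exact eq_succ_of_dvd_of_le hℓ.two_le hdvd (le_natDegree_minpoly_jl hℓ hℓM)

variable {N : ℕ} [NeZero N]

theorem levelIncl_jl (h : N ∣ M) :
    levelIncl (mul_dvd_mul_right h ℓ) (jl N ℓ) = jl M ℓ := by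
  apply Subtype.ext
  rw [coe_levelIncl, coe_jl, coe_jl]

/-- `htop` of `LevelCompatPic12.levelPullback_heckeOperatorAlong_of_adjoin`, with `x₀ := j(q^ℓ)`. -/
theorem adjoin_levelIncl_jl_eq_top (h : N ∣ M) (hℓ : ℓ.Prime) (hℓM : ¬ ℓ ∣ M) :
    letI := algebraAlong (heckeAlphaBar Qb M ℓ)
    IntermediateField.adjoin (modularFunctionFieldBar M)
      {levelIncl (mul_dvd_mul_right h ℓ) (jl N ℓ)} = ⊤ := by
  rw [levelIncl_jl h]
  exact adjoin_jl_eq_top hℓ hℓM

/-- **(H5)**: level compatibility of `T_ℓ`: `π^* ∘ T_ℓ^{(N)} = T_ℓ^{(M)} ∘ π^*` on `J₀`. -/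
theorem levelPullback_heckeOperatorAlong (h : N ∣ M) (hℓ : ℓ.Prime) (hℓM : ¬ ℓ ∣ M) (x : JZero N) :
    levelPullback h (heckeOperatorAlong Qb N ℓ x) =
      heckeOperatorAlong Qb M ℓ (levelPullback h x) :=
  levelPullback_heckeOperatorAlong_of_adjoin h hℓ hℓM (jl N ℓ)
    (adjoin_levelIncl_jl_eq_top h hℓ hℓM) x

end Fermat.Agent.ES.HECKE.LevelTop20
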