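/-
Program I (S37), chapter ES/HECKE (helper28): (H2) the POINT FORMULA for a correspondence
`ψ_* ∘ φ^*` of function fields, and the unfolding of the prelude's Hecke operator.

Generic part (`φ ψ : F →ₐ[K] F'` integral, `HasPrincipalDivisors K F'`):
* `correspondence_single` : `ψ_* φ^* [v] = ∑_{w | v via φ} e_φ(w) · f_ψ(w) · [w ∘ ψ]`;
* `inertiaDegAlong_eq_one` : inertia degrees are `1` when all places have degree `1`;
* `correspondence_single_of_deg` : the same without inertia degrees;
* `pullbackAlong_eq_ord` : `φ^* div f = div (φ f)`;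
* `correspondence_eq_ord_norm` : (from the norm formula for `ψ`)
  `ψ_* φ^* div f = div (N_ψ (φ f))`.

Modular part: `heckeOperatorAlong L N ℓ (Pic0.mk D) = Pic0.mk ⟨heckeDivBar D, _⟩` when
`HeckeInputsAlong L N ℓ` holds, and `heckeDivBar` on a point.
-/
import Mathlib
import Fermat.Prelude.Def_ModularCurve_HeckeOperatorTotal
import Fermat.Prelude.Def_ModularCurve_HeckeModule

set_option autoImplicit false
set_option linter.style.haveILetI false

noncomputable section

namespace Fermat.Agent.ES.HECKE.PointFormula28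

open AlgebraicCurve

section Generic

variable {K F F' : Type*} [Field K] [Field F] [Field F'] [Algebra K F] [Algebra K F']

/-- The norm along `ψ : F → F'` (for the algebra structure `algebraAlong ψ`). -/
def normAlong (ψ : F →ₐ[K] F') (y : F') : F :=
  letI := algebraAlong ψ
  Algebra.norm F y

variable [HasPrincipalDivisors K F']
  (φ ψ : F →ₐ[K] F') (hφ : φ.toRingHom.IsIntegral) (hψ : ψ.toRingHom.IsIntegral)

/-- **(H2) point formula.** -/
theorem correspondence_single (v : Place K F) (n : ℤ) :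
    Divisor.correspondence φ ψ hφ hψ (Finsupp.single v n) =
      ∑ w ∈ Place.fiberAlong φ hφ v,
        Finsupp.single (w.restrictAlong ψ hψ)
          (n * (w.ramificationIndexAlong φ : ℤ) * (w.inertiaDegAlong ψ hψ : ℤ)) := by
  rw [Divisor.correspondence_apply, Divisor.pullbackAlong_single, map_sum]
  refine Finset.sum_congr rfl fun w _ => ?_
  rw [Divisor.pushforwardAlong_single]

omit [HasPrincipalDivisors K F'] in
/-- Inertia degrees are `1` when the places involved have degree `1`. -/
theorem inertiaDegAlong_eq_one (w : Place K F') (hw : w.deg = 1) :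
    w.inertiaDegAlong ψ hψ = 1 := by
  letI := algebraAlong ψ
  haveI := isScalarTower_along ψ
  haveI := isIntegral_along ψ hψ
  have h := w.deg_restrict_mul_inertiaDeg (F := F)
  rw [hw] at h
  exact Nat.eq_one_of_mul_eq_one_left h

/-- The point formula when all places of `F'` have degree one. -/
theorem correspondence_single_of_deg (hdeg : ∀ w : Place K F', w.deg = 1) (v : Place K F)
    (n : ℤ) :
    Divisor.correspondence φ ψ hφ hψ (Finsupp.single v n) =
      ∑ w ∈ Place.fiberAlong φ hφ v,
        Finsupp.single (w.restrictAlong ψ hψ) (n * (w.ramificationIndexAlong φ : ℤ)) := by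
  rw [correspondence_single]
  refine Finset.sum_congr rfl fun w _ => ?_
  rw [inertiaDegAlong_eq_one ψ hψ w (hdeg w), Nat.cast_one, mul_one]

/-- `φ^* div f = div (φ f)`. -/
theorem pullbackAlong_eq_ord {f : F} {D : Divisor K F} (hD : ∀ v : Place K F, D v = v.ord f)
    (w : Place K F') : Divisor.pullbackAlong φ hφ D w = w.ord (φ f) := by
  rw [Divisor.pullbackAlong_apply, hD, ← Place.ord_restrictAlong]

/-- **Correspondence on principal divisors** (norm form): if the norm formula holds along `ψ`,
then `ψ_* φ^* div f = div (N_ψ (φ f))`. -/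
theorem correspondence_eq_ord_norm (hfin : FiniteAlong K ψ) (hN : NormFormulaAlong K ψ hfin)
    {f : F} (hf : f ≠ 0) {D : Divisor K F} (hD : ∀ v : Place K F, D v = v.ord f)
    (v : Place K F) :
    Divisor.correspondence φ ψ hφ hψ D v = v.ord (normAlong ψ (φ f)) := by
  have hφf : φ f ≠ 0 := by
    rw [Ne, map_eq_zero_iff φ φ.toRingHom.injective]
    exact hf
  rw [Divisor.correspondence_apply]
  letI := algebraAlong ψ
  haveI := isScalarTower_along ψ
  haveI := isIntegral_along ψ hψ
  haveI : Module.Finite F F' := hfin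
  exact hN (φ f) hφf (Divisor.pullbackAlong φ hφ D) (pullbackAlong_eq_ord φ hφ hD) v

/-- `∑_{w | v} e(w | v) = [F' : φ F]` when all places have degree one. -/
theorem sum_ramificationIndexAlong (hFI : FundamentalIdentityAlong K φ hφ)
    (hdeg' : ∀ w : Place K F', w.deg = 1) (v : Place K F) (hv : v.deg = 1) :
    ∑ w ∈ Place.fiberAlong φ hφ v, (w.ramificationIndexAlong φ : ℤ) = (finrankAlong K φ : ℤ) := by
  letI := algebraAlong φ
  haveI := isScalarTower_along φ
  haveI := isIntegral_along φ hφ
  haveI : FundamentalIdentity K F F' := hFI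
  have h := FundamentalIdentity.sum_ramificationIndex_mul_deg (K := K) (F := F) (F' := F') v
  rw [hv, Nat.cast_one, mul_one] at h
  rw [← show (Module.finrank F F' : ℤ) = (finrankAlong K φ : ℤ) from rfl, ← h]
  refine Finset.sum_congr rfl fun w _ => ?_
  rw [hdeg' w, Nat.cast_one, mul_one]
  rfl

/-- Degree of `ψ_* φ^* [v]`. -/
theorem degree_correspondence_single (hFI : FundamentalIdentityAlong K φ hφ) (v : Place K F)
    (n : ℤ) :
    Divisor.degree (Divisor.correspondence φ ψ hφ hψ (Finsupp.single v n)) =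
      (finrankAlong K φ : ℤ) * (n * v.deg) := by
  rw [Divisor.degree_correspondence φ ψ hφ hψ hFI, Divisor.degree_single]

end Generic

section Modular

open ModularCurve

variable {L : Type*} [Field L] [Algebra ℚ L] {N ℓ : ℕ} [NeZero N] [NeZero ℓ]

/-- **Unfolding `T_ℓ`** on a divisor class. -/
theorem heckeOperatorAlong_mk (hα : HeckeAlphaBarIntegral L N ℓ) (hβ : HeckeBetaBarIntegral L N ℓ)
    [HasPrincipalDivisors L (laurentBaseChange L (modularFunctionFieldFull (N * ℓ)))]
    (hFI : FundamentalIdentityAlong L (heckeBetaBar L N ℓ) hβ)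
    (hfin : FiniteAlong L (heckeAlphaBar L N ℓ))
    (hN : NormFormulaAlong L (heckeAlphaBar L N ℓ) hfin)
    (D : Divisor.degZero (K := L) (F := laurentBaseChange L (modularFunctionFieldFull N))) :
    heckeOperatorAlong L N ℓ (Pic0.mk D) =
      Pic0.mk (Pic0.degZeroCorrespondence (heckeBetaBar L N ℓ) (heckeAlphaBar L N ℓ) hβ hα hFI D) := by
  rw [heckeOperatorAlong_eq hα hβ hFI hfin hN]
  rfl

/-- `T_ℓ` on a point: `T_ℓ [P] = ∑_{P' | P via β} e_β(P') f_α(P') [P' ∘ α]`. -/
theorem heckeDivBar_single (hα : HeckeAlphaBarIntegral L N ℓ) (hβ : HeckeBetaBarIntegral L N ℓ)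
    [HasPrincipalDivisors L (laurentBaseChange L (modularFunctionFieldFull (N * ℓ)))]
    (P : Place L (laurentBaseChange L (modularFunctionFieldFull N))) (n : ℤ) :
    heckeDivBar hα hβ (Finsupp.single P n) =
      ∑ P' ∈ Place.fiberAlong (heckeBetaBar L N ℓ) hβ P,
        Finsupp.single (P'.restrictAlong (heckeAlphaBar L N ℓ) hα)
          (n * (P'.ramificationIndexAlong (heckeBetaBar L N ℓ) : ℤ) *
            (P'.inertiaDegAlong (heckeAlphaBar L N ℓ) hα : ℤ)) :=
  correspondence_single _ _ hβ hα P n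

/-- `T_ℓ` as an endomorphism of `J₀(N)(ℚ̄)`, unfolded on a divisor class. -/
theorem heckeOperatorBar_mk (p : Nat.Primes)
    (hα : haveI : NeZero (p : ℕ) := ⟨p.2.ne_zero⟩;
      HeckeAlphaBarIntegral (AlgebraicClosure ℚ) N (p : ℕ))
    (hβ : haveI : NeZero (p : ℕ) := ⟨p.2.ne_zero⟩;
      HeckeBetaBarIntegral (AlgebraicClosure ℚ) N (p : ℕ))
    [HasPrincipalDivisors (AlgebraicClosure ℚ)
      (laurentBaseChange (AlgebraicClosure ℚ) (modularFunctionFieldFull (N * (p : ℕ))))]
    (hFI : haveI : NeZero (p : ℕ) := ⟨p.2.ne_zero⟩;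
      FundamentalIdentityAlong (AlgebraicClosure ℚ) (heckeBetaBar (AlgebraicClosure ℚ) N (p : ℕ)) hβ)
    (hfin : haveI : NeZero (p : ℕ) := ⟨p.2.ne_zero⟩;
      FiniteAlong (AlgebraicClosure ℚ) (heckeAlphaBar (AlgebraicClosure ℚ) N (p : ℕ)))
    (hN : haveI : NeZero (p : ℕ) := ⟨p.2.ne_zero⟩;
      NormFormulaAlong (AlgebraicClosure ℚ) (heckeAlphaBar (AlgebraicClosure ℚ) N (p : ℕ)) hfin)
    (D : Divisor.degZero (K := AlgebraicClosure ℚ) (F := modularFunctionFieldBar N)) :
    heckeOperatorBar N p (Pic0.mk D) =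
      (haveI : NeZero (p : ℕ) := ⟨p.2.ne_zero⟩;
        Pic0.mk (Pic0.degZeroCorrespondence (heckeBetaBar (AlgebraicClosure ℚ) N (p : ℕ))
          (heckeAlphaBar (AlgebraicClosure ℚ) N (p : ℕ)) hβ hα hFI D)) := by
  haveI : NeZero (p : ℕ) := ⟨p.2.ne_zero⟩
  rw [heckeOperatorBar_apply]
  exact heckeOperatorAlong_mk hα hβ hFI hfin hN D

end Modular

end Fermat.Agent.ES.HECKE.PointFormula28
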