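/-
Program I (S37), chapter ES/HECKE (helper28): the abstract degree count behind `htop` of (H5).

A finite field extension `E/F` of degree `l + 1` (`l ≥ 2`) is generated by any element whose
minimal polynomial has degree at least `l`: the degree of `F⟮x⟯` divides `l + 1` and is `≥ l`,
hence equals `l + 1`.

* `adjoin_eq_top_of_le_natDegree` : the statement for `[Algebra F E]`;
* `adjoin_eq_top_along`            : the same along a `K`-algebra map `φ : F → F'`
                                      (Prelude `algebraAlong`, `FiniteAlong`, `finrankAlong`).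
-/
import Mathlib
import Fermat.Prelude.Def_AlgebraicCurve_Correspondence

set_option autoImplicit false
set_option linter.style.haveILetI false

open AlgebraicCurve IntermediateField

noncomputable section

namespace Fermat.Agent.ES.HECKE.AdjoinTopAbs28

/-- A divisor of `l + 1` which is at least `l` equals `l + 1` (for `l ≥ 2`). -/
theorem eq_of_dvd_succ_of_le {l d : ℕ} (hl : 2 ≤ l) (hd : d ∣ l + 1) (hle : l ≤ d) :
    d = l + 1 := by
  obtain ⟨c, hc⟩ := hd
  rcases c with _ | _ | c
  · omega
  · omega
  · exfalso
    have h1 : d * (c + 1 + 1) ≥ d * 2 := Nat.mul_le_mul_left d (by omega)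
    omega

/-- **Degree count**: in an extension of degree `l + 1`, `l ≥ 2`, an element whose minimal
polynomial has degree `≥ l` is a primitive element. -/
theorem adjoin_eq_top_of_le_natDegree {F E : Type*} [Field F] [Field E] [Algebra F E]
    [FiniteDimensional F E] {l : ℕ} (hl : 2 ≤ l) (hfr : Module.finrank F E = l + 1) (x : E)
    (hmin : l ≤ (minpoly F x).natDegree) : IntermediateField.adjoin F {x} = ⊤ := by
  have hint : IsIntegral F x := Algebra.IsIntegral.isIntegral x
  have h1 : Module.finrank F F⟮x⟯ = (minpoly F x).natDegree :=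
    IntermediateField.adjoin.finrank hint
  have h2 : Module.finrank F F⟮x⟯ ∣ Module.finrank F E :=
    ⟨Module.finrank F⟮x⟯ E, (Module.finrank_mul_finrank F F⟮x⟯ E).symm⟩
  rw [hfr, h1] at h2
  have h3 := eq_of_dvd_succ_of_le hl h2 hmin
  apply IntermediateField.eq_of_le_of_finrank_eq le_top
  rw [h1, h3, IntermediateField.finrank_top', hfr]

/-- The same along a `K`-algebra map `φ : F → F'`: the shape of `htop` in
`LevelCompatPic12.levelPullback_heckeOperatorAlong_of_adjoin`. -/
theorem adjoin_eq_top_along {K F F' : Type*} [Field K] [Field F] [Field F'] [Algebra K F]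
    [Algebra K F'] (φ : F →ₐ[K] F') (hfin : FiniteAlong K φ) {l : ℕ} (hl : 2 ≤ l)
    (hfr : finrankAlong K φ = l + 1) (x : F')
    (hmin : letI := algebraAlong φ
      l ≤ (minpoly F x).natDegree) :
    letI := algebraAlong φ
    IntermediateField.adjoin F {x} = ⊤ := by
  letI := algebraAlong φ
  haveI : FiniteDimensional F F' := hfin
  exact adjoin_eq_top_of_le_natDegree hl hfr x hmin

/-- Variant: the lower bound given as "no nonzero polynomial of degree `< l` over `F` (along `φ`)
kills `x`". -/
theorem adjoin_eq_top_along_of_forall {K F F' : Type*} [Field K] [Field F] [Field F']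
    [Algebra K F] [Algebra K F'] (φ : F →ₐ[K] F') (hfin : FiniteAlong K φ) {l : ℕ} (hl : 2 ≤ l)
    (hfr : finrankAlong K φ = l + 1) (x : F')
    (hne : ∀ g : Polynomial F, g ≠ 0 → g.natDegree < l → g.eval₂ φ.toRingHom x ≠ 0) :
    letI := algebraAlong φ
    IntermediateField.adjoin F {x} = ⊤ := by
  letI := algebraAlong φ
  haveI : FiniteDimensional F F' := hfin
  refine adjoin_eq_top_of_le_natDegree hl hfr x ?_
  by_contra hlt
  rw [not_le] at hlt
  have hint : IsIntegral F x := Algebra.IsIntegral.isIntegral x
  exact hne _ (minpoly.ne_zero hint) hlt (minpoly.aeval F x)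

end Fermat.Agent.ES.HECKE.AdjoinTopAbs28
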