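/-
Program I (S37), chapter ES/HECKE, helper25: WEAK APPROXIMATION for the places of a function field
(the Prelude's `AlgebraicCurve.Place K F`), no hypotheses on `K`, `F`:

* `exists_ord_eq (S : Finset (Place K F)) (n : Place K F → ℤ) : ∃ f ≠ 0, ∀ v ∈ S, v.ord f = n v`.

Artin–Whaples induction, written with `ord` only.
-/
import Mathlib
import Fermat.Agent.X0.FFDict
import Fermat.Agent.X0.LaurentPlace

set_option autoImplicit false

open AlgebraicCurve

namespace Fermat.Agent.ES.HECKE.WeakApprox25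

open Fermat.Agent.X0

variable {K F : Type*} [Field K] [Field F] [Algebra K F]

theorem ne_zero_of_ord_ne_zero (v : Place K F) {f : F} (h : v.ord f ≠ 0) : f ≠ 0 := by
  rintro rfl
  exact h v.ord_zero

theorem ord_div (v : Place K F) {f g : F} (hf : f ≠ 0) (hg : g ≠ 0) :
    v.ord (f / g) = v.ord f - v.ord g := by
  rw [div_eq_mul_inv, v.ord_mul hf (inv_ne_zero hg), v.ord_inv]
  ring

/-- `ord (1 + y) = ord y` when `ord y < 0`. -/
theorem ord_one_add_of_neg (v : Place K F) {y : F} (h : v.ord y < 0) :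
    v.ord (1 + y) = v.ord y := by
  have hy : y ≠ 0 := ne_zero_of_ord_ne_zero v h.ne
  rw [add_comm]
  exact FF.ord_add_eq_of_lt v hy (by rw [v.ord_one]; exact h)

/-- `ord (1 + y) = 0` when `0 < ord y`. -/
theorem ord_one_add_of_pos (v : Place K F) {y : F} (h : 0 < v.ord y) :
    v.ord (1 + y) = 0 := by
  have := FF.ord_add_eq_of_lt v (f := (1 : F)) (g := y) one_ne_zero (by rw [v.ord_one]; exact h)
  rw [this, v.ord_one]

theorem one_add_ne_zero_of_ord_ne_zero (v : Place K F) {y : F} (h : v.ord y ≠ 0) :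
    1 + y ≠ 0 := by
  intro h0
  have : y = -1 := eq_neg_of_add_eq_zero_right h0
  rw [this, FF.ord_neg, v.ord_one] at h
  exact h rfl

/-- `-(g u) ≤ ∑ |g u|`. -/
theorem neg_le_sum_natAbs (S : Finset (Place K F)) (g : Place K F → ℤ) {u : Place K F}
    (hu : u ∈ S) : -(g u) ≤ ((∑ u ∈ S, (g u).natAbs : ℕ) : ℤ) := by
  have h1 : (g u).natAbs ≤ ∑ u ∈ S, (g u).natAbs :=
    Finset.single_le_sum (f := fun u : Place K F => (g u).natAbs) (fun _ _ => Nat.zero_le _) hu
  have h2 : -(g u) ≤ ((g u).natAbs : ℤ) := by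
    rw [Int.natCast_natAbs]; exact neg_le_abs _
  have h3 : ((g u).natAbs : ℤ) ≤ ((∑ u ∈ S, (g u).natAbs : ℕ) : ℤ) := Int.ofNat_le.mpr h1
  exact h2.trans h3

/-- Distinct places have incomparable valuation rings. -/
theorem exists_mem_not_mem {v w : Place K F} (h : v ≠ w) :
    ∃ a : F, a ∈ v.toValuationSubring ∧ a ∉ w.toValuationSubring := by
  by_contra hcon
  push Not at hcon
  -- `O_v ⊆ O_w`; then `O_w ⊆ O_v` as well, otherwise `O_w = ⊤`
  have hwv : ∀ x : F, x ∈ w.toValuationSubring → x ∈ v.toValuationSubring := by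
    intro x hx
    by_contra hxv
    apply w.ne_top'
    refine SetLike.ext fun y => ⟨fun _ => ValuationSubring.mem_top y, fun _ => ?_⟩
    have hx0 : x ≠ 0 := fun h0 => hxv (h0 ▸ zero_mem _)
    have hordx : v.ord x < 0 := by
      by_contra hge
      exact hxv (FF.mem_of_ord_nonneg v (not_lt.mp hge))
    rcases eq_or_ne y 0 with rfl | hy0
    · exact zero_mem _
    -- `y = x^n * (y / x^n)` with `y / x^n ∈ O_v`
    set n : ℕ := (v.ord y).natAbs with hn
    have hxn : x ^ n ≠ 0 := pow_ne_zero _ hx0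
    have h1 : 0 ≤ v.ord (y / x ^ n) := by
      rw [ord_div v hy0 hxn, FF.ord_pow]
      have : (n : ℤ) = |v.ord y| := by rw [hn, Int.natCast_natAbs]
      have h2 : -|v.ord y| ≤ v.ord y := neg_abs_le _
      nlinarith [abs_nonneg (v.ord y)]
    have h2 : y / x ^ n ∈ w.toValuationSubring := hcon _ (FF.mem_of_ord_nonneg v h1)
    have h3 : x ^ n * (y / x ^ n) = y := by field_simp
    rw [← h3]
    exact mul_mem (pow_mem hx n) h2
  exact h (Place.ext (SetLike.ext fun x => ⟨hcon x, hwv x⟩))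

/-- For distinct places there is `x` small at `w` and large at `v`. -/
theorem exists_neg_pos {v w : Place K F} (h : v ≠ w) :
    ∃ x : F, x ≠ 0 ∧ v.ord x < 0 ∧ 0 < w.ord x := by
  obtain ⟨a, hav, haw⟩ := exists_mem_not_mem h
  obtain ⟨b, hbw, hbv⟩ := exists_mem_not_mem (Ne.symm h)
  have ha0 : a ≠ 0 := fun h0 => haw (h0 ▸ zero_mem _)
  have hb0 : b ≠ 0 := fun h0 => hbv (h0 ▸ zero_mem _)
  have h1 : 0 ≤ v.ord a := FF.ord_nonneg_of_mem v hav
  have h2 : w.ord a < 0 := by
    by_contra hge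
    exact haw (FF.mem_of_ord_nonneg w (not_lt.mp hge))
  have h3 : 0 ≤ w.ord b := FF.ord_nonneg_of_mem w hbw
  have h4 : v.ord b < 0 := by
    by_contra hge
    exact hbv (FF.mem_of_ord_nonneg v (not_lt.mp hge))
  refine ⟨b / a, div_ne_zero hb0 ha0, ?_, ?_⟩
  · rw [ord_div v hb0 ha0]; omega
  · rw [ord_div w hb0 ha0]; omega

/-- **Artin–Whaples**: `x` large at `v`, small at all `w ∈ S`. -/
theorem exists_neg_pos_finset (v : Place K F) (S : Finset (Place K F)) (hv : v ∉ S) :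
    ∃ x : F, x ≠ 0 ∧ v.ord x < 0 ∧ ∀ w ∈ S, 0 < w.ord x := by
  classical
  induction S using Finset.induction_on with
  | empty =>
    obtain ⟨t, ht0, ht⟩ := LaurentPlace.exists_ord_eq_one v
    refine ⟨t⁻¹, inv_ne_zero ht0, ?_, by simp⟩
    rw [v.ord_inv, ht]; omega
  | insert w S hwS ih =>
    have hvw : v ≠ w := fun h => hv (h ▸ Finset.mem_insert_self _ _)
    have hvS : v ∉ S := fun h => hv (Finset.mem_insert_of_mem h)
    obtain ⟨y, hy0, hyv, hyS⟩ := ih hvS
    obtain ⟨z, hz0, hzv, hzw⟩ := exists_neg_pos hvw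
    -- exponent
    set r : ℕ := 1 + ∑ u ∈ S, (u.ord z).natAbs with hr
    have hr' : (r : ℤ) = 1 + ((∑ u ∈ S, (u.ord z).natAbs : ℕ) : ℤ) := by
      rw [hr, Nat.cast_add, Nat.cast_one]
    have hr1 : (1 : ℤ) ≤ r := by
      rw [hr']
      have : (0 : ℤ) ≤ ((∑ u ∈ S, (u.ord z).natAbs : ℕ) : ℤ) := Int.natCast_nonneg _
      omega
    have hru : ∀ u ∈ S, -(u.ord z) < r := by
      intro u hu
      have := neg_le_sum_natAbs S (fun u => u.ord z) hu
      rw [hr']
      omega
    have hyr0 : y ^ r ≠ 0 := pow_ne_zero _ hy0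
    by_cases hyw : 0 ≤ w.ord y
    · -- `x = y^r z`
      refine ⟨y ^ r * z, mul_ne_zero hyr0 hz0, ?_, ?_⟩
      · rw [v.ord_mul hyr0 hz0, FF.ord_pow]; nlinarith
      · intro u hu
        rw [u.ord_mul hyr0 hz0, FF.ord_pow]
        rcases Finset.mem_insert.mp hu with rfl | huS
        · nlinarith
        · have := hyS u huS
          have := hru u huS
          nlinarith
    · -- `x = y^r z / (1 + y^r)`
      have hyw' : w.ord y < 0 := not_le.mp hyw
      have hvr : v.ord (y ^ r) < 0 := by rw [FF.ord_pow]; nlinarith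
      have hwr : w.ord (y ^ r) < 0 := by rw [FF.ord_pow]; nlinarith
      have h1 : 1 + y ^ r ≠ 0 := one_add_ne_zero_of_ord_ne_zero v hvr.ne
      refine ⟨y ^ r * z / (1 + y ^ r), div_ne_zero (mul_ne_zero hyr0 hz0) h1, ?_, ?_⟩
      · rw [ord_div v (mul_ne_zero hyr0 hz0) h1, v.ord_mul hyr0 hz0, ord_one_add_of_neg v hvr]
        omega
      · intro u hu
        rw [ord_div u (mul_ne_zero hyr0 hz0) h1, u.ord_mul hyr0 hz0]
        rcases Finset.mem_insert.mp hu with rfl | huS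
        · rw [ord_one_add_of_neg u hwr]; omega
        · have hupos : 0 < u.ord (y ^ r) := by
            rw [FF.ord_pow]
            have := hyS u huS
            nlinarith
          rw [ord_one_add_of_pos u hupos, FF.ord_pow]
          have := hyS u huS
          have := hru u huS
          nlinarith

/-- An element `≡ 1` at `v` and `≡ 0` at all `w ∈ S`, to any order `m ≥ 1`. -/
theorem exists_one_zero (v : Place K F) (S : Finset (Place K F)) (hv : v ∉ S) (m : ℕ)
    (hm : 1 ≤ m) :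
    ∃ e : F, e ≠ 0 ∧ e - 1 ≠ 0 ∧ (m : ℤ) ≤ v.ord (e - 1) ∧ ∀ w ∈ S, (m : ℤ) ≤ w.ord e := by
  obtain ⟨x, hx0, hxv, hxS⟩ := exists_neg_pos_finset v S hv
  have hm' : (1 : ℤ) ≤ m := by exact_mod_cast hm
  have hxm0 : x ^ m ≠ 0 := pow_ne_zero _ hx0
  have hvm : v.ord (x ^ m) < 0 := by rw [FF.ord_pow]; nlinarith
  have h1 : 1 + x ^ m ≠ 0 := one_add_ne_zero_of_ord_ne_zero v hvm.ne
  have he1 : x ^ m / (1 + x ^ m) - 1 = -(1 + x ^ m)⁻¹ := by
    field_simp
    ring
  refine ⟨x ^ m / (1 + x ^ m), div_ne_zero hxm0 h1, ?_, ?_, ?_⟩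
  · rw [he1]; exact neg_ne_zero.mpr (inv_ne_zero h1)
  · rw [he1, FF.ord_neg, v.ord_inv, ord_one_add_of_neg v hvm, FF.ord_pow]
    nlinarith
  · intro w hw
    have hwm : 0 < w.ord (x ^ m) := by
      rw [FF.ord_pow]
      have := hxS w hw
      nlinarith
    rw [ord_div w hxm0 h1, ord_one_add_of_pos w hwm, FF.ord_pow]
    have := hxS w hw
    nlinarith

/-- A uniformiser at `v` which is a unit at all `w ∈ S`. -/
theorem exists_ord_one_zero (v : Place K F) (S : Finset (Place K F)) (hv : v ∉ S) :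
    ∃ f : F, f ≠ 0 ∧ v.ord f = 1 ∧ ∀ w ∈ S, w.ord f = 0 := by
  classical
  obtain ⟨t, ht0, ht⟩ := LaurentPlace.exists_ord_eq_one v
  set m : ℕ := 2 + ∑ u ∈ S, (u.ord t).natAbs with hm
  have hm' : (m : ℤ) = 2 + ((∑ u ∈ S, (u.ord t).natAbs : ℕ) : ℤ) := by
    rw [hm, Nat.cast_add, Nat.cast_ofNat]
  have hmu : ∀ u ∈ S, -(u.ord t) < m := by
    intro u hu
    have := neg_le_sum_natAbs S (fun u => u.ord t) hu
    rw [hm']
    omega
  have hm2 : (2 : ℤ) ≤ m := by
    rw [hm']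
    have : (0 : ℤ) ≤ ((∑ u ∈ S, (u.ord t).natAbs : ℕ) : ℤ) := Int.natCast_nonneg _
    omega
  obtain ⟨e, he0, he1, hev, heS⟩ := exists_one_zero v S hv m (by omega)
  have het0 : e * t ≠ 0 := mul_ne_zero he0 ht0
  -- at `v`
  have hve : v.ord e = 0 := by
    have : e = 1 + (e - 1) := by ring
    rw [this]
    exact ord_one_add_of_pos v (by omega)
  have hvet : v.ord (e * t) = 1 := by rw [v.ord_mul he0 ht0, hve, ht]; ring
  have hv1e : v.ord (1 - e) = v.ord (e - 1) := by rw [← FF.ord_neg]; congr 1; ring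
  have hvf : v.ord (e * t + (1 - e)) = 1 := by
    rw [FF.ord_add_eq_of_lt v het0 (by rw [hvet, hv1e]; omega), hvet]
  refine ⟨e * t + (1 - e), ne_zero_of_ord_ne_zero v (by rw [hvf]; exact one_ne_zero), hvf, ?_⟩
  intro w hw
  have hwe : (m : ℤ) ≤ w.ord e := heS w hw
  have hw1e : w.ord (1 - e) = 0 := by
    have : (1 : F) - e = 1 + (-e) := by ring
    rw [this]
    exact ord_one_add_of_pos w (by rw [FF.ord_neg]; omega)
  have h1e0 : (1 : F) - e ≠ 0 := by
    intro h0
    apply he1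
    rw [← neg_sub, h0, neg_zero]
  rw [add_comm, FF.ord_add_eq_of_lt w h1e0 ?_, hw1e]
  rw [hw1e, w.ord_mul he0 ht0]
  have := hmu w hw
  omega

/-- **Weak approximation**: prescribed orders at finitely many places. -/
theorem exists_ord_eq (S : Finset (Place K F)) (n : Place K F → ℤ) :
    ∃ f : F, f ≠ 0 ∧ ∀ v ∈ S, v.ord f = n v := by
  classical
  induction S using Finset.induction_on with
  | empty => exact ⟨1, one_ne_zero, by simp⟩
  | insert v S hvS ih =>
    obtain ⟨g, hg0, hg⟩ := ih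
    obtain ⟨t, ht0, htv, htS⟩ := exists_ord_one_zero v S hvS
    have htz : t ^ (n v - v.ord g) ≠ 0 := zpow_ne_zero _ ht0
    refine ⟨g * t ^ (n v - v.ord g), mul_ne_zero hg0 htz, ?_⟩
    intro u hu
    rw [u.ord_mul hg0 htz, u.ord_zpow]
    rcases Finset.mem_insert.mp hu with rfl | huS
    · rw [htv]; ring
    · rw [htS u huS, hg u huS]; ring

/-- A uniformiser at `v` that is a unit at the other places of `S`. -/
theorem exists_ord_eq_one_of_mem (S : Finset (Place K F)) {v : Place K F} (hv : v ∈ S) :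
    ∃ f : F, f ≠ 0 ∧ v.ord f = 1 ∧ ∀ w ∈ S, w ≠ v → w.ord f = 0 := by
  classical
  obtain ⟨f, hf0, hf⟩ := exists_ord_eq S (fun w => if w = v then 1 else 0)
  refine ⟨f, hf0, ?_, ?_⟩
  · rw [hf v hv, if_pos rfl]
  · intro w hw hwv
    rw [hf w hw, if_neg hwv]

end Fermat.Agent.ES.HECKE.WeakApprox25
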