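/-
Program I (S37) / chapter ES/HECKE / helper19.

`BaseChange19` (H5)-abstract: functoriality and base change for divisors of function fields, in the
Prelude's `Place` / `Divisor` API.

Instance form (`[Algebra F F₁]` etc.):
* `restrict_restrict`            : restriction of places is functorial in towers;
* `ramificationIndex_tower`      : `e(w|F) = e(w|F₁) · e(w|F₁ | F)`;
* `pullback_pullback`            : `pullback` is functorial in towers;
* `pullback_pushforward_eq`      : **base change**. For a commutative square of finite extensions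
  `F ⊆ F₁`, `F ⊆ G`, `G ⊆ G₁`, `F₁ ⊆ G₁` with norm formulas for `F₁/F`, `G₁/G` and compatible norms,
  `π^* ∘ a_* = a'_* ∘ π'^* : Div F₁ → Div G`.
-/
import Mathlib
import Fermat.Prelude.Def_AlgebraicCurve_Correspondence
import Fermat.Agent.ES.HECKE.WeakApprox25

set_option autoImplicit false
set_option linter.style.haveILetI false
set_option linter.unusedSectionVars false

open AlgebraicCurve

noncomputable section

namespace Fermat.Agent.ES.HECKE.BaseChange19

open Fermat.Agent.ES.HECKE

/-! ### towers -/

section Tower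

variable {K F F₁ G₁ : Type*} [Field K] [Field F] [Field F₁] [Field G₁]
  [Algebra K F] [Algebra K F₁] [Algebra K G₁]
  [Algebra F F₁] [Algebra F₁ G₁] [Algebra F G₁]
  [IsScalarTower K F F₁] [IsScalarTower K F₁ G₁] [IsScalarTower K F G₁]
  [IsScalarTower F F₁ G₁]
  [Algebra.IsIntegral F F₁] [Algebra.IsIntegral F₁ G₁] [Algebra.IsIntegral F G₁]

/-- Restriction of places is functorial. -/
theorem restrict_restrict (w : Place K G₁) : (w.restrict F₁).restrict F = w.restrict F := by
  apply Place.ext
  ext f
  show algebraMap F₁ G₁ (algebraMap F F₁ f) ∈ w.toValuationSubring ↔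
    algebraMap F G₁ f ∈ w.toValuationSubring
  rw [← IsScalarTower.algebraMap_apply]

/-- Multiplicativity of the ramification index in towers. -/
theorem ramificationIndex_tower (w : Place K G₁) :
    w.ramificationIndex F = w.ramificationIndex F₁ * (w.restrict F₁).ramificationIndex F := by
  obtain ⟨f, hf0, hf⟩ := WeakApprox25.exists_ord_eq_one_of_mem {w.restrict F}
    (Finset.mem_singleton_self _)
  have h1 := w.ord_restrict (F := F) f
  have h2 := w.ord_restrict (F := F₁) (algebraMap F F₁ f)
  have h3 := (w.restrict F₁).ord_restrict (F := F) f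
  rw [restrict_restrict] at h3
  rw [hf.1, mul_one] at h1 h3
  rw [h3, ← IsScalarTower.algebraMap_apply, h1] at h2
  exact_mod_cast h2

variable [HasPrincipalDivisors K F₁] [HasPrincipalDivisors K G₁]

/-- `pullback` is functorial in towers. -/
theorem pullback_pullback (D : Divisor K F) :
    Divisor.pullback G₁ (Divisor.pullback F₁ D) = Divisor.pullback G₁ D := by
  ext w
  rw [Divisor.pullback_apply, Divisor.pullback_apply, Divisor.pullback_apply,
    restrict_restrict, ramificationIndex_tower (F := F) (F₁ := F₁) w]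
  push_cast
  ring

end Tower

/-! ### an additive functional vanishing on the singles of the support vanishes -/

theorem addHom_eq_zero_of_support {α : Type*} (Φ : (α →₀ ℤ) →+ ℤ) (D : α →₀ ℤ)
    (h : ∀ a ∈ D.support, ∀ n : ℤ, Φ (Finsupp.single a n) = 0) : Φ D = 0 := by
  classical
  conv_lhs => rw [← Finsupp.sum_single D]
  rw [Finsupp.sum, map_sum]
  exact Finset.sum_eq_zero fun a ha => h a ha _

/-! ### the base-change square -/

section Square

variable {K F F₁ G G₁ : Type*} [Field K] [Field F] [Field F₁] [Field G] [Field G₁]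
  [Algebra K F] [Algebra K F₁] [Algebra K G] [Algebra K G₁]
  [Algebra F F₁] [Algebra F G] [Algebra G G₁] [Algebra F₁ G₁] [Algebra F G₁]
  [IsScalarTower K F F₁] [IsScalarTower K F G] [IsScalarTower K G G₁] [IsScalarTower K F₁ G₁]
  [IsScalarTower K F G₁] [IsScalarTower F F₁ G₁] [IsScalarTower F G G₁]
  [Algebra.IsIntegral F F₁] [Algebra.IsIntegral F G] [Algebra.IsIntegral G G₁]
  [Algebra.IsIntegral F₁ G₁] [Algebra.IsIntegral F G₁]
  [HasPrincipalDivisors K F₁] [HasPrincipalDivisors K G] [HasPrincipalDivisors K G₁]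

/-- The left side `π^* ∘ a_*` of the base-change identity. -/
def lhsHom : Divisor K F₁ →+ Divisor K G :=
  (Divisor.pullback G).comp (Divisor.pushforward F)

/-- The right side `a'_* ∘ π'^*` of the base-change identity. -/
def rhsHom : Divisor K F₁ →+ Divisor K G :=
  (Divisor.pushforward G).comp (Divisor.pullback G₁)

theorem lhsHom_apply (D : Divisor K F₁) :
    lhsHom (F := F) (G := G) D = Divisor.pullback G (Divisor.pushforward F D) := rfl

theorem rhsHom_apply (D : Divisor K F₁) :
    rhsHom (G := G) (G₁ := G₁) D = Divisor.pushforward G (Divisor.pullback G₁ D) := rfl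

/-- Support of the left side. -/
theorem lhsHom_single_apply_of_ne (Q : Place K F₁) (n : ℤ) (P' : Place K G)
    (h : P'.restrict F ≠ Q.restrict F) :
    lhsHom (F := F) (G := G) (Finsupp.single Q n) P' = 0 := by
  rw [lhsHom_apply, Divisor.pushforward_single]
  exact Divisor.pullback_single_apply_of_restrict_ne h _

/-- Support of the right side. -/
theorem rhsHom_single_apply_of_ne (Q : Place K F₁) (n : ℤ) (P' : Place K G)
    (h : P'.restrict F ≠ Q.restrict F) :
    rhsHom (G := G) (G₁ := G₁) (Finsupp.single Q n) P' = 0 := by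
  classical
  rw [rhsHom_apply, Divisor.pullback_single, map_sum, Finset.sum_apply']
  refine Finset.sum_eq_zero fun w hw => ?_
  rw [Divisor.pushforward_single]
  apply Finsupp.single_eq_of_ne
  intro hP'
  apply h
  rw [hP', ← Place.mem_fiber.mp hw]
  rw [restrict_restrict (F := F) (F₁ := G) w, restrict_restrict (F := F) (F₁ := F₁) w]

variable [Module.Finite F F₁] [Module.Finite G G₁]

/-- The two sides agree on principal divisors. -/
theorem lhsHom_eq_rhsHom_of_principal
    (H : Divisor.PushforwardNormFormula K F F₁) (H' : Divisor.PushforwardNormFormula K G G₁)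
    (hnorm : ∀ f : F₁, Algebra.norm G (algebraMap F₁ G₁ f) = algebraMap F G (Algebra.norm F f))
    {f : F₁} (hf : f ≠ 0) {D : Divisor K F₁} (hD : ∀ w, D w = w.ord f) :
    lhsHom (F := F) (G := G) D = rhsHom (G := G) (G₁ := G₁) D := by
  ext P'
  rw [lhsHom_apply, rhsHom_apply, Divisor.pullback_apply, H f hf D hD, ← Place.ord_restrict]
  have hf1 : algebraMap F₁ G₁ f ≠ 0 := by simpa using hf
  rw [H' (algebraMap F₁ G₁ f) hf1 (Divisor.pullback G₁ D)
    (fun w => Divisor.pullback_apply_eq_ord hD w) P', hnorm]

/-- **Base change**: `π^* ∘ a_* = a'_* ∘ π'^*` on `Div F₁`. -/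
theorem lhsHom_eq_rhsHom
    (H : Divisor.PushforwardNormFormula K F F₁) (H' : Divisor.PushforwardNormFormula K G G₁)
    (hnorm : ∀ f : F₁, Algebra.norm G (algebraMap F₁ G₁ f) = algebraMap F G (Algebra.norm F f)) :
    lhsHom (F := F) (G := G) (F₁ := F₁) (K := K) = rhsHom (G := G) (G₁ := G₁) := by
  classical
  -- reduce to `single Q 1`
  have key : ∀ Q : Place K F₁, lhsHom (F := F) (G := G) (Finsupp.single Q 1) =
      rhsHom (G := G) (G₁ := G₁) (Finsupp.single Q 1) := by
    intro Q
    set P := Q.restrict F with hP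
    obtain ⟨f, hf0, hfQ, hfS⟩ := WeakApprox25.exists_ord_eq_one_of_mem (P.fiber F₁)
      (Place.mem_fiber.mpr rfl : Q ∈ P.fiber F₁)
    obtain ⟨D, hD, -⟩ := HasPrincipalDivisors.exists_divisor (K := K) f hf0
    have hprin := lhsHom_eq_rhsHom_of_principal H H' hnorm hf0 hD
    set D' : Divisor K F₁ := D - Finsupp.single Q 1 with hD'
    have hDsplit : D = Finsupp.single Q 1 + D' := by rw [hD']; abel
    -- `D'` vanishes on the fibre of `P`
    have hD'S : ∀ w : Place K F₁, w.restrict F = P → D' w = 0 := by
      intro w hw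
      rw [hD', Finsupp.sub_apply, hD]
      by_cases hwQ : w = Q
      · rw [hwQ, hfQ, Finsupp.single_eq_same, sub_self]
      · rw [hfS w (Place.mem_fiber.mpr hw) hwQ, Finsupp.single_eq_of_ne hwQ, sub_self]
    ext P'
    by_cases hP' : P'.restrict F = P
    · -- over `P`: compare through `D`
      have h1 : lhsHom (F := F) (G := G) D' P' = 0 := by
        refine addHom_eq_zero_of_support
          ((Finsupp.applyAddHom P').comp (lhsHom (F := F) (G := G))) D' ?_
        intro w hw n
        refine lhsHom_single_apply_of_ne w n P' ?_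
        intro h
        rw [Finsupp.mem_support_iff] at hw
        exact hw (hD'S w (by rw [← h, hP']))
      have h2 : rhsHom (G := G) (G₁ := G₁) D' P' = 0 := by
        refine addHom_eq_zero_of_support
          ((Finsupp.applyAddHom P').comp (rhsHom (G := G) (G₁ := G₁))) D' ?_
        intro w hw n
        refine rhsHom_single_apply_of_ne (F := F) w n P' ?_
        intro h
        rw [Finsupp.mem_support_iff] at hw
        exact hw (hD'S w (by rw [← h, hP']))
      have h3 := congrArg (fun E : Divisor K G => E P') hprin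
      simp only [hDsplit, map_add, Finsupp.add_apply, h1, h2, add_zero] at h3
      exact h3
    · rw [lhsHom_single_apply_of_ne Q 1 P' hP', rhsHom_single_apply_of_ne (F := F) Q 1 P' hP']
  apply Finsupp.addHom_ext
  intro Q n
  have hn : (Finsupp.single Q n : Divisor K F₁) = n • Finsupp.single Q 1 := by
    rw [Finsupp.smul_single, smul_eq_mul, mul_one]
  rw [hn, map_zsmul, map_zsmul, key Q]

end Square

/-! ### `Along` forms -/

section Along

variable {K F F₁ G G₁ : Type*} [Field K] [Field F] [Field F₁] [Field G] [Field G₁]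
  [Algebra K F] [Algebra K F₁] [Algebra K G] [Algebra K G₁]

/-- The norm along an embedding. -/
def normAlong (φ : F →ₐ[K] F₁) (f : F₁) : F :=
  letI := algebraAlong φ
  Algebra.norm F f

/-- A composite of integral embeddings is integral. -/
theorem isIntegral_comp (φ : F →ₐ[K] F₁) (ψ : F₁ →ₐ[K] G₁) (hφ : φ.toRingHom.IsIntegral)
    (hψ : ψ.toRingHom.IsIntegral) : (ψ.comp φ).toRingHom.IsIntegral :=
  RingHom.IsIntegral.trans _ _ hφ hψ

/-- Functoriality of `pullbackAlong`. -/
theorem pullbackAlong_comp [HasPrincipalDivisors K F₁] [HasPrincipalDivisors K G₁]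
    (φ : F →ₐ[K] F₁) (ψ : F₁ →ₐ[K] G₁) (hφ : φ.toRingHom.IsIntegral)
    (hψ : ψ.toRingHom.IsIntegral) (hψφ : (ψ.comp φ).toRingHom.IsIntegral) (D : Divisor K F) :
    Divisor.pullbackAlong (ψ.comp φ) hψφ D =
      Divisor.pullbackAlong ψ hψ (Divisor.pullbackAlong φ hφ D) := by
  letI := algebraAlong φ
  letI := algebraAlong ψ
  letI := algebraAlong (ψ.comp φ)
  haveI := isScalarTower_along φ
  haveI := isScalarTower_along ψ
  haveI := isScalarTower_along (ψ.comp φ)
  haveI := isIntegral_along φ hφ
  haveI := isIntegral_along ψ hψ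
  haveI := isIntegral_along (ψ.comp φ) hψφ
  haveI : IsScalarTower F F₁ G₁ := IsScalarTower.of_algebraMap_eq (fun _ => rfl)
  exact (pullback_pullback (F := F) (F₁ := F₁) (G₁ := G₁) D).symm

/-- **Base change, `Along` form.** -/
theorem pullbackAlong_pushforwardAlong
    [HasPrincipalDivisors K F₁] [HasPrincipalDivisors K G] [HasPrincipalDivisors K G₁]
    (a : F →ₐ[K] F₁) (p : F →ₐ[K] G) (a' : G →ₐ[K] G₁) (p' : F₁ →ₐ[K] G₁)
    (hcomm : a'.comp p = p'.comp a)
    (ha : a.toRingHom.IsIntegral) (hp : p.toRingHom.IsIntegral)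
    (ha' : a'.toRingHom.IsIntegral) (hp' : p'.toRingHom.IsIntegral)
    (hfin : FiniteAlong K a) (hfin' : FiniteAlong K a')
    (hN : NormFormulaAlong K a hfin) (hN' : NormFormulaAlong K a' hfin')
    (hnorm : ∀ f : F₁, normAlong a' (p' f) = p (normAlong a f)) (D : Divisor K F₁) :
    Divisor.pullbackAlong p hp (Divisor.pushforwardAlong a ha D) =
      Divisor.pushforwardAlong a' ha' (Divisor.pullbackAlong p' hp' D) := by
  letI := algebraAlong a
  letI := algebraAlong p
  letI := algebraAlong a'
  letI := algebraAlong p'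
  letI : Algebra F G₁ := algebraAlong (a'.comp p)
  haveI := isScalarTower_along a
  haveI := isScalarTower_along p
  haveI := isScalarTower_along a'
  haveI := isScalarTower_along p'
  haveI : IsScalarTower K F G₁ := isScalarTower_along (a'.comp p)
  haveI := isIntegral_along a ha
  haveI := isIntegral_along p hp
  haveI := isIntegral_along a' ha'
  haveI := isIntegral_along p' hp'
  haveI : Algebra.IsIntegral F G₁ := isIntegral_along (a'.comp p) (isIntegral_comp p a' hp ha')
  haveI : IsScalarTower F G G₁ := IsScalarTower.of_algebraMap_eq (fun _ => rfl)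
  haveI : IsScalarTower F F₁ G₁ := IsScalarTower.of_algebraMap_eq (fun x => by
    show (a'.comp p) x = p' (a x)
    rw [hcomm]; rfl)
  haveI : Module.Finite F F₁ := hfin
  haveI : Module.Finite G G₁ := hfin'
  have h := lhsHom_eq_rhsHom (K := K) (F := F) (F₁ := F₁) (G := G) (G₁ := G₁) hN hN' hnorm
  exact congrArg (fun Φ : Divisor K F₁ →+ Divisor K G => Φ D) h

/-- **Compatibility of correspondences with a pullback**: for two commutative squares
`a' ∘ p = p' ∘ a`, `b' ∘ p = p' ∘ b`, `p^* ∘ (a_* b^*) = (a'_* b'^*) ∘ p^*` on divisors. -/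
theorem pullbackAlong_correspondence
    [HasPrincipalDivisors K F₁] [HasPrincipalDivisors K G] [HasPrincipalDivisors K G₁]
    (a b : F →ₐ[K] F₁) (p : F →ₐ[K] G) (a' b' : G →ₐ[K] G₁) (p' : F₁ →ₐ[K] G₁)
    (hcomma : a'.comp p = p'.comp a) (hcommb : b'.comp p = p'.comp b)
    (ha : a.toRingHom.IsIntegral) (hb : b.toRingHom.IsIntegral) (hp : p.toRingHom.IsIntegral)
    (ha' : a'.toRingHom.IsIntegral) (hb' : b'.toRingHom.IsIntegral)
    (hp' : p'.toRingHom.IsIntegral)
    (hfin : FiniteAlong K a) (hfin' : FiniteAlong K a')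
    (hN : NormFormulaAlong K a hfin) (hN' : NormFormulaAlong K a' hfin')
    (hnorm : ∀ f : F₁, normAlong a' (p' f) = p (normAlong a f)) (D : Divisor K F) :
    Divisor.pullbackAlong p hp (Divisor.correspondence b a hb ha D) =
      Divisor.correspondence b' a' hb' ha' (Divisor.pullbackAlong p hp D) := by
  rw [Divisor.correspondence_apply, Divisor.correspondence_apply,
    pullbackAlong_pushforwardAlong a p a' p' hcomma ha hp ha' hp' hfin hfin' hN hN' hnorm,
    ← pullbackAlong_comp b p' hb hp' (isIntegral_comp b p' hb hp'),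
    ← pullbackAlong_comp p b' hp hb' (isIntegral_comp p b' hp hb')]
  congr 1
  have key : ∀ (φ ψ : F →ₐ[K] G₁) (h : φ = ψ) (hφ : φ.toRingHom.IsIntegral)
      (hψ : ψ.toRingHom.IsIntegral), Divisor.pullbackAlong φ hφ D = Divisor.pullbackAlong ψ hψ D := by
    intro φ ψ h hφ hψ
    subst h
    rfl
  exact key _ _ hcommb.symm _ _

end Along

end Fermat.Agent.ES.HECKE.BaseChange19
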