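/-
Program I (S37), chapter ES/HECKE (helper18): characteristic polynomials of multiplication maps
under reduction.  Pure commutative algebra (Mathlib + `PiDiscr16.det_blockDiagonal'`).

* `charpoly_lmul_pi`       : on a finite product of finite free algebras the characteristic
  polynomial of a multiplication is the product of the characteristic polynomials;
* `charpoly_lmul_of_isNilpotent_sub` : if `y - c` is nilpotent then `charpoly (y·) = (X - c)^dim`;
* `charpoly_lmul_algEquiv` : transport along an algebra isomorphism;
* `charpoly_lmul_quotient_mk` : reduction modulo the maximal ideal of a local ring.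
-/
import Mathlib
import Fermat.Agent.RED.CUSP.PiDiscr16

set_option autoImplicit false
set_option linter.style.haveILetI false
set_option linter.unusedSectionVars false

namespace Fermat.Agent.ES.HECKE.CharpolyRed18

open Polynomial Matrix

section Pi

variable {R : Type*} [CommRing R] {C : Type*} [Fintype C] [DecidableEq C]
  {ι : C → Type*} [∀ κ, Fintype (ι κ)] [∀ κ, DecidableEq (ι κ)]
  {T : C → Type*} [∀ κ, CommRing (T κ)] [∀ κ, Algebra R (T κ)]

/-- The matrix of a multiplication on a product, in the product basis, is block diagonal. -/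
theorem leftMulMatrix_pi (B : ∀ κ, Module.Basis (ι κ) R (T κ)) (x : ∀ κ, T κ) :
    Algebra.leftMulMatrix (Pi.basis B) x =
      Matrix.blockDiagonal' fun κ => Algebra.leftMulMatrix (B κ) (x κ) := by
  ext ⟨κ, i⟩ ⟨κ', j⟩
  rw [Algebra.leftMulMatrix_eq_repr_mul, Pi.basis_repr, Pi.basis_apply, Pi.mul_apply]
  by_cases h : κ = κ'
  · subst h
    rw [Matrix.blockDiagonal'_apply_eq, Algebra.leftMulMatrix_eq_repr_mul]
    simp
  · rw [Matrix.blockDiagonal'_apply_ne _ _ _ h]
    have : (Pi.single κ' (B κ' j) : ∀ κ, T κ) κ = 0 := Pi.single_eq_of_ne h _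
    simp [this]

/-- Characteristic polynomial of a dependent block diagonal matrix. -/
theorem charpoly_blockDiagonal' (d : ∀ κ, Matrix (ι κ) (ι κ) R) :
    (Matrix.blockDiagonal' d).charpoly = ∏ κ, (d κ).charpoly := by
  have h : (Matrix.blockDiagonal' d).charmatrix =
      Matrix.blockDiagonal' fun κ => (d κ).charmatrix := by
    ext ⟨κ, i⟩ ⟨κ', j⟩
    by_cases h : κ = κ'
    · subst h
      rw [Matrix.blockDiagonal'_apply_eq]
      by_cases hij : i = j
      · subst hij
        simp
      · have hne : (⟨κ, i⟩ : Σ κ, ι κ) ≠ ⟨κ, j⟩ := fun h' => hij (by cases h'; rfl)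
        simp [hij, hne]
    · rw [Matrix.blockDiagonal'_apply_ne _ _ _ h]
      have hne : (⟨κ, i⟩ : Σ κ, ι κ) ≠ ⟨κ', j⟩ := fun h' => h (by cases h'; rfl)
      simp [hne, Matrix.blockDiagonal'_apply_ne _ _ _ h]
  unfold Matrix.charpoly
  rw [h, Fermat.Agent.RED.CUSP.PiDiscr16.det_blockDiagonal']

/-- The characteristic polynomial of a multiplication on a finite product of finite free
algebras. -/
theorem charpoly_lmul_pi [∀ κ, Module.Free R (T κ)] [∀ κ, Module.Finite R (T κ)]
    (x : ∀ κ, T κ) :
    (Algebra.lmul R (∀ κ, T κ) x).charpoly = ∏ κ, (Algebra.lmul R (T κ) (x κ)).charpoly := by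
  classical
  let B : ∀ κ, Module.Basis (Module.Free.ChooseBasisIndex R (T κ)) R (T κ) :=
    fun κ => Module.Free.chooseBasis R (T κ)
  rw [← LinearMap.charpoly_toMatrix _ (Pi.basis B)]
  have h1 : LinearMap.toMatrix (Pi.basis B) (Pi.basis B) (Algebra.lmul R (∀ κ, T κ) x) =
      Algebra.leftMulMatrix (Pi.basis B) x := rfl
  rw [h1, leftMulMatrix_pi, charpoly_blockDiagonal']
  refine Finset.prod_congr rfl fun κ _ => ?_
  rw [← LinearMap.charpoly_toMatrix _ (B κ)]
  rfl

end Pi

section Unipotent

variable {k V : Type*} [Field k] [CommRing V] [Algebra k V] [Module.Finite k V]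

/-- If `y - c` is nilpotent then multiplication by `y` has characteristic polynomial
`(X - c) ^ dim`. -/
theorem charpoly_lmul_of_isNilpotent_sub (y : V) (c : k)
    (h : IsNilpotent (y - algebraMap k V c)) :
    (Algebra.lmul k V y).charpoly = (X - C c) ^ Module.finrank k V := by
  have hnil : IsNilpotent (Algebra.lmul k V y - c • (1 : Module.End k V)) := by
    have h1 : Algebra.lmul k V y - c • (1 : Module.End k V) =
        Algebra.lmul k V (y - algebraMap k V c) := by
      rw [map_sub]
      congr 1
      ext v
      simp [Algebra.smul_def]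
    rw [h1]
    exact h.map (Algebra.lmul k V)
  have h2 := LinearMap.charpoly_sub_smul (Algebra.lmul k V y) c
  rw [IsNilpotent.charpoly_eq_X_pow_finrank hnil] at h2
  have h3 : ((Algebra.lmul k V y).charpoly.comp (X + C c)).comp (X - C c) =
      (Algebra.lmul k V y).charpoly := by
    rw [Polynomial.comp_assoc]
    simp
  rw [← h3, ← h2]
  simp

end Unipotent

section Transport

variable {k V W : Type*} [CommRing k] [CommRing V] [CommRing W] [Algebra k V] [Algebra k W]
  [Module.Free k V] [Module.Finite k V] [Module.Free k W] [Module.Finite k W]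

/-- Transport of the characteristic polynomial of a multiplication along a linear equivalence
which is multiplicative. -/
theorem charpoly_lmul_linearEquiv (e : V ≃ₗ[k] W) (hmul : ∀ a b, e (a * b) = e a * e b) (x : V) :
    (Algebra.lmul k W (e x)).charpoly = (Algebra.lmul k V x).charpoly := by
  rw [← LinearEquiv.charpoly_conj e (Algebra.lmul k V x)]
  congr 1
  ext w
  simp [LinearEquiv.conj_apply, hmul]

end Transport

section Local

variable {R S : Type*} [CommRing R] [CommRing S] [Algebra R S] [IsLocalRing R]
  [Module.Free R S] [Module.Finite R S]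

attribute [local instance] Ideal.Quotient.field

omit [Module.Free R S] in
theorem finite_quotient_map :
    Module.Finite (R ⧸ IsLocalRing.maximalIdeal R)
      (S ⧸ Ideal.map (algebraMap R S) (IsLocalRing.maximalIdeal R)) :=
  Module.Finite.of_restrictScalars_finite R _ _

/-- Reduction of the characteristic polynomial of a multiplication modulo the maximal ideal of a
local ring. -/
theorem charpoly_lmul_quotient_mk
    [Module.Finite (R ⧸ IsLocalRing.maximalIdeal R)
      (S ⧸ Ideal.map (algebraMap R S) (IsLocalRing.maximalIdeal R))] (x : S) :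
    (Algebra.lmul (R ⧸ IsLocalRing.maximalIdeal R)
        (S ⧸ Ideal.map (algebraMap R S) (IsLocalRing.maximalIdeal R))
        (Ideal.Quotient.mk _ x)).charpoly =
      ((Algebra.lmul R S x).charpoly).map (Ideal.Quotient.mk (IsLocalRing.maximalIdeal R)) := by
  classical
  let b : Module.Basis (Module.Free.ChooseBasisIndex R S) R S := Module.Free.chooseBasis R S
  rw [← LinearMap.charpoly_toMatrix _ b, ← LinearMap.charpoly_toMatrix _ (IsLocalRing.basisQuotient b),
    ← Matrix.charpoly_map]
  congr 1
  ext i j
  simp only [LinearMap.toMatrix_apply, Algebra.coe_lmul_eq_mul, LinearMap.mul_apply',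
    IsLocalRing.basisQuotient_apply, Matrix.map_apply, ← map_mul, IsLocalRing.basisQuotient_repr]

end Local

section Localization

variable (R : Type*) {S : Type*} [CommRing R] [CommRing S] [Algebra R S]
variable {Rₘ Sₘ : Type*} [CommRing Rₘ] [Algebra R Rₘ] [CommRing Sₘ] [Algebra S Sₘ]
variable (M : Submonoid R)
variable [IsLocalization M Rₘ] [IsLocalization (Algebra.algebraMapSubmonoid S M) Sₘ]
variable [Algebra Rₘ Sₘ] [Algebra R Sₘ] [IsScalarTower R Rₘ Sₘ] [IsScalarTower R S Sₘ]

include M in
/-- The characteristic polynomial of a multiplication is compatible with localisation. -/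
theorem charpoly_lmul_localization [Module.Free R S] [Module.Finite R S]
    [Module.Free Rₘ Sₘ] [Module.Finite Rₘ Sₘ] (a : S) :
    (Algebra.lmul Rₘ Sₘ (algebraMap S Sₘ a)).charpoly =
      ((Algebra.lmul R S a).charpoly).map (algebraMap R Rₘ) := by
  classical
  let b : Module.Basis (Module.Free.ChooseBasisIndex R S) R S := Module.Free.chooseBasis R S
  rw [← LinearMap.charpoly_toMatrix _ b,
    ← LinearMap.charpoly_toMatrix _ (b.localizationLocalization Rₘ M Sₘ), ← Matrix.charpoly_map]
  congr 1
  exact (Algebra.map_leftMulMatrix_localization R M b a).symm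

end Localization

section Dedekind

open Ideal UniqueFactorizationMonoid IsLocalRing

variable {R S : Type*} [CommRing R] [CommRing S] [Algebra R S] [IsLocalRing R]
  [IsDedekindDomain S] [Module.Free R S] [Module.Finite R S]

attribute [local instance] Ideal.Quotient.field

set_option linter.deprecated false in
/-- **Reduction of the characteristic polynomial** for a finite free Dedekind extension `S` of a
local ring `R` with maximal ideal `p`: if `g ≡ r P` modulo each prime `P` of `S` over `p`, then
`charpoly (g·) mod p = ∏_P (X - r P) ^ (e_P * f_P)`. -/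
theorem charpoly_lmul_map_eq_prod (hp : map (algebraMap R S) (maximalIdeal R) ≠ ⊥) (g : S)
    (r : (factors (map (algebraMap R S) (maximalIdeal R))).toFinset → R)
    (hr : ∀ P : (factors (map (algebraMap R S) (maximalIdeal R))).toFinset,
      g - algebraMap R S (r P) ∈ (P : Ideal S)) :
    ((Algebra.lmul R S g).charpoly).map (Ideal.Quotient.mk (maximalIdeal R)) =
      ∏ P : (factors (map (algebraMap R S) (maximalIdeal R))).toFinset,
        (X - C (Ideal.Quotient.mk (maximalIdeal R) (r P))) ^
          (ramificationIdx' (maximalIdeal R) (P : Ideal S) *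
            inertiaDeg' (maximalIdeal R) (P : Ideal S)) := by
  haveI := finite_quotient_map (R := R) (S := S)
  rw [← charpoly_lmul_quotient_mk]
  have hmul : ∀ a b, Factors.piQuotientLinearEquiv S (maximalIdeal R) hp (a * b) =
      Factors.piQuotientLinearEquiv S (maximalIdeal R) hp a *
        Factors.piQuotientLinearEquiv S (maximalIdeal R) hp b :=
    fun a b => map_mul (Factors.piQuotientEquiv (maximalIdeal R) hp) a b
  rw [← charpoly_lmul_linearEquiv (Factors.piQuotientLinearEquiv S (maximalIdeal R) hp) hmul,
    charpoly_lmul_pi]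
  refine Finset.prod_congr rfl fun P _ => ?_
  have hval : Factors.piQuotientLinearEquiv S (maximalIdeal R) hp
      (Ideal.Quotient.mk _ g) P = Ideal.Quotient.mk _ g := rfl
  rw [hval, charpoly_lmul_of_isNilpotent_sub _ (Ideal.Quotient.mk (maximalIdeal R) (r P)),
    Factors.finrank_pow_ramificationIdx]
  refine ⟨ramificationIdx' (maximalIdeal R) (P : Ideal S), ?_⟩
  rw [Quotient.algebraMap_quotient_pow_ramificationIdx, ← map_sub, ← map_pow,
    Ideal.Quotient.eq_zero_iff_mem]
  exact Ideal.pow_mem_pow (hr P) _

end Dedekind

end Fermat.Agent.ES.HECKE.CharpolyRed18
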