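/-
Program I (S37) / chapter ES/HECKE / helper19.

`LevelCompat19` (H5): compatibility of the Hecke correspondence `T_ℓ = α_* β^*` with the level
pullback `π^* : J₀(N) → J₀(M)` (`N ∣ M`, `ℓ` prime, `ℓ ∤ M`).

* `natDegree_minpoly_jl` : `j(q^ℓ)` has degree `ℓ + 1` over `Fbar M` inside `Fbar (M ℓ)` (ramification at
  the cusp `0`: `FrickeExp19` + `RamDeg25`; upper bound `AlongDegree25`);
* `norm_compat`          : norms along `α_N` and `α_M` are compatible with the level inclusions;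
* `levelCompat_div`      : `π^* ∘ (α_N)_* (β_N)^* = (α_M)_* (β_M)^* ∘ π^*` on divisors.
-/
import Mathlib
import Fermat.Prelude.Def_ModularCurve_HeckeOperatorTotal
import Fermat.Agent.ES.HECKE.BaseChange19
import Fermat.Agent.ES.HECKE.AlongDegree25
import Fermat.Agent.ES.HECKE.InputsMain19
import Fermat.Agent.RED.LVL.FrickeExp19
import Fermat.Agent.IG.PR.RamDeg25
import Fermat.Agent.RED.LVL.LevelDegree17
import Fermat.Agent.RED.TOP.FbarFacts20
import Fermat.Agent.X0.FracR

set_option autoImplicit false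
set_option linter.style.haveILetI false
set_option linter.unusedSectionVars false

open AlgebraicCurve ModularCurve

noncomputable section

namespace Fermat.Agent.ES.HECKE.LevelCompat19

open Fermat.Agent.X0 Fermat.Agent.ES.HECKE Fermat.Agent.RED.LVL Fermat.Agent.RED.TOP
open Fermat.Agent.ES.HECKE.InputsMain19 (Qb)

variable (M ℓ : ℕ) [NeZero M] [NeZero ℓ]

/-- `j(q^ℓ)` as an element of `Fbar (M ℓ)`. -/
def jl : FF (M * ℓ) := jdF (M * ℓ) ℓ (dvd_mul_left ℓ M)

/-- **`[Fbar M (j_ℓ) : Fbar M] = ℓ + 1`**. -/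
theorem natDegree_minpoly_jl (hℓ : ℓ.Prime) (hℓM : ¬ ℓ ∣ M) :
    letI := algebraAlong (heckeAlphaBar Qb M ℓ)
    (minpoly (FF M) (jl M ℓ)).natDegree = ℓ + 1 := by
  letI := algebraAlong (heckeAlphaBar Qb M ℓ)
  haveI : Module.Finite (FF M) (FF (M * ℓ)) := AlongDegree25.finiteAlong_alpha Qb M ℓ hℓ hℓM
  have hfr : Module.finrank (FF M) (FF (M * ℓ)) = ℓ + 1 :=
    AlongDegree25.finrankAlong_alpha Qb M ℓ hℓ hℓM
  have hint : IsIntegral (FF M) (jl M ℓ) := Algebra.IsIntegral.isIntegral _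
  -- upper bound
  have hdvd : (minpoly (FF M) (jl M ℓ)).natDegree ∣ ℓ + 1 := by
    rw [← hfr]
    exact minpoly.degree_dvd hint
  -- lower bound through the cusp `0`
  let T : FF (M * ℓ) →+* LaurentSeries Kbar := (cuspData (M * ℓ)).T ModularGroup.S
  letI : Algebra (FF M) (LaurentSeries Kbar) :=
    (T.comp (algebraMap (FF M) (FF (M * ℓ)))).toAlgebra
  let T' : FF (M * ℓ) →ₐ[FF M] LaurentSeries Kbar := { T with commutes' := fun _ => rfl }
  have hTx : T' (jl M ℓ) = qExpand Kbar M jqK :=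
    FrickeExp19.T_S_jdF (M * ℓ) ℓ M (mul_comm M ℓ)
  have hmin : minpoly (FF M) (T' (jl M ℓ)) = minpoly (FF M) (jl M ℓ) :=
    minpoly.algHom_eq T' T.injective _
  have hy0 : T' (jl M ℓ) ≠ 0 := by
    rw [hTx]
    intro h0
    have h1 := order_qExpand_jqK M
    rw [h0, HahnSeries.order_zero] at h1
    have hM0 : (M : ℤ) ≠ 0 := by exact_mod_cast NeZero.ne M
    omega
  have hcop : IsCoprime (T' (jl M ℓ)).order (ℓ : ℤ) := by
    rw [hTx, order_qExpand_jqK]
    have h1 : IsCoprime (M : ℤ) (ℓ : ℤ) := by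
      rw [Int.isCoprime_iff_gcd_eq_one, Int.gcd_natCast_natCast]
      exact ((Nat.Prime.coprime_iff_not_dvd hℓ).2 hℓM).symm
    exact h1.neg_left
  have hF : ∀ a : FF M, algebraMap (FF M) (LaurentSeries Kbar) a ∈
      Set.range (qExpand Kbar ℓ) := fun a => FrickeExp19.T_S_mem_range M (M * ℓ) ℓ rfl a
  have hge := Fermat.Agent.IG.PR.RamDeg25.le_natDegree_minpoly (F := FF M) (p := ℓ) hy0 hcop hF
    ((isIntegral_algHom_iff T' T.injective).mpr hint)
  rw [hmin] at hge
  -- `d ∣ ℓ + 1`, `d ≥ ℓ ≥ 2` ⇒ `d = ℓ + 1`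
  obtain ⟨c, hc⟩ := hdvd
  have h2 : 2 ≤ ℓ := hℓ.two_le
  rcases Nat.lt_or_ge c 2 with hc2 | hc2
  · interval_cases c
    · omega
    · omega
  · nlinarith

/-! ### norm compatibility from a common basis -/

section NormCompat

variable {F F₁ G G₁ : Type*} [Field F] [Field F₁] [Field G] [Field G₁]
  [Algebra F F₁] [Algebra G G₁] (p : F →+* G) (p' : F₁ →+* G₁)

/-- If a basis of `F₁ / F` is mapped to a basis of `G₁ / G` by a morphism of extensions, norms
commute with the morphism. -/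
theorem norm_map_of_basis (hsq : ∀ c : F, p' (algebraMap F F₁ c) = algebraMap G G₁ (p c))
    {ι : Type*} [Fintype ι] [DecidableEq ι] (b : Module.Basis ι F F₁) (b' : Module.Basis ι G G₁)
    (hb : ∀ i, b' i = p' (b i)) (f : F₁) :
    Algebra.norm G (p' f) = p (Algebra.norm F f) := by
  rw [Algebra.norm_eq_matrix_det b', Algebra.norm_eq_matrix_det b, RingHom.map_det]
  congr 1
  ext i j
  rw [RingHom.mapMatrix_apply, Matrix.map_apply, Algebra.leftMulMatrix_eq_repr_mul,
    Algebra.leftMulMatrix_eq_repr_mul]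
  have h : p' f * b' j = ∑ k, p (b.repr (f * b j) k) • b' k := by
    rw [hb j, ← map_mul]
    conv_lhs => rw [← b.sum_repr (f * b j)]
    rw [map_sum]
    refine Finset.sum_congr rfl fun k _ => ?_
    rw [Algebra.smul_def, map_mul, hsq, hb k, Algebra.smul_def]
  rw [h, b'.repr_sum_self]

/-- Power-basis version: `x` generates `F₁ / F` and its image generates `G₁ / G`, in the same
degree. -/
theorem norm_map_of_natDegree_minpoly
    (hsq : ∀ c : F, p' (algebraMap F F₁ c) = algebraMap G G₁ (p c))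
    (x : F₁) (n : ℕ) (hn0 : n ≠ 0)
    (hn : (minpoly F x).natDegree = n) (hn' : (minpoly G (p' x)).natDegree = n)
    (hfr : Module.finrank F F₁ = n) (hfr' : Module.finrank G G₁ = n) (f : F₁) :
    Algebra.norm G (p' f) = p (Algebra.norm F f) := by
  classical
  haveI : Nonempty (Fin n) := ⟨⟨0, Nat.pos_of_ne_zero hn0⟩⟩
  have hli : LinearIndependent F (fun i : Fin n => x ^ (i : ℕ)) := by
    have h := (linearIndependent_pow (K := F) x).comp (Fin.cast hn.symm) (Fin.cast_injective _)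
    exact h
  have hli' : LinearIndependent G (fun i : Fin n => (p' x) ^ (i : ℕ)) := by
    have h := (linearIndependent_pow (K := G) (p' x)).comp (Fin.cast hn'.symm)
      (Fin.cast_injective _)
    exact h
  let b : Module.Basis (Fin n) F F₁ :=
    basisOfLinearIndependentOfCardEqFinrank hli (by rw [Fintype.card_fin, hfr])
  let b' : Module.Basis (Fin n) G G₁ :=
    basisOfLinearIndependentOfCardEqFinrank hli' (by rw [Fintype.card_fin, hfr'])
  refine norm_map_of_basis p p' hsq b b' (fun i => ?_) f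
  rw [coe_basisOfLinearIndependentOfCardEqFinrank, coe_basisOfLinearIndependentOfCardEqFinrank,
    map_pow]

end NormCompat

/-! ### the level inclusion and the two commutative squares -/

section Level

variable (N M ℓ : ℕ) [NeZero N] [NeZero M] [NeZero ℓ]

/-- The level inclusion `π : Fbar N → Fbar M` for `N ∣ M`. -/
def levelIncl (hNM : N ∣ M) : FF N →ₐ[Qb] FF M :=
  IntermediateField.inclusion (Fermat.Agent.RED.BASE.Interface12.fbar_mono hNM)

@[simp] theorem coe_levelIncl (hNM : N ∣ M) (x : FF N) :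
    ((levelIncl N M hNM x : FF M) : LaurentSeries Kbar) = (x : LaurentSeries Kbar) :=
  IntermediateField.coe_inclusion _ x

/-- `π` is finite. -/
theorem finiteAlong_levelIncl (hNM : N ∣ M) : FiniteAlong Qb (levelIncl N M hNM) :=
  LevelDegree17.finiteDimensional_algebraIncl hNM

theorem isIntegral_levelIncl (hNM : N ∣ M) : (levelIncl N M hNM).toRingHom.IsIntegral :=
  FundIdentity19.isIntegral_of_finiteAlong _ (finiteAlong_levelIncl N M hNM)

/-- The fundamental identity along `π`. -/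
theorem fundamentalIdentityAlong_levelIncl (hNM : N ∣ M) :
    haveI := FbarFacts20.hasPrincipalDivisors_bar M
    FundamentalIdentityAlong Qb (levelIncl N M hNM) (isIntegral_levelIncl N M hNM) := by
  haveI := FbarFacts20.hasPrincipalDivisors_bar M
  exact FundIdentity19.fundamentalIdentityAlong _ _ (finiteAlong_levelIncl N M hNM)
    (FbarFacts20.isGen_j N) (FbarFacts20.isGen_j M)

/-- The `α`-square commutes. -/
theorem alpha_square (hNM : N ∣ M) :
    (heckeAlphaBar Qb M ℓ).comp (levelIncl N M hNM) =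
      (levelIncl (N * ℓ) (M * ℓ) (Nat.mul_dvd_mul_right hNM ℓ)).comp (heckeAlphaBar Qb N ℓ) := by
  apply AlgHom.ext
  intro x
  apply Subtype.ext
  rw [AlgHom.comp_apply, AlgHom.comp_apply, coe_heckeAlphaBar, coe_levelIncl, coe_levelIncl,
    coe_heckeAlphaBar]

/-- The `β`-square commutes. -/
theorem beta_square (hNM : N ∣ M) :
    (heckeBetaBar Qb M ℓ).comp (levelIncl N M hNM) =
      (levelIncl (N * ℓ) (M * ℓ) (Nat.mul_dvd_mul_right hNM ℓ)).comp (heckeBetaBar Qb N ℓ) := by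
  apply AlgHom.ext
  intro x
  apply Subtype.ext
  rw [AlgHom.comp_apply, AlgHom.comp_apply, coe_heckeBetaBar, coe_levelIncl, coe_levelIncl,
    coe_heckeBetaBar]

/-- `π' (j_ℓ) = j_ℓ`. -/
theorem levelIncl_jl (hNM : N ∣ M) :
    levelIncl (N * ℓ) (M * ℓ) (Nat.mul_dvd_mul_right hNM ℓ) (jl N ℓ) = jl M ℓ := by
  apply Subtype.ext
  rw [coe_levelIncl, jl, jl, FracR.coe_jdF, FracR.coe_jdF]

/-- **Norm compatibility** for the `α`-square. -/
theorem norm_compat (hNM : N ∣ M) (hℓ : ℓ.Prime) (hℓM : ¬ ℓ ∣ M) (f : FF (N * ℓ)) :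
    BaseChange19.normAlong (heckeAlphaBar Qb M ℓ)
        (levelIncl (N * ℓ) (M * ℓ) (Nat.mul_dvd_mul_right hNM ℓ) f) =
      levelIncl N M hNM (BaseChange19.normAlong (heckeAlphaBar Qb N ℓ) f) := by
  have hℓN : ¬ ℓ ∣ N := fun h => hℓM (h.trans hNM)
  unfold BaseChange19.normAlong
  letI := algebraAlong (heckeAlphaBar Qb N ℓ)
  letI := algebraAlong (heckeAlphaBar Qb M ℓ)
  have hsq : ∀ c : FF N, (levelIncl (N * ℓ) (M * ℓ) (Nat.mul_dvd_mul_right hNM ℓ)).toRingHom
      (algebraMap (FF N) (FF (N * ℓ)) c) =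
      algebraMap (FF M) (FF (M * ℓ)) ((levelIncl N M hNM).toRingHom c) := fun c =>
    (AlgHom.congr_fun (alpha_square N M ℓ hNM) c).symm
  have hn' : (minpoly (FF M) ((levelIncl (N * ℓ) (M * ℓ)
      (Nat.mul_dvd_mul_right hNM ℓ)).toRingHom (jl N ℓ))).natDegree = ℓ + 1 := by
    have h1 : (levelIncl (N * ℓ) (M * ℓ) (Nat.mul_dvd_mul_right hNM ℓ)).toRingHom (jl N ℓ) =
        jl M ℓ := levelIncl_jl N M ℓ hNM
    rw [h1]
    exact natDegree_minpoly_jl M ℓ hℓ hℓM
  exact norm_map_of_natDegree_minpoly (levelIncl N M hNM).toRingHom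
    (levelIncl (N * ℓ) (M * ℓ) (Nat.mul_dvd_mul_right hNM ℓ)).toRingHom hsq
    (jl N ℓ) (ℓ + 1) (Nat.succ_ne_zero ℓ) (natDegree_minpoly_jl N ℓ hℓ hℓN) hn'
    (AlongDegree25.finrankAlong_alpha Qb N ℓ hℓ hℓN)
    (AlongDegree25.finrankAlong_alpha Qb M ℓ hℓ hℓM) f

end Level

end Fermat.Agent.ES.HECKE.LevelCompat19
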