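/-
Program I (S37) / chapter ES/HECKE / helper19.

`LevelCompatMain19` (H5): **`π^* ∘ T_ℓ^{(N)} = T_ℓ^{(M)} ∘ π^*`** for `N ∣ M`, `ℓ` prime, `ℓ ∤ M`:
on divisors (`levelCompat_div`) and on `J₀ = Pic⁰` (`levelCompat`), where `π^*` is the pullback
along the level inclusion `Fbar N ⊆ Fbar M` (`levelPullback`).
The norm formulas along `α_N`, `α_M` are hypotheses (generic proof: `NormFormula15`).
-/
import Mathlib
import Fermat.Agent.ES.HECKE.LevelCompat19

set_option autoImplicit false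
set_option linter.style.haveILetI false
set_option linter.unusedSectionVars false

open AlgebraicCurve ModularCurve

noncomputable section

namespace Fermat.Agent.ES.HECKE.LevelCompatMain19

open Fermat.Agent.X0 Fermat.Agent.ES.HECKE Fermat.Agent.RED.TOP
open Fermat.Agent.ES.HECKE.InputsMain19 (Qb)
open Fermat.Agent.ES.HECKE.LevelCompat19

/-! ### pullback on `Pic⁰` along an embedding -/

section PullbackHomAlong

variable {K F F' : Type*} [Field K] [Field F] [Field F'] [Algebra K F] [Algebra K F']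
  [HasPrincipalDivisors K F']

/-- `φ^* : Pic⁰ F → Pic⁰ F'` along an integral embedding with the fundamental identity. -/
def pullbackHomAlong (φ : F →ₐ[K] F') (hφ : φ.toRingHom.IsIntegral)
    (hFI : FundamentalIdentityAlong K φ hφ) : Pic0 K F →+ Pic0 K F' :=
  letI := algebraAlong φ
  haveI := isScalarTower_along φ
  haveI := isIntegral_along φ hφ
  haveI : FundamentalIdentity K F F' := hFI
  Pic0.pullbackHom F'

theorem pullbackHomAlong_mk (φ : F →ₐ[K] F') (hφ : φ.toRingHom.IsIntegral)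
    (hFI : FundamentalIdentityAlong K φ hφ) (D : Divisor.degZero (K := K) (F := F)) :
    pullbackHomAlong φ hφ hFI (Pic0.mk D) =
      Pic0.mk ⟨Divisor.pullbackAlong φ hφ (D : Divisor K F),
        Divisor.pullbackAlong_mem_degZero φ hφ hFI D.2⟩ := rfl

end PullbackHomAlong

/-! ### the level pullback and its compatibility with `T_ℓ` -/

section Level

variable (N M ℓ : ℕ) [NeZero N] [NeZero M] [NeZero ℓ]

/-- `π^* : J₀(N) → J₀(M)`. -/
def levelPullback (hNM : N ∣ M) : JZero N →+ JZero M :=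
  haveI := FbarFacts20.hasPrincipalDivisors_bar M
  pullbackHomAlong (levelIncl N M hNM) (isIntegral_levelIncl N M hNM)
    (fundamentalIdentityAlong_levelIncl N M hNM)

/-- **(H5) on divisors.** -/
theorem levelCompat_div (hNM : N ∣ M) (hℓ : ℓ.Prime) (hℓM : ¬ ℓ ∣ M)
    (hnormN : NormFormulaAlong Qb (heckeAlphaBar Qb N ℓ)
      (AlongDegree25.finiteAlong_alpha Qb N ℓ hℓ (fun h => hℓM (h.trans hNM))))
    (hnormM : NormFormulaAlong Qb (heckeAlphaBar Qb M ℓ)
      (AlongDegree25.finiteAlong_alpha Qb M ℓ hℓ hℓM))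
    (D : Divisor Qb (FF N)) :
    haveI := FbarFacts20.hasPrincipalDivisors_bar M
    haveI := InputsMain19.hasPrincipalDivisors_level N ℓ
    haveI := InputsMain19.hasPrincipalDivisors_level M ℓ
    Divisor.pullbackAlong (levelIncl N M hNM) (isIntegral_levelIncl N M hNM)
        (heckeDivBar (AlongDegree25.heckeAlphaBarIntegral Qb N ℓ hℓ (fun h => hℓM (h.trans hNM)))
          (AlongDegree25.heckeBetaBarIntegral Qb N ℓ hℓ (fun h => hℓM (h.trans hNM))) D) =
      heckeDivBar (AlongDegree25.heckeAlphaBarIntegral Qb M ℓ hℓ hℓM)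
        (AlongDegree25.heckeBetaBarIntegral Qb M ℓ hℓ hℓM)
        (Divisor.pullbackAlong (levelIncl N M hNM) (isIntegral_levelIncl N M hNM) D) := by
  haveI := FbarFacts20.hasPrincipalDivisors_bar M
  haveI := InputsMain19.hasPrincipalDivisors_level N ℓ
  haveI := InputsMain19.hasPrincipalDivisors_level M ℓ
  have hℓN : ¬ ℓ ∣ N := fun h => hℓM (h.trans hNM)
  exact BaseChange19.pullbackAlong_correspondence
    (heckeAlphaBar Qb N ℓ) (heckeBetaBar Qb N ℓ) (levelIncl N M hNM)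
    (heckeAlphaBar Qb M ℓ) (heckeBetaBar Qb M ℓ)
    (levelIncl (N * ℓ) (M * ℓ) (Nat.mul_dvd_mul_right hNM ℓ))
    (alpha_square N M ℓ hNM) (beta_square N M ℓ hNM)
    (AlongDegree25.heckeAlphaBarIntegral Qb N ℓ hℓ hℓN)
    (AlongDegree25.heckeBetaBarIntegral Qb N ℓ hℓ hℓN)
    (isIntegral_levelIncl N M hNM)
    (AlongDegree25.heckeAlphaBarIntegral Qb M ℓ hℓ hℓM)
    (AlongDegree25.heckeBetaBarIntegral Qb M ℓ hℓ hℓM)
    (isIntegral_levelIncl (N * ℓ) (M * ℓ) (Nat.mul_dvd_mul_right hNM ℓ))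
    (AlongDegree25.finiteAlong_alpha Qb N ℓ hℓ hℓN)
    (AlongDegree25.finiteAlong_alpha Qb M ℓ hℓ hℓM)
    hnormN hnormM (norm_compat N M ℓ hNM hℓ hℓM) D

/-- **(H5) on `J₀`**: `π^* ∘ T_ℓ^{(N)} = T_ℓ^{(M)} ∘ π^*`. -/
theorem levelCompat (hNM : N ∣ M) (hℓ : ℓ.Prime) (hℓM : ¬ ℓ ∣ M)
    (hnormN : NormFormulaAlong Qb (heckeAlphaBar Qb N ℓ)
      (AlongDegree25.finiteAlong_alpha Qb N ℓ hℓ (fun h => hℓM (h.trans hNM))))
    (hnormM : NormFormulaAlong Qb (heckeAlphaBar Qb M ℓ)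
      (AlongDegree25.finiteAlong_alpha Qb M ℓ hℓ hℓM))
    (x : JZero N) :
    levelPullback N M hNM (heckeOperatorAlong Qb N ℓ x) =
      heckeOperatorAlong Qb M ℓ (levelPullback N M hNM x) := by
  haveI := FbarFacts20.hasPrincipalDivisors_bar M
  haveI := InputsMain19.hasPrincipalDivisors_level N ℓ
  haveI := InputsMain19.hasPrincipalDivisors_level M ℓ
  have hℓN : ¬ ℓ ∣ N := fun h => hℓM (h.trans hNM)
  rw [heckeOperatorAlong_eq (AlongDegree25.heckeAlphaBarIntegral Qb N ℓ hℓ hℓN)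
      (AlongDegree25.heckeBetaBarIntegral Qb N ℓ hℓ hℓN)
      (InputsMain19.fundamentalIdentityAlong_beta N ℓ hℓ hℓN)
      (AlongDegree25.finiteAlong_alpha Qb N ℓ hℓ hℓN) hnormN,
    heckeOperatorAlong_eq (AlongDegree25.heckeAlphaBarIntegral Qb M ℓ hℓ hℓM)
      (AlongDegree25.heckeBetaBarIntegral Qb M ℓ hℓ hℓM)
      (InputsMain19.fundamentalIdentityAlong_beta M ℓ hℓ hℓM)
      (AlongDegree25.finiteAlong_alpha Qb M ℓ hℓ hℓM) hnormM]
  obtain ⟨D, rfl⟩ := Pic0.mk_surjective x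
  unfold levelPullback heckePic0Bar
  rw [Pic0.correspondence_mk, pullbackHomAlong_mk, pullbackHomAlong_mk, Pic0.correspondence_mk]
  congr 1
  apply Subtype.ext
  exact levelCompat_div N M ℓ hNM hℓ hℓM hnormN hnormM (D : Divisor Qb (FF N))

end Level

end Fermat.Agent.ES.HECKE.LevelCompatMain19
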