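/-
Program I (S37) / chapter ES/HECKE / helper18.

`ValueFormula18` = (H3)-abstract, the VALUE FORMULA.  For a finite extension `F ⊆ F'` of function
fields over an algebraically closed field `K` of characteristic zero (Prelude `Place` API), a place
`v` of `F` and `g ∈ F'` which has the value `val w ∈ K` at every place `w` of `F'` over `v`
(`g = val w ∨ 0 < ord_w (g - val w)`), the characteristic polynomial `Ψ` of (multiplication by) `g`
over `F` has coefficients in `O_v`, and its value at `v` is
`χ₀ = ∏_{w | v} (X - val w) ^ e(w|v)`, coefficientwise: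
`Ψ.coeff i = χ₀.coeff i ∨ 0 < ord_v (Ψ.coeff i - χ₀.coeff i)`.

* `charpoly_residue_of_dedekind`: abstract form (`A` local with principal maximal ideal, `B` a
  finite free Dedekind `A`-algebra): `charpoly_A(g) mod 𝔪_A = ∏_w (X - val w) ^ ord_w a`.
* `charpoly_coeff_value`, `charpoly_coeff_mem`, `norm_value`: the value formula, integrality of
  the coefficients, and the value of the norm, for `[Algebra F F']`.
* `charpoly_coeff_value_along`, `charpoly_coeff_mem_along`, `norm_value_along`: the same along a
  `K`-embedding `φ : F →ₐ[K] F'` (`letI := algebraAlong φ`), in terms of `Place.fiberAlong`,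
  `Place.ramificationIndexAlong`.

Route: `A := O_v`, `B :=` integral closure of `A` in `F'`; `charpoly_F(g) = charpoly_A(g)` by
localisation, and `charpoly_A(g) mod 𝔪_v` is computed by `CharpolyRed18.charpoly_lmul_map_eq_prod`
(`B/𝔪_v B = ∏ B/P^e`, `g - val` nilpotent on each factor); the primes of `B` are the places over `v`
(`X0.FF` dictionary), `e(P|𝔪_v) = ord_w t = e(w|v)` and `f(P|𝔪_v) = 1`.
-/
import Mathlib
import Fermat.Agent.ES.HECKE.CharpolyRed18
import Fermat.Agent.ES.HECKE.FundIdentity19
import Fermat.Agent.X0.FFSum
import Fermat.Agent.X0.FFDedekind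
import Fermat.Prelude.Def_AlgebraicCurve_Correspondence

set_option autoImplicit false
set_option linter.style.haveILetI false
set_option linter.unusedSectionVars false

open AlgebraicCurve IsDedekindDomain Polynomial

noncomputable section

namespace Fermat.Agent.ES.HECKE.ValueFormula18

open Fermat.Agent.X0 Fermat.Agent.X0.FF Fermat.Agent.ES.HECKE.CharpolyRed18
open Ideal UniqueFactorizationMonoid IsLocalRing

section Factors

variable {A B : Type*} [CommRing A] [IsLocalRing A] [CommRing B] [IsDedekindDomain B]
  [Algebra A B] [Module.Finite A B]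

/-- Over a local ring `A`, every nonzero prime of a finite Dedekind `A`-algebra `B` is a factor of
`𝔪_A B`. -/
theorem mem_factors_toFinset_iff (hp : map (algebraMap A B) (maximalIdeal A) ≠ ⊥) (P : Ideal B) :
    P ∈ (factors (map (algebraMap A B) (maximalIdeal A))).toFinset ↔ P.IsPrime ∧ P ≠ ⊥ := by
  classical
  rw [Multiset.mem_toFinset]
  constructor
  · intro h
    have := prime_of_factor _ h
    exact ⟨Ideal.isPrime_of_prime this, this.ne_zero⟩
  · rintro ⟨hP, hP0⟩
    have hmax : P.IsMaximal := Ring.DimensionLEOne.maximalOfPrime hP0 hP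
    haveI : Algebra.IsIntegral A B := Algebra.IsIntegral.of_finite A B
    have hunder : (P.under A).IsMaximal := Ideal.IsMaximal.under A P
    have heq : P.under A = maximalIdeal A := IsLocalRing.eq_maximalIdeal hunder
    have hle : map (algebraMap A B) (maximalIdeal A) ≤ P := by
      rw [Ideal.map_le_iff_le_comap, ← heq]
    rw [factors_eq_normalizedFactors, Ideal.mem_normalizedFactors_iff hp]
    exact ⟨hP, hle⟩

end Factors

section Inertia

variable {A B : Type*} [CommRing A] [CommRing B] [Algebra A B]

/-- The inertia degree is one if every residue class is represented by an element of `A`. -/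
theorem inertiaDeg'_eq_one_of_forall (p : Ideal A) (q : Ideal B) [hp : p.IsMaximal]
    [hq : q.IsMaximal] [q.LiesOver p]
    (h : ∀ b : B, ∃ a : A, algebraMap A B a - b ∈ q) : inertiaDeg' p q = 1 := by
  rw [inertiaDeg'_algebraMap p q]
  let _ : Field (A ⧸ p) := Ideal.Quotient.field p
  have h1ne : (1 : B ⧸ q) ≠ 0 := fun h0 =>
    hq.ne_top ((Ideal.eq_top_iff_one _).mpr (Ideal.Quotient.eq_zero_iff_mem.mp h0))
  rw [finrank_eq_one_iff_of_nonzero' (1 : B ⧸ q) h1ne]
  intro z
  obtain ⟨b, rfl⟩ := Ideal.Quotient.mk_surjective z
  obtain ⟨a, ha⟩ := h b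
  refine ⟨Ideal.Quotient.mk p a, ?_⟩
  rw [Algebra.smul_def, mul_one, Ideal.Quotient.algebraMap_mk_of_liesOver, Ideal.Quotient.eq]
  exact ha

end Inertia

section Abstract

variable {K F A B : Type*} [Field K] [Field F] [Algebra K F]
    [CommRing A] [IsDomain A] [IsLocalRing A] [CommRing B] [IsDedekindDomain B] [Algebra A B]
    [Module.Finite A B] [Module.Free A B] [FaithfulSMul A B]
    [Algebra B F] [IsFractionRing B F] [Algebra K A] [Algebra K B] [IsScalarTower K A B]
    [IsScalarTower K B F]

set_option linter.deprecated false in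
/-- **Value formula, abstract form.** `A` a local domain with principal maximal ideal `(a)`, `B` a
finite free Dedekind `A`-algebra with fraction field `F`, all residue fields of places equal to `K`.
If `g ∈ B` has the value `val w` at each place `w` of `F` centred on `B`, then the characteristic
polynomial of `g` over `A` reduces modulo `𝔪_A` to `∏_w (X - val w) ^ ord_w a`. -/
theorem charpoly_residue_of_dedekind
    (a : A) (ha : a ≠ 0) (hmax : maximalIdeal A = Ideal.span {a})
    (hres : ∀ v : Place K F, ∀ f ∈ v.toValuationSubring,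
      ∃ c : K, f = algebraMap K F c ∨ 0 < v.ord (f - algebraMap K F c))
    (S : Finset (Place K F))
    (hS : ∀ w : Place K F, w ∈ S ↔ ∀ b : B, algebraMap B F b ∈ w.toValuationSubring)
    (g : B) (val : Place K F → K)
    (hval : ∀ w ∈ S, algebraMap B F g = algebraMap K F (val w) ∨
        0 < w.ord (algebraMap B F g - algebraMap K F (val w))) :
    ((Algebra.lmul A B g).charpoly).map (Ideal.Quotient.mk (maximalIdeal A)) =
      ∏ w ∈ S, (X - C (Ideal.Quotient.mk (maximalIdeal A) (algebraMap K A (val w)))) ^
        (w.ord (algebraMap B F (algebraMap A B a))).toNat := by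
  classical
  have haB : algebraMap A B a ≠ 0 := by
    rw [Ne, FaithfulSMul.algebraMap_eq_zero_iff]; exact ha
  have hpmap : map (algebraMap A B) (maximalIdeal A) = Ideal.span {algebraMap A B a} := by
    rw [hmax, Ideal.map_span, Set.image_singleton]
  have hp : map (algebraMap A B) (maximalIdeal A) ≠ ⊥ := by
    rw [hpmap, Ne, Ideal.span_singleton_eq_bot]; exact haB
  -- the height one prime and the place attached to a factor
  let W : (factors (map (algebraMap A B) (maximalIdeal A))).toFinset → HeightOneSpectrum B :=
    fun P => ⟨P.1, ((mem_factors_toFinset_iff hp P.1).mp P.2).1,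
      ((mem_factors_toFinset_iff hp P.1).mp P.2).2⟩
  let Φ : (factors (map (algebraMap A B) (maximalIdeal A))).toFinset → Place K F :=
    fun P => Place.ofHeightOneSpectrum (K := K) (W P)
  have hΦS : ∀ P, Φ P ∈ S := fun P => (hS _).mpr fun b => (W P).valuation_le_one b
  have hΦinj : Function.Injective Φ := by
    intro P P' h
    have := dict_ofHeightOneSpectrum_injective (K := K) (F := F) h
    exact Subtype.ext (congrArg HeightOneSpectrum.asIdeal this)
  have hΦsurj : ∀ w ∈ S, ∃ P, Φ P = w := by
    intro w hw
    obtain ⟨𝔓, h𝔓⟩ := exists_eq_ofHeightOneSpectrum (K := K) (F := F) (R := B) w ((hS w).mp hw)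
    refine ⟨⟨𝔓.asIdeal, (mem_factors_toFinset_iff hp _).mpr ⟨𝔓.isPrime, 𝔓.ne_bot⟩⟩, ?_⟩
    rw [h𝔓]
  -- the congruence `b ≡ c` modulo `P` in terms of `ord`
  have hcong : ∀ (P : (factors (map (algebraMap A B) (maximalIdeal A))).toFinset) (b : B) (c : K),
      (algebraMap B F b = algebraMap K F c ∨ 0 < (Φ P).ord (algebraMap B F b - algebraMap K F c)) →
      b - algebraMap A B (algebraMap K A c) ∈ (P : Ideal B) := by
    intro P b c h
    show _ ∈ (W P).asIdeal
    rw [mem_asIdeal_iff_ord_pos (K := K) (F := F)]
    have hF : algebraMap B F (b - algebraMap A B (algebraMap K A c)) =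
        algebraMap B F b - algebraMap K F c := by
      rw [map_sub, ← IsScalarTower.algebraMap_apply K A B, ← IsScalarTower.algebraMap_apply K B F]
    rcases h with h | h
    · left
      apply IsFractionRing.injective B F
      rw [hF, h, sub_self, map_zero]
    · right
      rw [hF]; exact h
  have hr : ∀ P : (factors (map (algebraMap A B) (maximalIdeal A))).toFinset,
      g - algebraMap A B (algebraMap K A (val (Φ P))) ∈ (P : Ideal B) :=
    fun P => hcong P g _ (hval (Φ P) (hΦS P))
  rw [charpoly_lmul_map_eq_prod hp g (fun P => algebraMap K A (val (Φ P))) hr]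
  refine Finset.prod_bij (fun P _ => Φ P) (fun P _ => hΦS P) (fun P _ P' _ h => hΦinj h)
    (fun w hw => ?_) (fun P _ => ?_)
  · obtain ⟨P, hP⟩ := hΦsurj w hw
    exact ⟨P, Finset.mem_univ _, hP⟩
  · -- exponents
    congr 1
    have hPprime : (P : Ideal B).IsPrime := (W P).isPrime
    have hP0 : (P : Ideal B) ≠ ⊥ := (W P).ne_bot
    have hPmax : (P : Ideal B).IsMaximal := (W P).isMaximal
    have hf1 : inertiaDeg' (maximalIdeal A) (P : Ideal B) = 1 := by
      refine inertiaDeg'_eq_one_of_forall (maximalIdeal A) (P : Ideal B) fun b => ?_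
      obtain ⟨c, hc⟩ := hres (Φ P) (algebraMap B F b) ((W P).valuation_le_one b)
      refine ⟨algebraMap K A c, ?_⟩
      have := hcong P b c hc
      rw [← neg_sub]
      exact (P : Ideal B).neg_mem this
    have he' : ∀ (Q : Ideal B) (hQ : Q.IsPrime) (hQ0 : Q ≠ ⊥),
        (ramificationIdx' (maximalIdeal A) Q : ℤ) =
          (Place.ofHeightOneSpectrum (K := K) (F := F) ⟨Q, hQ, hQ0⟩).ord
            (algebraMap B F (algebraMap A B a)) := by
      intro Q hQ hQ0
      rw [IsDedekindDomain.ramificationIdx'_eq_normalizedFactors_count hp hQ hQ0, hpmap]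
      exact FFDedekind.count_normalizedFactors_eq_ord (K := K) (F := F) ⟨Q, hQ, hQ0⟩ haB
    have he : (ramificationIdx' (maximalIdeal A) (P : Ideal B) : ℤ) =
        (Φ P).ord (algebraMap B F (algebraMap A B a)) := he' _ hPprime hP0
    rw [hf1, mul_one, ← he, Int.toNat_natCast]

end Abstract

section Concrete

variable {K F F' : Type*} [Field K] [Field F] [Field F'] [Algebra K F] [Algebra K F']
  [Algebra F F'] [IsScalarTower K F F']

open FundIdentity19

/-- **Value formula** (non-`Along` form). `F ⊆ F'` a finite extension of function fields over an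
algebraically closed field `K` of characteristic zero, `v` a place of `F`, `g ∈ F'` with value
`val w` at each place `w` of `F'` over `v`.  Then the characteristic polynomial `Ψ` of `g` over `F`
has coefficients in `O_v` and its value at `v` is `∏_{w | v} (X - val w) ^ e(w|v)`. -/
theorem charpoly_coeff_value [IsAlgClosed K] [CharZero K] [FiniteDimensional F F']
    [HasPrincipalDivisors K F']
    (hres : ∀ w : Place K F', ∀ f ∈ w.toValuationSubring,
      ∃ c : K, f = algebraMap K F' c ∨ 0 < w.ord (f - algebraMap K F' c))
    (v : Place K F) (g : F') (val : Place K F' → K)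
    (hval : ∀ w ∈ v.fiber F', g = algebraMap K F' (val w) ∨
      0 < w.ord (g - algebraMap K F' (val w))) (i : ℕ) :
    ((Algebra.lmul F F' g).charpoly).coeff i =
        algebraMap K F ((∏ w ∈ v.fiber F', (X - C (val w)) ^ (w.ramificationIndex F)).coeff i) ∨
      0 < v.ord (((Algebra.lmul F F' g).charpoly).coeff i -
        algebraMap K F ((∏ w ∈ v.fiber F', (X - C (val w)) ^ (w.ramificationIndex F)).coeff i)) := by
  classical
  -- the discrete valuation ring `A = O_v`
  let A := v.toValuationSubring
  letI : Algebra A F' := ((algebraMap F F').comp A.subtype).toAlgebra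
  haveI : IsScalarTower A F F' := IsScalarTower.of_algebraMap_eq (fun _ => rfl)
  haveI : CharZero F := charZero_of_injective_algebraMap (algebraMap K F).injective
  haveI : Algebra.IsSeparable F F' := Algebra.IsAlgebraic.isSeparable_of_perfectField
  -- the integral closure `B` of `A` in `F'`
  let B := integralClosure A F'
  haveI hDedB : IsDedekindDomain B := integralClosure.isDedekindDomain A F F'
  haveI hFracB : IsFractionRing B F' := integralClosure.isFractionRing_of_finite_extension F F'
  haveI hFinB : Module.Finite A B := IsIntegralClosure.finite A F F' B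
  haveI hfaith : FaithfulSMul A B :=
    (faithfulSMul_iff_algebraMap_injective _ _).mpr (fun a b h => by
      have h1 : algebraMap A F' a = algebraMap A F' b :=
        congrArg (fun z : B => (z : F')) h
      exact Subtype.ext ((algebraMap F F').injective h1))
  letI : Algebra K B := ((algebraMap A B).comp (algebraMap K A)).toAlgebra
  haveI : IsScalarTower K A B := IsScalarTower.of_algebraMap_eq (fun _ => rfl)
  haveI : IsScalarTower K B F' := IsScalarTower.of_algebraMap_eq (fun c => by
    show algebraMap K F' c = algebraMap F F' (algebraMap K F c)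
    exact IsScalarTower.algebraMap_apply K F F' c)
  haveI hTF : Module.IsTorsionFree A B := FaithfulSMul.to_isTorsionFree A B
  haveI hFreeB : Module.Free A B := Module.free_of_finite_type_torsion_free'
  haveI hloc : IsLocalization (Algebra.algebraMapSubmonoid B (nonZeroDivisors A)) F' :=
    IsIntegralClosure.isLocalization A F F' B
  -- a uniformiser
  obtain ⟨t, ht⟩ := IsDiscreteValuationRing.exists_irreducible A
  have ht0 : t ≠ 0 := ht.ne_zero
  have hvt : v.ord (t : F) = 1 := v.ord_coe_irreducible ht
  have hord : ∀ w : Place K F', w.restrict F = v →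
      w.ord (algebraMap F F' (t : F)) = (w.ramificationIndex F : ℤ) := by
    intro w hw
    rw [w.ord_restrict (t : F), hw, hvt, mul_one]
  -- the fibre is the set of places centred on `B`
  have hS : ∀ w : Place K F', w ∈ v.fiber F' ↔
      ∀ b : B, algebraMap B F' b ∈ w.toValuationSubring := by
    intro w
    rw [Place.mem_fiber]
    constructor
    · intro hw b
      have hA : ∀ a : A, algebraMap A F' a ∈ w.toValuationSubring.toSubring := by
        intro a
        have ha : (a : F) ∈ (w.restrict F).toValuationSubring := by rw [hw]; exact a.2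
        exact ha
      let _ : Algebra A w.toValuationSubring :=
        ((algebraMap A F').codRestrict w.toValuationSubring.toSubring hA).toAlgebra
      have : IsScalarTower A w.toValuationSubring F' :=
        IsScalarTower.of_algebraMap_eq fun f => rfl
      have hb : IsIntegral A (algebraMap B F' b) := b.2
      have hb' : IsIntegral w.toValuationSubring (algebraMap B F' b) := hb.tower_top
      obtain ⟨z, hz⟩ := IsIntegrallyClosed.isIntegral_iff.mp hb'
      exact hz ▸ z.2
    · intro hB
      apply Place.ext
      apply valuationSubring_eq_of_le v _ _ (w.restrict F).ne_top'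
      intro a ha
      exact hB (algebraMap A B ⟨a, ha⟩)
  -- `g` is integral over `A`
  have hgw : ∀ w ∈ v.fiber F', g ∈ w.toValuationSubring := by
    intro w hw
    rcases hval w hw with h | h
    · rw [h]; exact w.algebraMap_mem' _
    · have h1 : g - algebraMap K F' (val w) ∈ w.toValuationSubring := mem_of_ord_nonneg w h.le
      have h2 := add_mem h1 (w.algebraMap_mem' (val w))
      rwa [sub_add_cancel] at h2
  have hgB : g ∈ (algebraMap B F').range := by
    apply HeightOneSpectrum.mem_integers_of_valuation_le_one
    intro 𝔓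
    have hmem : Place.ofHeightOneSpectrum (K := K) (F := F') 𝔓 ∈ v.fiber F' :=
      (hS _).mpr fun b => 𝔓.valuation_le_one b
    exact hgw _ hmem
  obtain ⟨gB, hgB⟩ := hgB
  -- apply the abstract value formula
  have key := charpoly_residue_of_dedekind (K := K) (F := F') (A := A) (B := B) t ht0
    ht.maximalIdeal_eq hres (v.fiber F') hS gB val (fun w hw => by rw [hgB]; exact hval w hw)
  -- descend the characteristic polynomial to `A`
  have hloc' := charpoly_lmul_localization A (nonZeroDivisors A) (Rₘ := F) (S := B) (Sₘ := F') gB
  rw [hgB] at hloc'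
  -- the right-hand side of `key` is the reduction of a polynomial with constant coefficients
  have hχ0 : ((∏ w ∈ v.fiber F', (X - C (val w)) ^ (w.ramificationIndex F)).map
        (algebraMap K A)).map (Ideal.Quotient.mk (maximalIdeal A)) =
      ∏ w ∈ v.fiber F', (X - C (Ideal.Quotient.mk (maximalIdeal A) (algebraMap K A (val w)))) ^
        (w.ord (algebraMap B F' (algebraMap A B t))).toNat := by
    rw [Polynomial.map_prod, Polynomial.map_prod]
    refine Finset.prod_congr rfl fun w hw => ?_
    have hexp : (w.ord (algebraMap B F' (algebraMap A B t))).toNat = w.ramificationIndex F := by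
      have htF : algebraMap B F' (algebraMap A B t) = algebraMap F F' (t : F) := rfl
      rw [htF, hord w (Place.mem_fiber.mp hw), Int.toNat_natCast]
    rw [hexp]
    simp only [Polynomial.map_pow, Polynomial.map_sub, Polynomial.map_X, Polynomial.map_C]
  have hcoeff : Ideal.Quotient.mk (maximalIdeal A) (((Algebra.lmul A B gB).charpoly).coeff i) =
      Ideal.Quotient.mk (maximalIdeal A) (algebraMap K A
        ((∏ w ∈ v.fiber F', (X - C (val w)) ^ (w.ramificationIndex F)).coeff i)) := by
    have h1 := congrArg (fun p => p.coeff i) (key.trans hχ0.symm)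
    simpa only [Polynomial.coeff_map] using h1
  rw [Ideal.Quotient.eq] at hcoeff
  rw [hloc', Polynomial.coeff_map]
  rcases (mem_maximalIdeal_iff v _).mp hcoeff with h | h
  · left
    have h2 := congrArg (Subtype.val : A → F) (sub_eq_zero.mp h)
    exact h2
  · right
    exact h

/-- Integrality of the coefficients of the characteristic polynomial at `v`. -/
theorem charpoly_coeff_mem [IsAlgClosed K] [CharZero K] [FiniteDimensional F F']
    [HasPrincipalDivisors K F']
    (hres : ∀ w : Place K F', ∀ f ∈ w.toValuationSubring,
      ∃ c : K, f = algebraMap K F' c ∨ 0 < w.ord (f - algebraMap K F' c))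
    (v : Place K F) (g : F') (hg : ∀ w ∈ v.fiber F', g ∈ w.toValuationSubring) (i : ℕ) :
    ((Algebra.lmul F F' g).charpoly).coeff i ∈ v.toValuationSubring := by
  classical
  -- choose the values of `g` on the fibre
  have hex : ∀ w : Place K F', ∃ c : K, w ∈ v.fiber F' →
      (g = algebraMap K F' c ∨ 0 < w.ord (g - algebraMap K F' c)) := by
    intro w
    by_cases hw : w ∈ v.fiber F'
    · obtain ⟨c, hc⟩ := hres w g (hg w hw)
      exact ⟨c, fun _ => hc⟩
    · exact ⟨0, fun h => absurd h hw⟩
  choose val hval using hex
  rcases charpoly_coeff_value hres v g val (fun w hw => hval w hw) i with h | h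
  · rw [h]; exact v.algebraMap_mem' _
  · have h1 := mem_of_ord_nonneg v h.le
    have h2 := add_mem h1 (v.algebraMap_mem' ((∏ w ∈ v.fiber F',
      (X - C (val w)) ^ (w.ramificationIndex F)).coeff i))
    rwa [sub_add_cancel] at h2

/-- The value of the norm: `N_{F'/F} g` has the value `∏_{w | v} (val w) ^ e(w|v)` at `v`. -/
theorem norm_value [IsAlgClosed K] [CharZero K] [FiniteDimensional F F']
    [HasPrincipalDivisors K F']
    (hres : ∀ w : Place K F', ∀ f ∈ w.toValuationSubring,
      ∃ c : K, f = algebraMap K F' c ∨ 0 < w.ord (f - algebraMap K F' c))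
    (v : Place K F) (g : F') (val : Place K F' → K)
    (hval : ∀ w ∈ v.fiber F', g = algebraMap K F' (val w) ∨
      0 < w.ord (g - algebraMap K F' (val w))) :
    Algebra.norm F g = algebraMap K F (∏ w ∈ v.fiber F', (val w) ^ (w.ramificationIndex F)) ∨
      0 < v.ord (Algebra.norm F g -
        algebraMap K F (∏ w ∈ v.fiber F', (val w) ^ (w.ramificationIndex F))) := by
  classical
  have hsum := sum_ramificationIndex hres v
  have hsum' : ∑ w ∈ v.fiber F', w.ramificationIndex F = Module.finrank F F' := by
    exact_mod_cast hsum
  have hn : Algebra.norm F g =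
      (-1) ^ Module.finrank F F' * ((Algebra.lmul F F' g).charpoly).coeff 0 := by
    rw [Algebra.norm_apply]
    exact LinearMap.det_eq_sign_charpoly_coeff _
  have hc0 : (∏ w ∈ v.fiber F', (X - C (val w)) ^ (w.ramificationIndex F)).coeff 0 =
      (-1) ^ Module.finrank F F' * ∏ w ∈ v.fiber F', (val w) ^ (w.ramificationIndex F) := by
    rw [Polynomial.coeff_zero_eq_eval_zero, Polynomial.eval_prod, ← hsum', ← Finset.prod_pow_eq_pow_sum,
      ← Finset.prod_mul_distrib]
    refine Finset.prod_congr rfl fun w _ => ?_
    rw [Polynomial.eval_pow, Polynomial.eval_sub, Polynomial.eval_X, Polynomial.eval_C, zero_sub,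
      ← mul_pow, neg_one_mul]
  have hsq : ((-1 : F) ^ Module.finrank F F') * ((-1 : F) ^ Module.finrank F F') = 1 := by
    rw [← mul_pow]; simp
  have hrew : algebraMap K F (∏ w ∈ v.fiber F', (val w) ^ (w.ramificationIndex F)) =
      (-1) ^ Module.finrank F F' * algebraMap K F
        ((∏ w ∈ v.fiber F', (X - C (val w)) ^ (w.ramificationIndex F)).coeff 0) := by
    rw [hc0, map_mul, map_pow, map_neg, map_one, ← mul_assoc, hsq, one_mul]
  rw [hn, hrew, ← mul_sub]
  rcases charpoly_coeff_value hres v g val hval 0 with h | h
  · left; rw [h]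
  · right
    have hu : ((-1 : F) ^ Module.finrank F F') ≠ 0 := pow_ne_zero _ (neg_ne_zero.mpr one_ne_zero)
    have hne : ((Algebra.lmul F F' g).charpoly).coeff 0 - algebraMap K F
        ((∏ w ∈ v.fiber F', (X - C (val w)) ^ (w.ramificationIndex F)).coeff 0) ≠ 0 := by
      intro h0
      rw [h0] at h
      simp at h
    rw [v.ord_mul hu hne, ord_pow, ord_neg, v.ord_one, mul_zero, zero_add]
    exact h

end Concrete

section Along

variable {K F F' : Type*} [Field K] [Field F] [Field F'] [Algebra K F] [Algebra K F']

/-- **Value formula along `φ`** ((H3)-abstract): for a finite `K`-embedding `φ : F → F'` of function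
fields, a place `v` of `F` and `g ∈ F'` with value `val w` at each place `w` of the fibre of `φ`
over `v`, the characteristic polynomial of `g` over `φ(F)` has the value
`∏_w (X - val w) ^ e_φ(w)` at `v`, coefficientwise. -/
theorem charpoly_coeff_value_along [IsAlgClosed K] [CharZero K] [HasPrincipalDivisors K F']
    (φ : F →ₐ[K] F') (hφ : φ.toRingHom.IsIntegral) (hfin : FiniteAlong K φ)
    {x' : F'} (hx' : IsGen K x')
    (v : Place K F) (g : F') (val : Place K F' → K)
    (hval : ∀ w ∈ Place.fiberAlong φ hφ v, g = algebraMap K F' (val w) ∨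
      0 < w.ord (g - algebraMap K F' (val w))) (i : ℕ) :
    letI := algebraAlong φ
    haveI : Module.Finite F F' := hfin
    ((Algebra.lmul F F' g).charpoly).coeff i =
        algebraMap K F ((∏ w ∈ Place.fiberAlong φ hφ v,
          (X - C (val w)) ^ (w.ramificationIndexAlong φ)).coeff i) ∨
      0 < v.ord (((Algebra.lmul F F' g).charpoly).coeff i -
        algebraMap K F ((∏ w ∈ Place.fiberAlong φ hφ v,
          (X - C (val w)) ^ (w.ramificationIndexAlong φ)).coeff i)) := by
  letI := algebraAlong φ
  haveI := isScalarTower_along φ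
  haveI : FiniteDimensional F F' := hfin
  exact charpoly_coeff_value (fun w f hf => exists_ord_sub_pos hx' w hf) v g val hval i

/-- Integrality at `v` of the coefficients of the characteristic polynomial along `φ`. -/
theorem charpoly_coeff_mem_along [IsAlgClosed K] [CharZero K] [HasPrincipalDivisors K F']
    (φ : F →ₐ[K] F') (hφ : φ.toRingHom.IsIntegral) (hfin : FiniteAlong K φ)
    {x' : F'} (hx' : IsGen K x')
    (v : Place K F) (g : F') (hg : ∀ w ∈ Place.fiberAlong φ hφ v, g ∈ w.toValuationSubring)
    (i : ℕ) :
    letI := algebraAlong φ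
    haveI : Module.Finite F F' := hfin
    ((Algebra.lmul F F' g).charpoly).coeff i ∈ v.toValuationSubring := by
  letI := algebraAlong φ
  haveI := isScalarTower_along φ
  haveI : FiniteDimensional F F' := hfin
  exact charpoly_coeff_mem (fun w f hf => exists_ord_sub_pos hx' w hf) v g hg i

/-- The value at `v` of the norm along `φ`. -/
theorem norm_value_along [IsAlgClosed K] [CharZero K] [HasPrincipalDivisors K F']
    (φ : F →ₐ[K] F') (hφ : φ.toRingHom.IsIntegral) (hfin : FiniteAlong K φ)
    {x' : F'} (hx' : IsGen K x')
    (v : Place K F) (g : F') (val : Place K F' → K)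
    (hval : ∀ w ∈ Place.fiberAlong φ hφ v, g = algebraMap K F' (val w) ∨
      0 < w.ord (g - algebraMap K F' (val w))) :
    letI := algebraAlong φ
    Algebra.norm F g = algebraMap K F (∏ w ∈ Place.fiberAlong φ hφ v,
        (val w) ^ (w.ramificationIndexAlong φ)) ∨
      0 < v.ord (Algebra.norm F g - algebraMap K F (∏ w ∈ Place.fiberAlong φ hφ v,
        (val w) ^ (w.ramificationIndexAlong φ))) := by
  letI := algebraAlong φ
  haveI := isScalarTower_along φ
  haveI : FiniteDimensional F F' := hfin
  exact norm_value (fun w f hf => exists_ord_sub_pos hx' w hf) v g val hval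

end Along

end Fermat.Agent.ES.HECKE.ValueFormula18
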