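/-
Program I (S37), chapter ES/HECKE (helper28): the VALUE FORMULA (H3) for the characteristic
polynomial of a correspondence.

For a finite extension `F ⊂ F'` of function fields over `K` (all places of `F'` of degree one,
`F` of characteristic zero), a place `v` of `F` and `g : F'` with prescribed values `val w : K` at
the places `w` of `F'` over `v`:  every coefficient of
`Ψ_g := (Algebra.lmul F F' g).charpoly : F[X]` is regular at `v`, and its value at `v` is the
corresponding coefficient of `∏_{w | v} (X - val w) ^ e(w|v)`.

* `charpoly_coeff_value`        : abstract form (`[Algebra F F']`);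
* `charpolyAlong_coeff_value`   : along a `K`-embedding `φ : F → F'` (Prelude `fiberAlong`,
                                   `ramificationIndexAlong`), `charpolyAlong φ hfin g` being
                                   `(Algebra.lmul F F' g).charpoly` for `algebraAlong φ`;
* `valueFormulaAlong`           : the same as an existence statement `∃ χ₀ : K[X], …`;
* `eq_fibrePolyAlong_of_value`  : uniqueness of the polynomial of values;
* `charpolyAlong_monic`, `charpolyAlong_natDegree`, `eval₂_charpolyAlong` (Cayley-Hamilton);
* `_of_isGen` versions for `K` algebraically closed of characteristic zero.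

Method: `R := O_v`, `S :=` integral closure of `R` in `F'` (dictionary of `NormFormula15`);
`g ∈ S`, the characteristic polynomial over `F` is the one over `R`
(`CharpolyRed18.charpoly_lmul_localization`), and modulo the maximal ideal it is computed by
`CharpolyRed18.charpoly_lmul_map_eq_prod`.
-/
import Mathlib
import Fermat.Prelude.Def_AlgebraicCurve_Correspondence
import Fermat.Agent.X0.FFDedekind
import Fermat.Agent.X0.FFDict
import Fermat.Agent.X0.FFConst
import Fermat.Agent.ES.HECKE.NormFormula15
import Fermat.Agent.ES.HECKE.CharpolyRed18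

set_option autoImplicit false
set_option linter.unusedSectionVars false
set_option linter.style.haveILetI false
set_option linter.deprecated false

open AlgebraicCurve IsDedekindDomain IsLocalRing Polynomial

noncomputable section

namespace Fermat.Agent.ES.HECKE.ValueFormula28

open Fermat.Agent.X0 Fermat.Agent.X0.FF Fermat.Agent.ES.HECKE.NormFormula15

/-! ### uniqueness of values -/

section Value

variable {K F : Type*} [Field K] [Field F] [Algebra K F]

/-- The value of a function at a place is unique. -/
theorem value_unique (v : Place K F) {c : F} {a b : K}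
    (ha : c = algebraMap K F a ∨ 0 < v.ord (c - algebraMap K F a))
    (hb : c = algebraMap K F b ∨ 0 < v.ord (c - algebraMap K F b)) : a = b := by
  by_contra hab
  have hne : algebraMap K F a - algebraMap K F b ≠ 0 := by
    rw [← map_sub]
    exact (map_ne_zero_iff _ (algebraMap K F).injective).mpr (sub_ne_zero.mpr hab)
  have h0 : v.ord (algebraMap K F a - algebraMap K F b) = 0 := by
    rw [← map_sub]; exact FF.ord_algebraMap v _
  rcases ha with ha | ha <;> rcases hb with hb | hb
  · exact hne (by rw [← ha, ← hb, sub_self])
  · rw [← ha] at h0; omega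
  · rw [← hb, ← FF.ord_neg, neg_sub] at h0; omega
  · have h1 : (c - algebraMap K F b) - (c - algebraMap K F a) =
        algebraMap K F a - algebraMap K F b := by ring
    have h2 := FF.ord_sub_ge v (f := c - algebraMap K F b) (g := c - algebraMap K F a)
      (by rw [h1]; exact hne)
    rw [h1, h0] at h2
    have := le_min hb.le ha.le
    have h3 : 0 < min (v.ord (c - algebraMap K F b)) (v.ord (c - algebraMap K F a)) :=
      lt_min hb ha
    omega

end Value

/-! ### the integral closure of `O_v` in `F'` -/

section Abstract

variable {K F : Type*} (F' : Type*) [Field K] [Field F] [Field F'] [Algebra K F] [Algebra K F']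
  [Algebra F F'] [IsScalarTower K F F'] [FiniteDimensional F F'] [CharZero F]

instance isTorsionFree_IC (v : Place K F) :
    Module.IsTorsionFree ↥v.toValuationSubring ↥(IC F' v) :=
  Module.isTorsionFree_iff_faithfulSMul.mpr (faithfulSMul_IC v)

instance free_IC (v : Place K F) : Module.Free ↥v.toValuationSubring ↥(IC F' v) :=
  Module.free_of_finite_type_torsion_free'

/-- The extension of the maximal ideal of `O_v` to `B_v` is nonzero. -/
theorem map_maximalIdeal_ne_bot (v : Place K F) :
    Ideal.map (algebraMap ↥v.toValuationSubring ↥(IC F' v))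
      (maximalIdeal ↥v.toValuationSubring) ≠ ⊥ :=
  Ideal.map_ne_bot_of_ne_bot (IsDiscreteValuationRing.not_a_field ↥v.toValuationSubring)

variable {F'}

/-- An element of `F'` lying in the valuation ring of every place over `v` lies in `B_v`. -/
theorem mem_IC_of_forall_mem (v : Place K F) {g : F'}
    (hg : ∀ w : Place K F', w.restrict F = v → g ∈ w.toValuationSubring) :
    g ∈ IC F' v := by
  have h : g ∈ (algebraMap ↥(IC F' v) F').range := by
    apply IsDedekindDomain.HeightOneSpectrum.mem_integers_of_valuation_le_one
    intro P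
    exact hg (placeOf P) (restrict_placeOf P)
  obtain ⟨s, rfl⟩ := h
  exact s.2

/-- The characteristic polynomial of multiplication by `s ∈ B_v` on `F'/F` is the one on
`B_v/O_v`. -/
theorem charpoly_lmul_IC (v : Place K F) (s : ↥(IC F' v)) :
    (Algebra.lmul F F' (s : F')).charpoly =
      ((Algebra.lmul ↥v.toValuationSubring ↥(IC F' v) s).charpoly).map
        (algebraMap ↥v.toValuationSubring F) := by
  haveI : Algebra.IsSeparable F F' := Algebra.IsAlgebraic.isSeparable_of_perfectField
  haveI : IsLocalization (Algebra.algebraMapSubmonoid ↥(IC F' v)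
      (nonZeroDivisors ↥v.toValuationSubring)) F' :=
    IsIntegralClosure.isLocalization ↥v.toValuationSubring F F' ↥(IC F' v)
  exact Fermat.Agent.ES.HECKE.CharpolyRed18.charpoly_lmul_localization ↥v.toValuationSubring
    (nonZeroDivisors ↥v.toValuationSubring) s

/-- The height-one prime attached to a factor of `𝔪_v B_v`. -/
def toH (v : Place K F)
    (P : (UniqueFactorizationMonoid.factors
      (Ideal.map (algebraMap ↥v.toValuationSubring ↥(IC F' v))
        (maximalIdeal ↥v.toValuationSubring))).toFinset) : HeightOneSpectrum ↥(IC F' v) :=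
  ⟨P.1, Ideal.Factors.isPrime _ P, Ideal.Factors.ne_bot _ P⟩

theorem asIdeal_mem_factors (v : Place K F) (Q : HeightOneSpectrum ↥(IC F' v)) :
    Q.asIdeal ∈ (UniqueFactorizationMonoid.factors
      (Ideal.map (algebraMap ↥v.toValuationSubring ↥(IC F' v))
        (maximalIdeal ↥v.toValuationSubring))).toFinset := by
  rw [Multiset.mem_toFinset, UniqueFactorizationMonoid.factors_eq_normalizedFactors,
    Ideal.mem_normalizedFactors_iff (map_maximalIdeal_ne_bot F' v)]
  refine ⟨Q.isPrime, ?_⟩
  rw [Ideal.map_le_iff_le_comap]
  exact (Ideal.over_def Q.asIdeal (maximalIdeal ↥v.toValuationSubring)).le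

/-- The (old-style) ramification index of a factor of `𝔪_v B_v` is the ramification index of the
corresponding place. -/
theorem ramificationIdx'_eq (v : Place K F)
    (P : (UniqueFactorizationMonoid.factors
      (Ideal.map (algebraMap ↥v.toValuationSubring ↥(IC F' v))
        (maximalIdeal ↥v.toValuationSubring))).toFinset) :
    Ideal.ramificationIdx' (maximalIdeal ↥v.toValuationSubring) (P : Ideal ↥(IC F' v)) =
      (placeOf (toH v P)).ramificationIndex F := by
  obtain ⟨π, hπ⟩ := IsDiscreteValuationRing.exists_irreducible ↥v.toValuationSubring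
  have hspan : maximalIdeal ↥v.toValuationSubring = Ideal.span {π} := hπ.maximalIdeal_eq
  haveI h0 : (toH v P).asIdeal.LiesOver (maximalIdeal ↥v.toValuationSubring) :=
    liesOver_IC v (toH v P)
  haveI : (toH v P).asIdeal.LiesOver (Ideal.span {π}) := hspan ▸ h0
  have h1 : Ideal.ramificationIdx' (maximalIdeal ↥v.toValuationSubring) (P : Ideal ↥(IC F' v)) =
      (toH v P).asIdeal.ramificationIdx ↥v.toValuationSubring :=
    Ideal.ramificationIdx'_eq_ramificationIdx' _ _ (map_maximalIdeal_ne_bot F' v)
  have hπ0 : algebraMap ↥v.toValuationSubring ↥(IC F' v) π ≠ 0 := by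
    rw [Ne, FaithfulSMul.algebraMap_eq_zero_iff]
    exact hπ.ne_zero
  have h2 := FFDedekind.ramificationIdx_eq_ord (K := K) (F := F') (toH v P) π hπ0
  have h3 := (placeOf (toH v P)).ord_restrict (F := F) (π : F)
  rw [restrict_placeOf, v.ord_coe_irreducible hπ, mul_one] at h3
  have h4 : algebraMap ↥(IC F' v) F' (algebraMap ↥v.toValuationSubring ↥(IC F' v) π) =
      algebraMap F F' (π : F) := rfl
  rw [h4] at h2
  rw [h1]
  have : ((toH v P).asIdeal.ramificationIdx ↥v.toValuationSubring : ℤ) =
      ((placeOf (toH v P)).ramificationIndex F : ℤ) := by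
    rw [h2]; exact h3
  exact_mod_cast this

/-- All inertia degrees are one when all places of `F'` have degree one. -/
theorem inertiaDeg'_eq_one (hdeg' : ∀ w : Place K F', w.deg = 1) (v : Place K F)
    (P : (UniqueFactorizationMonoid.factors
      (Ideal.map (algebraMap ↥v.toValuationSubring ↥(IC F' v))
        (maximalIdeal ↥v.toValuationSubring))).toFinset) :
    Ideal.inertiaDeg' (maximalIdeal ↥v.toValuationSubring) (P : Ideal ↥(IC F' v)) = 1 := by
  haveI h0 : (toH v P).asIdeal.LiesOver (maximalIdeal ↥v.toValuationSubring) :=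
    liesOver_IC v (toH v P)
  haveI : (toH v P).asIdeal.IsMaximal := (toH v P).isMaximal
  have h1 : Ideal.inertiaDeg' (maximalIdeal ↥v.toValuationSubring) (toH v P).asIdeal =
      (toH v P).asIdeal.inertiaDeg ↥v.toValuationSubring :=
    Ideal.inertiaDeg'_eq_inertiaDeg _ _
  exact h1.trans (inertiaDeg_IC hdeg' v (toH v P))

section Main

variable [HasPrincipalDivisors K F']

/-- The polynomial of values on the fibre of `v`, with multiplicities the ramification indices. -/
def fibrePoly (v : Place K F) (val : Place K F' → K) : K[X] :=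
  ∏ w ∈ v.fiber F', (X - C (val w)) ^ (w.ramificationIndex F)

/-- A function with a value at every place over `v` lies in `B_v`. -/
theorem mem_IC_of_value (v : Place K F) (g : F') (val : Place K F' → K)
    (hval : ∀ w ∈ v.fiber F',
      g = algebraMap K F' (val w) ∨ 0 < w.ord (g - algebraMap K F' (val w))) :
    g ∈ IC F' v := by
  refine mem_IC_of_forall_mem v fun w hw => ?_
  rcases hval w (Place.mem_fiber.mpr hw) with h | h
  · rw [h]; exact w.algebraMap_mem' _
  · have h1 : g - algebraMap K F' (val w) ∈ w.toValuationSubring :=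
      FF.mem_of_ord_nonneg w (le_of_lt h)
    have h2 : g = (g - algebraMap K F' (val w)) + algebraMap K F' (val w) := by ring
    rw [h2]
    exact add_mem h1 (w.algebraMap_mem' _)

/-- The characteristic polynomial of `s ∈ B_v` over `O_v`, reduced modulo the maximal ideal, is
the polynomial of values. -/
theorem charpoly_map_residue (hdeg' : ∀ w : Place K F', w.deg = 1) (v : Place K F)
    (s : ↥(IC F' v)) (val : Place K F' → K)
    (hval : ∀ w ∈ v.fiber F',
      (s : F') = algebraMap K F' (val w) ∨ 0 < w.ord ((s : F') - algebraMap K F' (val w))) :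
    ((Algebra.lmul ↥v.toValuationSubring ↥(IC F' v) s).charpoly).map
        (Ideal.Quotient.mk (maximalIdeal ↥v.toValuationSubring)) =
      (fibrePoly v val).map ((Ideal.Quotient.mk (maximalIdeal ↥v.toValuationSubring)).comp
        (algebraMap K ↥v.toValuationSubring)) := by
  classical
  have hr : ∀ P : (UniqueFactorizationMonoid.factors
      (Ideal.map (algebraMap ↥v.toValuationSubring ↥(IC F' v))
        (maximalIdeal ↥v.toValuationSubring))).toFinset,
      s - algebraMap ↥v.toValuationSubring ↥(IC F' v)
        (algebraMap K ↥v.toValuationSubring (val (placeOf (toH v P)))) ∈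
          (P : Ideal ↥(IC F' v)) := by
    intro P
    have hmem : placeOf (toH v P) ∈ v.fiber F' := Place.mem_fiber.mpr (restrict_placeOf _)
    have hF : algebraMap ↥(IC F' v) F'
        (s - algebraMap ↥v.toValuationSubring ↥(IC F' v)
          (algebraMap K ↥v.toValuationSubring (val (placeOf (toH v P))))) =
        (s : F') - algebraMap K F' (val (placeOf (toH v P))) := by
      rw [map_sub, ← IsScalarTower.algebraMap_apply K ↥v.toValuationSubring ↥(IC F' v),
        ← IsScalarTower.algebraMap_apply K ↥(IC F' v) F']
      rfl
    show _ ∈ (toH v P).asIdeal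
    rw [mem_asIdeal_iff_ord_pos (K := K) (F := F')]
    rcases hval _ hmem with h | h
    · left
      apply IsFractionRing.injective ↥(IC F' v) F'
      rw [hF, map_zero, sub_eq_zero]
      exact h
    · right
      rw [hF]
      exact h
  have key := Fermat.Agent.ES.HECKE.CharpolyRed18.charpoly_lmul_map_eq_prod
    (R := ↥v.toValuationSubring) (S := ↥(IC F' v))
    (map_maximalIdeal_ne_bot F' v) s
    (fun P => algebraMap K ↥v.toValuationSubring (val (placeOf (toH v P)))) hr
  rw [key, fibrePoly, Polynomial.map_prod]
  refine Finset.prod_bij (fun P _ => placeOf (toH v P))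
    (fun P _ => Place.mem_fiber.mpr (restrict_placeOf _)) ?_ ?_ ?_
  · intro P _ Q _ hPQ
    have := placeOf_injective hPQ
    exact Subtype.ext (congrArg HeightOneSpectrum.asIdeal this)
  · intro w hw
    have hw' := Place.mem_fiber.mp hw
    refine ⟨⟨(primeOf w hw').asIdeal, asIdeal_mem_factors v _⟩, Finset.mem_univ _, ?_⟩
    exact placeOf_primeOf w hw'
  · intro P _
    rw [ramificationIdx'_eq v P, inertiaDeg'_eq_one hdeg' v P, mul_one, Polynomial.map_pow,
      Polynomial.map_sub, Polynomial.map_X, Polynomial.map_C]
    rfl

/-- **Value formula (H3), abstract form.**  If `g` takes the value `val w` at every place `w` of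
`F'` over `v`, then every coefficient of the characteristic polynomial `Ψ_g` of multiplication by
`g` on `F'/F` is regular at `v`, and its value at `v` is the corresponding coefficient of
`∏_{w | v} (X - val w) ^ e(w|v)`. -/
theorem charpoly_coeff_value (hdeg' : ∀ w : Place K F', w.deg = 1) (v : Place K F) (g : F')
    (val : Place K F' → K)
    (hval : ∀ w ∈ v.fiber F',
      g = algebraMap K F' (val w) ∨ 0 < w.ord (g - algebraMap K F' (val w))) (i : ℕ) :
    (Algebra.lmul F F' g).charpoly.coeff i ∈ v.toValuationSubring ∧
      ((Algebra.lmul F F' g).charpoly.coeff i = algebraMap K F ((fibrePoly v val).coeff i) ∨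
        0 < v.ord ((Algebra.lmul F F' g).charpoly.coeff i -
          algebraMap K F ((fibrePoly v val).coeff i))) := by
  have hg := mem_IC_of_value v g val hval
  have h1 := charpoly_lmul_IC v (⟨g, hg⟩ : ↥(IC F' v))
  have h2 := charpoly_map_residue hdeg' v (⟨g, hg⟩ : ↥(IC F' v)) val hval
  have h3 := congrArg (fun p => p.coeff i) h2
  simp only [Polynomial.coeff_map] at h3
  have h4 : (Algebra.lmul ↥v.toValuationSubring ↥(IC F' v) ⟨g, hg⟩).charpoly.coeff i -
      algebraMap K ↥v.toValuationSubring ((fibrePoly v val).coeff i) ∈
        maximalIdeal ↥v.toValuationSubring := by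
    rw [← Ideal.Quotient.eq]; exact h3
  have h5 : (Algebra.lmul F F' g).charpoly.coeff i =
      (((Algebra.lmul ↥v.toValuationSubring ↥(IC F' v) ⟨g, hg⟩).charpoly.coeff i :
        ↥v.toValuationSubring) : F) := by
    have := congrArg (fun p => p.coeff i) h1
    simp only [Polynomial.coeff_map] at this
    exact this
  refine ⟨h5 ▸ Subtype.property _, ?_⟩
  rw [h5]
  rcases (FF.mem_maximalIdeal_iff v _).mp h4 with h | h
  · left
    have := congrArg (Subtype.val : ↥v.toValuationSubring → F) (sub_eq_zero.mp h)
    exact this
  · right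
    exact h

end Main

end Abstract

/-! ### the `Along` form -/

section Along

variable {K F F' : Type*} [Field K] [Field F] [Field F'] [Algebra K F] [Algebra K F']

/-- `Ψ_g`: the characteristic polynomial of multiplication by `g : F'` on `F'` viewed as a
finite-dimensional `F`-vector space along `φ`. -/
def charpolyAlong (φ : F →ₐ[K] F') (hfin : FiniteAlong K φ) (g : F') : F[X] :=
  letI := algebraAlong φ
  haveI : Module.Finite F F' := hfin
  (Algebra.lmul F F' g).charpoly

theorem charpolyAlong_def (φ : F →ₐ[K] F') (hfin : FiniteAlong K φ) (g : F') :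
    charpolyAlong φ hfin g =
      (letI := algebraAlong φ
       haveI : Module.Finite F F' := hfin
       (Algebra.lmul F F' g).charpoly) := rfl

theorem charpolyAlong_monic (φ : F →ₐ[K] F') (hfin : FiniteAlong K φ) (g : F') :
    (charpolyAlong φ hfin g).Monic := by
  letI := algebraAlong φ
  haveI : Module.Finite F F' := hfin
  exact LinearMap.charpoly_monic _

theorem charpolyAlong_natDegree (φ : F →ₐ[K] F') (hfin : FiniteAlong K φ) (g : F') :
    (charpolyAlong φ hfin g).natDegree = finrankAlong K φ := by
  letI := algebraAlong φ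
  haveI : Module.Finite F F' := hfin
  exact LinearMap.charpoly_natDegree _

/-- Cayley-Hamilton: `g` is a root of `Ψ_g` (coefficients transported by `φ`). -/
theorem eval₂_charpolyAlong (φ : F →ₐ[K] F') (hfin : FiniteAlong K φ) (g : F') :
    (charpolyAlong φ hfin g).eval₂ φ.toRingHom g = 0 := by
  letI := algebraAlong φ
  haveI : Module.Finite F F' := hfin
  have h := LinearMap.aeval_self_charpoly (Algebra.lmul F F' g)
  have h2 : Polynomial.aeval (Algebra.lmul F F' g) (Algebra.lmul F F' g).charpoly =
      Algebra.lmul F F' (Polynomial.aeval g (Algebra.lmul F F' g).charpoly) :=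
    (Polynomial.aeval_algHom_apply (Algebra.lmul F F') g _)
  rw [h2] at h
  have h3 := congrArg (fun L : F' →ₗ[F] F' => L 1) h
  simp only [Algebra.coe_lmul_eq_mul, LinearMap.mul_apply', LinearMap.zero_apply, mul_one] at h3
  rw [Polynomial.aeval_def] at h3
  exact h3

variable [HasPrincipalDivisors K F']

/-- The polynomial of values on the fibre of `v` along `φ`. -/
def fibrePolyAlong (φ : F →ₐ[K] F') (hφ : φ.toRingHom.IsIntegral) (v : Place K F)
    (val : Place K F' → K) : K[X] :=
  ∏ w ∈ Place.fiberAlong φ hφ v, (X - C (val w)) ^ (w.ramificationIndexAlong φ)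

variable [CharZero F]

/-- **Value formula (H3)** along `φ`, coefficientwise.  `g : F'` arbitrary (in the application
`g = ψ f`). -/
theorem charpolyAlong_coeff_value (φ : F →ₐ[K] F') (hφ : φ.toRingHom.IsIntegral)
    (hfin : FiniteAlong K φ) (hdeg' : ∀ w : Place K F', w.deg = 1) (v : Place K F) (g : F')
    (val : Place K F' → K)
    (hval : ∀ w ∈ Place.fiberAlong φ hφ v,
      g = algebraMap K F' (val w) ∨ 0 < w.ord (g - algebraMap K F' (val w))) (i : ℕ) :
    (charpolyAlong φ hfin g).coeff i ∈ v.toValuationSubring ∧
      ((charpolyAlong φ hfin g).coeff i = algebraMap K F ((fibrePolyAlong φ hφ v val).coeff i) ∨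
        0 < v.ord ((charpolyAlong φ hfin g).coeff i -
          algebraMap K F ((fibrePolyAlong φ hφ v val).coeff i))) := by
  letI := algebraAlong φ
  haveI := isScalarTower_along φ
  haveI : FiniteDimensional F F' := hfin
  exact charpoly_coeff_value hdeg' v g val hval i

/-- **Value formula (H3)** in the shape agreed for Program I: `Ψ := (Algebra.lmul F F' (ψ f)).charpoly`
for `algebraAlong φ`. -/
theorem valueFormulaAlong (φ ψ : F →ₐ[K] F') (hφ : φ.toRingHom.IsIntegral)
    (hfin : FiniteAlong K φ) (hdeg' : ∀ w : Place K F', w.deg = 1) (v : Place K F) (f : F)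
    (val : Place K F' → K)
    (hval : ∀ w ∈ Place.fiberAlong φ hφ v,
      ψ f = algebraMap K F' (val w) ∨ 0 < w.ord (ψ f - algebraMap K F' (val w))) :
    letI := algebraAlong φ
    haveI : Module.Finite F F' := hfin
    ∃ χ₀ : K[X],
      (∀ i, (Algebra.lmul F F' (ψ f)).charpoly.coeff i = algebraMap K F (χ₀.coeff i) ∨
        0 < v.ord ((Algebra.lmul F F' (ψ f)).charpoly.coeff i - algebraMap K F (χ₀.coeff i))) ∧
      χ₀ = ∏ w ∈ Place.fiberAlong φ hφ v, (X - C (val w)) ^ (w.ramificationIndexAlong φ) :=
  ⟨fibrePolyAlong φ hφ v val,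
    fun i => (charpolyAlong_coeff_value φ hφ hfin hdeg' v (ψ f) val hval i).2, rfl⟩

/-- Uniqueness: a polynomial over `K` whose coefficients are the values at `v` of the
coefficients of `Ψ_g` is the polynomial of values. -/
theorem eq_fibrePolyAlong_of_value (φ : F →ₐ[K] F') (hφ : φ.toRingHom.IsIntegral)
    (hfin : FiniteAlong K φ) (hdeg' : ∀ w : Place K F', w.deg = 1) (v : Place K F) (g : F')
    (val : Place K F' → K)
    (hval : ∀ w ∈ Place.fiberAlong φ hφ v,
      g = algebraMap K F' (val w) ∨ 0 < w.ord (g - algebraMap K F' (val w)))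
    (χ₁ : K[X])
    (hχ₁ : ∀ i, (charpolyAlong φ hfin g).coeff i = algebraMap K F (χ₁.coeff i) ∨
      0 < v.ord ((charpolyAlong φ hfin g).coeff i - algebraMap K F (χ₁.coeff i))) :
    χ₁ = fibrePolyAlong φ hφ v val := by
  ext i
  exact value_unique v (hχ₁ i) (charpolyAlong_coeff_value φ hφ hfin hdeg' v g val hval i).2

end Along

/-! ### `K` algebraically closed of characteristic zero -/

section AlgClosed

variable {K F F' : Type*} [Field K] [Field F] [Field F'] [Algebra K F] [Algebra K F']
  [IsAlgClosed K] [CharZero K] [HasPrincipalDivisors K F']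

theorem charpolyAlong_coeff_value_of_isGen (φ : F →ₐ[K] F') (hφ : φ.toRingHom.IsIntegral)
    (hfin : FiniteAlong K φ) {x' : F'} (hx' : IsGen K x') (v : Place K F) (g : F')
    (val : Place K F' → K)
    (hval : ∀ w ∈ Place.fiberAlong φ hφ v,
      g = algebraMap K F' (val w) ∨ 0 < w.ord (g - algebraMap K F' (val w))) (i : ℕ) :
    (charpolyAlong φ hfin g).coeff i ∈ v.toValuationSubring ∧
      ((charpolyAlong φ hfin g).coeff i = algebraMap K F ((fibrePolyAlong φ hφ v val).coeff i) ∨
        0 < v.ord ((charpolyAlong φ hfin g).coeff i -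
          algebraMap K F ((fibrePolyAlong φ hφ v val).coeff i))) :=
  haveI : CharZero F := charZero_of_injective_algebraMap (algebraMap K F).injective
  charpolyAlong_coeff_value φ hφ hfin (fun w => FF.deg_eq_one hx' w) v g val hval i

theorem valueFormulaAlong_of_isGen (φ ψ : F →ₐ[K] F') (hφ : φ.toRingHom.IsIntegral)
    (hfin : FiniteAlong K φ) {x' : F'} (hx' : IsGen K x') (v : Place K F) (f : F)
    (val : Place K F' → K)
    (hval : ∀ w ∈ Place.fiberAlong φ hφ v,
      ψ f = algebraMap K F' (val w) ∨ 0 < w.ord (ψ f - algebraMap K F' (val w))) :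
    letI := algebraAlong φ
    haveI : Module.Finite F F' := hfin
    ∃ χ₀ : K[X],
      (∀ i, (Algebra.lmul F F' (ψ f)).charpoly.coeff i = algebraMap K F (χ₀.coeff i) ∨
        0 < v.ord ((Algebra.lmul F F' (ψ f)).charpoly.coeff i - algebraMap K F (χ₀.coeff i))) ∧
      χ₀ = ∏ w ∈ Place.fiberAlong φ hφ v, (X - C (val w)) ^ (w.ramificationIndexAlong φ) :=
  haveI : CharZero F := charZero_of_injective_algebraMap (algebraMap K F).injective
  valueFormulaAlong φ ψ hφ hfin (fun w => FF.deg_eq_one hx' w) v f val hval

/-- Over an algebraically closed field, every function regular at the places over `v` has values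
there; the hypothesis `hval` of the value formula can be produced from regularity. -/
theorem exists_val_of_mem {x' : F'} (hx' : IsGen K x') (g : F') (S : Finset (Place K F'))
    (hg : ∀ w ∈ S, g ∈ w.toValuationSubring) :
    ∃ val : Place K F' → K, ∀ w ∈ S,
      g = algebraMap K F' (val w) ∨ 0 < w.ord (g - algebraMap K F' (val w)) := by
  classical
  have h : ∀ w : Place K F', ∃ c : K, w ∈ S →
      (g = algebraMap K F' c ∨ 0 < w.ord (g - algebraMap K F' c)) := by
    intro w
    by_cases hw : w ∈ S
    · obtain ⟨c, hc⟩ := FF.exists_ord_sub_pos hx' w (hg w hw)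
      exact ⟨c, fun _ => hc⟩
    · exact ⟨0, fun h => absurd h hw⟩
  choose val hval using h
  exact ⟨val, fun w hw => hval w hw⟩

end AlgClosed

end Fermat.Agent.ES.HECKE.ValueFormula28
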